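/-
P-S40 research (R1/R2), NEW directory `S40x/Tame` (imported by none of the 37 frozen closures).

**Harmonicity at a node from the glue ring** (helper17, note 2559): the statement (H1) "a function
without zeros and poles in the supersingular annulus `s` has the same valuation at both Gauss
valuations (after removing the monomial `u'^a`)" is proved WITHOUT annulus valuations, Laurent rings
or completions.  The only inputs are

* the chart ring `B` (functions integral at both Gauss valuations `OI`, `O0`, with poles in a fixed set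
  `Sig` of places), characterised by these three conditions (`mem_B`);
* the evaluation `ev : B →+* k` at the node, which factors through BOTH reductions
  (`glueI`, `glue0`: the Goursat glue ring of `S34x`);
* places `v : Place K F` of the function field (Prelude vocabulary), finiteness of pole sets
  (`HasPrincipalDivisors`).

A place `v ∉ Sig` is CENTRED at the node iff `B ∩ 𝔪_v ≤ ker ev`.  Main results:

* `regAt_of_poles_not_centered` (Krull-type lemma): `g` integral at both Gauss valuations and without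
  poles centred at the node is a quotient `a / b`, `a b ∈ B`, `ev b ≠ 0`;
* `not_mem_nonunits_O0`: such a `g` which is an `s`-unit along the `∞`-branch is not small at `O0`;
* `harmonic`: `g ≠ 0` without zeros and poles centred at the node, `s`-unit along the `∞`-branch
  ⟹ `g` is a unit of `O0` and an `s`-unit along the `0`-branch.
-/
import Mathlib
import Fermat.Agent.S24.AddVal

set_option autoImplicit false
set_option linter.unusedSectionVars false

namespace Fermat.Agent.S40x.Tame.Harmonic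

open AlgebraicCurve

/-- The data of one node of the two-component special fibre, seen from the function field. -/
structure NodeCtx (K F k : Type*) [Field K] [Field F] [Algebra K F] [Field k] where
  /-- the Gauss valuation ring at the cusp `∞` -/
  OI : ValuationSubring F
  /-- the Gauss valuation ring at the cusp `0` -/
  O0 : ValuationSubring F
  /-- the chart ring -/
  B : Subring F
  /-- evaluation at the node -/
  ev : B →+* k
  /-- the places where elements of `B` may have poles ("cusps") -/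
  Sig : Set (Place K F)
  B_le_OI : ∀ h ∈ B, h ∈ OI
  B_le_O0 : ∀ h ∈ B, h ∈ O0
  B_reg : ∀ h ∈ B, ∀ v : Place K F, v ∉ Sig → h ∈ v.toValuationSubring
  mem_B : ∀ h : F, h ∈ OI → h ∈ O0 →
    (∀ v : Place K F, v ∉ Sig → h ∈ v.toValuationSubring) → h ∈ B
  /-- the evaluation factors through the reduction at `∞` -/
  glueI : ∀ h : B, (h : F) ∈ OI.nonunits → ev h = 0
  /-- the evaluation factors through the reduction at `0` -/
  glue0 : ∀ h : B, (h : F) ∈ O0.nonunits → ev h = 0

namespace NodeCtx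

variable {K F k : Type*} [Field K] [Field F] [Algebra K F] [Field k] (N : NodeCtx K F k)

/-- a place is centred at the node -/
def Centered (v : Place K F) : Prop :=
  v ∉ N.Sig ∧ ∀ h : N.B, (h : F) ∈ v.toValuationSubring.nonunits → N.ev h = 0

/-- `g` lies in the local ring of the model at the node -/
def RegAt (g : F) : Prop := ∃ a b : N.B, N.ev b ≠ 0 ∧ g * (b : F) = (a : F)

/-- `g` is a unit at the Gauss valuation `∞` whose reduction is a unit at the node -/
def SUnitI (g : F) : Prop :=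
  ∃ b₁ b₂ : N.B, N.ev b₁ ≠ 0 ∧ N.ev b₂ ≠ 0 ∧ g * (b₂ : F) - (b₁ : F) ∈ N.OI.nonunits

/-- `g` is a unit at the Gauss valuation `0` whose reduction is a unit at the node -/
def SUnit0 (g : F) : Prop :=
  ∃ b₁ b₂ : N.B, N.ev b₁ ≠ 0 ∧ N.ev b₂ ≠ 0 ∧ g * (b₂ : F) - (b₁ : F) ∈ N.O0.nonunits

theorem coe_ne_zero_of_ev_ne_zero {b : N.B} (hb : N.ev b ≠ 0) : (b : F) ≠ 0 := by
  intro h
  apply hb
  have : b = 0 := Subtype.ext h
  rw [this, map_zero]

theorem zero_mem_nonunits (A : ValuationSubring F) : (0 : F) ∈ A.nonunits := by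
  rw [ValuationSubring.mem_nonunits_iff, map_zero]
  exact zero_lt_one

theorem mul_mem_nonunits_left' (A : ValuationSubring F) {x y : F} (hx : x ∈ A.nonunits)
    (hy : y ∈ A) : x * y ∈ A.nonunits := by
  rw [ValuationSubring.mem_nonunits_iff] at hx ⊢
  have h1 : A.valuation y ≤ 1 := (A.valuation_le_one_iff _).mpr hy
  rw [map_mul]
  exact lt_of_le_of_lt (mul_le_of_le_one_right' h1) hx

theorem mul_mem_nonunits_right' (A : ValuationSubring F) {x y : F} (hx : x ∈ A)
    (hy : y ∈ A.nonunits) : x * y ∈ A.nonunits := by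
  rw [mul_comm]
  exact mul_mem_nonunits_left' A hy hx

theorem neg_mem_nonunits' (A : ValuationSubring F) {x : F} (hx : x ∈ A.nonunits) :
    -x ∈ A.nonunits := by
  rw [ValuationSubring.mem_nonunits_iff] at hx ⊢
  rwa [Valuation.map_neg]

/-- **The core**: an element of the local ring at the node which is an `s`-unit along the
`∞`-branch is not small at the Gauss valuation `0`. -/
theorem not_mem_nonunits_O0 {g : F} (hreg : N.RegAt g) (hs : N.SUnitI g) :
    g ∉ N.O0.nonunits := by
  intro hg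
  obtain ⟨a, b, hb, hab⟩ := hreg
  obtain ⟨b₁, b₂, hb₁, hb₂, hsm⟩ := hs
  -- `a = g b` is small at `0`
  have ha0 : (a : F) ∈ N.O0.nonunits := by
    rw [← hab]
    exact mul_mem_nonunits_left' N.O0 hg (N.B_le_O0 _ b.2)
  have hea : N.ev a = 0 := N.glue0 a ha0
  -- `a b₂ - b₁ b = b (g b₂ - b₁)` is small at `∞`
  have h1 : ((a * b₂ - b₁ * b : N.B) : F) ∈ N.OI.nonunits := by
    have : ((a * b₂ - b₁ * b : N.B) : F) = (b : F) * (g * (b₂ : F) - (b₁ : F)) := by
      push_cast
      rw [← hab]
      ring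
    rw [this]
    exact mul_mem_nonunits_right' N.OI (N.B_le_OI _ b.2) hsm
  have h2 := N.glueI _ h1
  rw [map_sub, map_mul, map_mul, hea, zero_mul, zero_sub, neg_eq_zero] at h2
  exact (mul_ne_zero hb₁ hb) h2

section places

/-- discreteness: a nonzero element of the maximal ideal of a place clears denominators -/
theorem exists_pow_mul_mem (v : Place K F) {ψ : F} (hψ : ψ ∈ v.toValuationSubring.nonunits)
    (hψ0 : ψ ≠ 0) (x : F) : ∃ m : ℕ, ψ ^ m * x ∈ v.toValuationSubring := by
  rcases eq_or_ne x 0 with rfl | hx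
  · exact ⟨0, by simp⟩
  have hpos : 0 < v.ord ψ := by
    have h1 : ψ ∈ v.toValuationSubring := v.toValuationSubring.nonunits_le hψ
    have h2 : 0 ≤ v.ord ψ := (Fermat.Agent.S24.place_mem_iff_ord_nonneg v hψ0).mp h1
    rcases h2.lt_or_eq with h | h
    · exact h
    · exfalso
      have h3 : 0 ≤ v.ord ψ⁻¹ := by rw [v.ord_inv, ← h]; simp
      have h4 : ψ⁻¹ ∈ v.toValuationSubring :=
        (Fermat.Agent.S24.place_mem_iff_ord_nonneg v (inv_ne_zero hψ0)).mpr h3
      rw [ValuationSubring.mem_nonunits_iff] at hψ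
      have h5 : v.toValuationSubring.valuation ψ⁻¹ ≤ 1 :=
        (v.toValuationSubring.valuation_le_one_iff _).mpr h4
      rw [map_inv₀] at h5
      have h6 : v.toValuationSubring.valuation ψ ≠ 0 :=
        (Valuation.ne_zero_iff _).mpr hψ0
      have h7 : (1 : _) ≤ v.toValuationSubring.valuation ψ := by
        rwa [inv_le_one₀ (zero_lt_iff.mpr h6)] at h5
      exact absurd hψ (not_lt.mpr h7)
  refine ⟨(-v.ord x).toNat, ?_⟩
  have hne : ψ ^ (-v.ord x).toNat * x ≠ 0 := mul_ne_zero (pow_ne_zero _ hψ0) hx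
  rw [Fermat.Agent.S24.place_mem_iff_ord_nonneg v hne, v.ord_mul (pow_ne_zero _ hψ0) hx]
  have h8 : v.ord (ψ ^ (-v.ord x).toNat) = ((-v.ord x).toNat : ℤ) * v.ord ψ := by
    have := v.ord_zpow ψ ((-v.ord x).toNat : ℤ)
    rwa [zpow_natCast] at this
  rw [h8]
  have h9 : (-v.ord x) ≤ ((-v.ord x).toNat : ℤ) := Int.self_le_toNat _
  have h10 : (0 : ℤ) ≤ ((-v.ord x).toNat : ℤ) := Int.natCast_nonneg _
  nlinarith

/-- clearing finitely many non-centred poles -/
theorem exists_clear (g : F) (S : Finset (Place K F))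
    (hS : ∀ v ∈ S, v ∉ N.Sig ∧ ¬ N.Centered v) :
    ∃ h₂ : N.B, N.ev h₂ ≠ 0 ∧ ∀ v ∈ S, g * (h₂ : F) ∈ v.toValuationSubring := by
  classical
  induction S using Finset.induction_on with
  | empty => exact ⟨1, by rw [map_one]; exact one_ne_zero, by simp⟩
  | insert v S hv ih =>
    obtain ⟨h₂, hev, hmem⟩ := ih fun w hw => hS w (Finset.mem_insert_of_mem hw)
    obtain ⟨hvS, hvC⟩ := hS v (Finset.mem_insert_self v S)
    have : ∃ ψ : N.B, (ψ : F) ∈ v.toValuationSubring.nonunits ∧ N.ev ψ ≠ 0 := by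
      by_contra hcon
      push Not at hcon
      exact hvC ⟨hvS, hcon⟩
    obtain ⟨ψ, hψ, hψev⟩ := this
    obtain ⟨m, hm⟩ := exists_pow_mul_mem v hψ (N.coe_ne_zero_of_ev_ne_zero hψev) (g * (h₂ : F))
    refine ⟨ψ ^ m * h₂, ?_, ?_⟩
    · rw [map_mul, map_pow]
      exact mul_ne_zero (pow_ne_zero _ hψev) hev
    · intro w hw
      have hcoe : g * ((ψ ^ m * h₂ : N.B) : F) = (ψ : F) ^ m * (g * (h₂ : F)) := by
        push_cast
        ring
      rw [hcoe]
      rcases Finset.mem_insert.mp hw with rfl | hwS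
      · exact hm
      · have hwSig : w ∉ N.Sig := (hS w hw).1
        exact w.toValuationSubring.mul_mem _ _
          (w.toValuationSubring.pow_mem (N.B_reg _ ψ.2 w hwSig) m) (hmem w hwS)

variable [HasPrincipalDivisors K F]

/-- **Krull-type lemma**: integral at both Gauss valuations and no pole centred at the node
⟹ regular at the node. -/
theorem regAt_of_poles_not_centered {g : F} (hI : g ∈ N.OI) (h0 : g ∈ N.O0)
    (hpoles : ∀ v : Place K F, v ∉ N.Sig → g ∉ v.toValuationSubring → ¬ N.Centered v) :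
    N.RegAt g := by
  classical
  rcases eq_or_ne g 0 with rfl | hg
  · exact ⟨0, 1, by rw [map_one]; exact one_ne_zero, by simp⟩
  obtain ⟨D, hD, -⟩ := HasPrincipalDivisors.exists_divisor (K := K) g hg
  set S : Finset (Place K F) :=
    D.support.filter fun v => v ∉ N.Sig ∧ g ∉ v.toValuationSubring with hSdef
  have hS : ∀ v ∈ S, v ∉ N.Sig ∧ ¬ N.Centered v := by
    intro v hv
    rw [hSdef, Finset.mem_filter] at hv
    exact ⟨hv.2.1, hpoles v hv.2.1 hv.2.2⟩
  obtain ⟨h₂, hev, hmem⟩ := N.exists_clear g S hS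
  have hall : ∀ v : Place K F, v ∉ N.Sig → g * (h₂ : F) ∈ v.toValuationSubring := by
    intro v hv
    by_cases hgv : g ∈ v.toValuationSubring
    · exact v.toValuationSubring.mul_mem _ _ hgv (N.B_reg _ h₂.2 v hv)
    · apply hmem
      rw [hSdef, Finset.mem_filter]
      refine ⟨?_, hv, hgv⟩
      rw [Finsupp.mem_support_iff, hD]
      intro h
      apply hgv
      rw [Fermat.Agent.S24.place_mem_iff_ord_nonneg v hg, h]
  have hB : g * (h₂ : F) ∈ N.B :=
    N.mem_B _ (N.OI.mul_mem _ _ hI (N.B_le_OI _ h₂.2)) (N.O0.mul_mem _ _ h0 (N.B_le_O0 _ h₂.2)) hall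
  exact ⟨⟨_, hB⟩, h₂, hev, rfl⟩

/-- `s`-units along the `∞`-branch are units of `OI`. -/
theorem SUnitI.mem_and_inv_mem {g : F} (hs : N.SUnitI g) : g ∈ N.OI ∧ g⁻¹ ∈ N.OI := by
  obtain ⟨b₁, b₂, hb₁, hb₂, hsm⟩ := hs
  -- `b₁`, `b₂` are units of `OI`
  have hunit : ∀ b : N.B, N.ev b ≠ 0 → N.OI.valuation (b : F) = 1 := by
    intro b hb
    have h1 : N.OI.valuation (b : F) ≤ 1 := (N.OI.valuation_le_one_iff _).mpr (N.B_le_OI _ b.2)
    rcases h1.lt_or_eq with h | h
    · exact absurd (N.glueI b ((ValuationSubring.mem_nonunits_iff _).mpr h)) hb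
    · exact h
  have h1 := hunit b₁ hb₁
  have h2 := hunit b₂ hb₂
  rw [ValuationSubring.mem_nonunits_iff] at hsm
  -- `v (g b₂) = 1`
  have h3 : N.OI.valuation (g * (b₂ : F)) = 1 := by
    have : g * (b₂ : F) = (g * (b₂ : F) - (b₁ : F)) + (b₁ : F) := by ring
    rw [this, Valuation.map_add_eq_of_lt_right _ (by rw [h1]; exact hsm), h1]
  rw [map_mul, h2, mul_one] at h3
  constructor
  · exact (N.OI.valuation_le_one_iff _).mp h3.le
  · apply (N.OI.valuation_le_one_iff _).mp
    rw [map_inv₀, h3, inv_one]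

theorem SUnitI.ne_zero {g : F} (hs : N.SUnitI g) : g ≠ 0 := by
  rintro rfl
  obtain ⟨b₁, b₂, hb₁, -, hsm⟩ := hs
  rw [zero_mul, zero_sub] at hsm
  have h1 : (b₁ : F) ∈ N.OI.nonunits := by
    have := neg_mem_nonunits' N.OI hsm
    rwa [neg_neg] at this
  exact hb₁ (N.glueI b₁ h1)

theorem SUnitI.inv {g : F} (hs : N.SUnitI g) : N.SUnitI g⁻¹ := by
  have hg0 := hs.ne_zero
  have hmem := hs.mem_and_inv_mem
  obtain ⟨b₁, b₂, hb₁, hb₂, hsm⟩ := hs
  refine ⟨b₂, b₁, hb₂, hb₁, ?_⟩
  have : g⁻¹ * (b₁ : F) - (b₂ : F) = -(g⁻¹ * (g * (b₂ : F) - (b₁ : F))) := by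
    field_simp
    ring
  rw [this]
  exact neg_mem_nonunits' N.OI (mul_mem_nonunits_right' N.OI hmem.2 hsm)

/-- **HARMONICITY (H1), ring form.**  A nonzero function without zeros and poles centred at the
node, which is an `s`-unit along the `∞`-branch, is a unit at the Gauss valuation `0`, regular at
the node together with its inverse, and an `s`-unit along the `0`-branch. -/
theorem harmonic {g : F} (hs : N.SUnitI g)
    (hord : ∀ v : Place K F, N.Centered v → v.ord g = 0) :
    (g ∈ N.O0 ∧ g⁻¹ ∈ N.O0) ∧ N.RegAt g ∧ N.RegAt g⁻¹ ∧ N.SUnit0 g := by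
  have hg0 : g ≠ 0 := hs.ne_zero
  have hmem := hs.mem_and_inv_mem
  have hpoles : ∀ (x : F), x ≠ 0 → (∀ v : Place K F, N.Centered v → v.ord x = 0) →
      ∀ v : Place K F, v ∉ N.Sig → x ∉ v.toValuationSubring → ¬ N.Centered v := by
    intro x hx hordx v _ hxv hc
    apply hxv
    rw [Fermat.Agent.S24.place_mem_iff_ord_nonneg v hx, hordx v hc]
  have hordinv : ∀ v : Place K F, N.Centered v → v.ord g⁻¹ = 0 := by
    intro v hv
    rw [v.ord_inv, hord v hv, neg_zero]
  -- `g` is not small at `0`, nor is `g⁻¹`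
  have key : ∀ x : F, N.SUnitI x → (∀ v : Place K F, N.Centered v → v.ord x = 0) →
      x ∈ N.O0 → N.RegAt x := by
    intro x hxs hxord hx0
    exact N.regAt_of_poles_not_centered hxs.mem_and_inv_mem.1 hx0 (hpoles x hxs.ne_zero hxord)
  have hunit : g ∈ N.O0 ∧ g⁻¹ ∈ N.O0 := by
    rcases N.O0.mem_or_inv_mem g with h | h
    · refine ⟨h, ?_⟩
      have hreg := key g hs hord h
      have hnot := N.not_mem_nonunits_O0 hreg hs
      rw [ValuationSubring.mem_nonunits_iff, not_lt] at hnot
      apply (N.O0.valuation_le_one_iff _).mp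
      rw [map_inv₀]
      exact inv_le_one_of_one_le₀ hnot
    · refine ⟨?_, h⟩
      have hreg := key g⁻¹ hs.inv hordinv h
      have hnot := N.not_mem_nonunits_O0 hreg hs.inv
      rw [ValuationSubring.mem_nonunits_iff, not_lt, map_inv₀] at hnot
      apply (N.O0.valuation_le_one_iff _).mp
      have h6 : N.O0.valuation g ≠ 0 := (Valuation.ne_zero_iff _).mpr hg0
      exact (one_le_inv₀ (zero_lt_iff.mpr h6)).mp hnot
  have hreg : N.RegAt g := key g hs hord hunit.1
  have hreg' : N.RegAt g⁻¹ := key g⁻¹ hs.inv hordinv hunit.2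
  refine ⟨hunit, hreg, hreg', ?_⟩
  -- the `0`-branch `s`-unit: `g = a / b` with `ev a ≠ 0`
  obtain ⟨a, b, hb, hab⟩ := hreg
  obtain ⟨b₁, b₂, hb₁, hb₂, hsm⟩ := hs
  have h1 : ((a * b₂ - b₁ * b : N.B) : F) ∈ N.OI.nonunits := by
    have : ((a * b₂ - b₁ * b : N.B) : F) = (b : F) * (g * (b₂ : F) - (b₁ : F)) := by
      push_cast
      rw [← hab]
      ring
    rw [this]
    exact mul_mem_nonunits_right' N.OI (N.B_le_OI _ b.2) hsm
  have h2 := N.glueI _ h1
  rw [map_sub, map_mul, map_mul, sub_eq_zero] at h2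
  have hea : N.ev a ≠ 0 := by
    intro h
    rw [h, zero_mul] at h2
    exact (mul_ne_zero hb₁ hb) h2.symm
  refine ⟨a, b, hea, hb, ?_⟩
  rw [hab, sub_self]
  exact zero_mem_nonunits _

end places

end NodeCtx

end Fermat.Agent.S40x.Tame.Harmonic
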