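/-
P-S44/S40, block R1/C3, NEW directory `S40x/Tame`.

**The Jensen formula at a node and the TAME LEMMA, in ring form, without annulus valuations**
(helper17, notes 2559 / 2592).  On top of `Tame/Harmonic.lean` (harmonicity from the glue ring):

`E : EdgeCtx K F k` = a node context together with the valuation ring `A` of the constants
(`OI ∩ K = A = O0 ∩ K`), a constant `pi0` ("`p`") and the coordinate `u'` with `v_∞(u') = 0`,
`v_0(u') = v(pi0)`.  The local facts (L1)-(L3) about `u'` on the points centred at the node are packaged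
in `IsCoord t`: for centred `v`, `w`:  `t v ≠ 0`, `t v ∈ 𝔪_A`, `pi0 / t v ∈ 𝔪_A`,
`ord_w (u' - t v) = if w = v then 1 else 0`.

For `f` with `ord_v f = p * D v` at the centred places (`Z` = the centred support of `D`), constants
`c`, `c'` and an integer `a` with `f c⁻¹ u'^(-a)` an `s`-unit along the `∞`-branch
(`v_∞(f) = v(c)`, `n_s(f) = a`) and `f c'⁻¹` a unit of `O0` (`v_0(f) = v(c')`):

  `jensen` :  `v(c') / v(c) = v(pi0)^(a - p deg Z) * v(τ)^p`,   `τ = ∏_{v ∈ Z} (t v)^(D v)`,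

and in a torsion-free cyclic value group (`tame_congr`): `w' - w ≡ e * a  (mod p)`.
-/
import Fermat.Agent.S40x.Tame.Harmonic

set_option autoImplicit false
set_option linter.unusedSectionVars false

namespace Fermat.Agent.S40x.Tame.TameLemma

open AlgebraicCurve Fermat.Agent.S40x.Tame.Harmonic

/-- A node context with constants and the coordinate `u'`. -/
structure EdgeCtx (K F k : Type*) [Field K] [Field F] [Algebra K F] [Field k]
    extends NodeCtx K F k where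
  /-- the valuation ring of the constants -/
  A : ValuationSubring K
  mem_OI_iff : ∀ c : K, algebraMap K F c ∈ OI ↔ c ∈ A
  mem_O0_iff : ∀ c : K, algebraMap K F c ∈ O0 ↔ c ∈ A
  /-- the coordinate on the annulus -/
  u' : F
  /-- the constant `p` -/
  pi0 : K
  pi0_ne : pi0 ≠ 0
  u'_OI : u' ∈ OI ∧ u'⁻¹ ∈ OI
  u'_O0 : O0.valuation u' = O0.valuation (algebraMap K F pi0)

namespace EdgeCtx

variable {K F k : Type*} [Field K] [Field F] [Algebra K F] [Field k] (E : EdgeCtx K F k)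
variable [HasPrincipalDivisors K F]

/-! ### constants -/

theorem valuation_OI_const_le_one_iff (c : K) :
    E.OI.valuation (algebraMap K F c) ≤ 1 ↔ E.A.valuation c ≤ 1 := by
  rw [E.OI.valuation_le_one_iff, E.A.valuation_le_one_iff, E.mem_OI_iff]

theorem valuation_O0_const_le_one_iff (c : K) :
    E.O0.valuation (algebraMap K F c) ≤ 1 ↔ E.A.valuation c ≤ 1 := by
  rw [E.O0.valuation_le_one_iff, E.A.valuation_le_one_iff, E.mem_O0_iff]

theorem valuation_const_lt_one_iff_aux {Γ Γ' : Type*} [LinearOrderedCommGroupWithZero Γ]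
    [LinearOrderedCommGroupWithZero Γ'] (w : Valuation F Γ) (wA : Valuation K Γ')
    (h : ∀ c : K, w (algebraMap K F c) ≤ 1 ↔ wA c ≤ 1) (c : K) :
    w (algebraMap K F c) < 1 ↔ wA c < 1 := by
  rcases eq_or_ne c 0 with rfl | hc
  · simp
  have hcF : algebraMap K F c ≠ 0 := by
    rwa [ne_eq, map_eq_zero]
  have h1 := h c⁻¹
  rw [map_inv₀, map_inv₀, map_inv₀] at h1
  have h2 : w (algebraMap K F c) ≠ 0 := (Valuation.ne_zero_iff _).mpr hcF
  have h3 : wA c ≠ 0 := (Valuation.ne_zero_iff _).mpr hc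
  rw [inv_le_one₀ (zero_lt_iff.mpr h2), inv_le_one₀ (zero_lt_iff.mpr h3)] at h1
  constructor
  · intro hlt
    by_contra hcon
    rw [not_lt] at hcon
    exact absurd (h1.mpr hcon) (not_le.mpr hlt)
  · intro hlt
    by_contra hcon
    rw [not_lt] at hcon
    exact absurd (h1.mp hcon) (not_le.mpr hlt)

theorem const_mem_nonunits_OI {c : K} (hc : c ∈ E.A.nonunits) :
    algebraMap K F c ∈ E.OI.nonunits := by
  rw [ValuationSubring.mem_nonunits_iff] at hc ⊢
  exact (valuation_const_lt_one_iff_aux _ _ E.valuation_OI_const_le_one_iff c).mpr hc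

theorem const_mem_nonunits_O0 {c : K} (hc : c ∈ E.A.nonunits) :
    algebraMap K F c ∈ E.O0.nonunits := by
  rw [ValuationSubring.mem_nonunits_iff] at hc ⊢
  exact (valuation_const_lt_one_iff_aux _ _ E.valuation_O0_const_le_one_iff c).mpr hc

/-- a constant of `O0`-valuation one is a unit of `A` -/
theorem valuation_A_eq_one_of_O0 {c : K} (hc : E.O0.valuation (algebraMap K F c) = 1) :
    E.A.valuation c = 1 := by
  have h1 : E.A.valuation c ≤ 1 := (E.valuation_O0_const_le_one_iff c).mp hc.le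
  rcases h1.lt_or_eq with h | h
  · exfalso
    have := (valuation_const_lt_one_iff_aux _ _ E.valuation_O0_const_le_one_iff c).mpr h
    rw [hc] at this
    exact lt_irrefl _ this
  · exact h

/-! ### places -/

theorem ord_const (v : Place K F) {c : K} (hc : c ≠ 0) : v.ord (algebraMap K F c) = 0 := by
  have hcF : algebraMap K F c ≠ 0 := by rwa [ne_eq, map_eq_zero]
  have h1 : 0 ≤ v.ord (algebraMap K F c) :=
    (Fermat.Agent.S24.place_mem_iff_ord_nonneg v hcF).mp (v.algebraMap_mem' c)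
  have h2 : 0 ≤ v.ord (algebraMap K F c)⁻¹ := by
    rw [← map_inv₀]
    exact (Fermat.Agent.S24.place_mem_iff_ord_nonneg v (by rwa [ne_eq, map_eq_zero, inv_eq_zero])).mp
      (v.algebraMap_mem' c⁻¹)
  rw [v.ord_inv] at h2
  omega

theorem ord_prod_zpow (v : Place K F) {ι : Type*} (S : Finset ι) (x : ι → F) (n : ι → ℤ)
    (hx : ∀ i ∈ S, x i ≠ 0) : v.ord (∏ i ∈ S, x i ^ n i) = ∑ i ∈ S, n i * v.ord (x i) := by
  classical
  induction S using Finset.induction_on with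
  | empty => simp
  | insert i S hi ih =>
    rw [Finset.prod_insert hi, Finset.sum_insert hi]
    have h1 : x i ^ n i ≠ 0 := zpow_ne_zero _ (hx i (Finset.mem_insert_self i S))
    have h2 : ∏ j ∈ S, x j ^ n j ≠ 0 :=
      Finset.prod_ne_zero_iff.mpr fun j hj => zpow_ne_zero _ (hx j (Finset.mem_insert_of_mem hj))
    rw [v.ord_mul h1 h2, v.ord_zpow, ih fun j hj => hx j (Finset.mem_insert_of_mem hj)]

theorem prod_zpow_neg {Γ : Type*} [CommGroupWithZero Γ] {ι : Type*} (S : Finset ι) (n : ι → ℤ)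
    {P : Γ} (hP : P ≠ 0) : ∏ i ∈ S, P ^ (-n i) = P ^ (-∑ i ∈ S, n i) := by
  classical
  induction S using Finset.induction_on with
  | empty => simp
  | insert i S hi ih =>
    rw [Finset.prod_insert hi, Finset.sum_insert hi, ih, neg_add, zpow_add₀ hP]

/-- The packaged local facts (L1)-(L3): `u'` is a coordinate on the points centred at the node. -/
structure IsCoord (t : Place K F → K) : Prop where
  ne_zero : ∀ v, E.Centered v → t v ≠ 0
  small : ∀ v, E.Centered v → t v ∈ E.A.nonunits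
  big : ∀ v, E.Centered v → E.pi0 / t v ∈ E.A.nonunits
  ord_self : ∀ v, E.Centered v → v.ord (E.u' - algebraMap K F (t v)) = 1
  ord_ne : ∀ v w, E.Centered v → E.Centered w → w ≠ v →
    w.ord (E.u' - algebraMap K F (t v)) = 0

variable {E}

theorem u'_ne_zero : E.u' ≠ 0 := by
  intro h
  have := E.u'_O0
  rw [h, map_zero] at this
  exact ((Valuation.ne_zero_iff _).mpr
    (by rw [ne_eq, map_eq_zero]; exact E.pi0_ne : algebraMap K F E.pi0 ≠ 0)) this.symm

theorem IsCoord.sub_ne_zero {t : Place K F → K} (ht : E.IsCoord t) {v : Place K F}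
    (hv : E.Centered v) : E.u' - algebraMap K F (t v) ≠ 0 := by
  intro h
  have h1 := ht.ord_self v hv
  rw [h, Place.ord_zero] at h1
  exact zero_ne_one h1

/-- `u'` has neither zero nor pole at a centred place. -/
theorem IsCoord.ord_u' {t : Place K F → K} (ht : E.IsCoord t) {v : Place K F}
    (hv : E.Centered v) : v.ord E.u' = 0 := by
  have h1 := ht.ord_self v hv
  have h2 : v.ord (algebraMap K F (t v)) = 0 := ord_const v (ht.ne_zero v hv)
  have hcF : algebraMap K F (t v) ≠ 0 := by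
    rw [ne_eq, map_eq_zero]
    exact ht.ne_zero v hv
  have h3 := (Fermat.Agent.S24.isAddVal_ord v).map_add_of_lt hcF (ht.sub_ne_zero hv)
    (by rw [h1, h2]; exact zero_lt_one)
  have h4 : algebraMap K F (t v) + (E.u' - algebraMap K F (t v)) = E.u' := by ring
  rw [h4, h2] at h3
  exact h3

/-! ### `s`-units along the `∞`-branch form a group -/

theorem SUnitI.one : E.SUnitI (1 : F) :=
  ⟨1, 1, by rw [map_one]; exact one_ne_zero, by rw [map_one]; exact one_ne_zero, by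
    simp only [OneMemClass.coe_one, mul_one, sub_self]
    exact NodeCtx.zero_mem_nonunits _⟩

theorem SUnitI.mul {g₁ g₂ : F} (h₁ : E.SUnitI g₁) (h₂ : E.SUnitI g₂) : E.SUnitI (g₁ * g₂) := by
  have hm₂ := h₂.mem_and_inv_mem
  obtain ⟨b₁, b₂, hb₁, hb₂, hs⟩ := h₁
  obtain ⟨c₁, c₂, hc₁, hc₂, hs'⟩ := h₂
  refine ⟨b₁ * c₁, b₂ * c₂, ?_, ?_, ?_⟩
  · rw [map_mul]; exact mul_ne_zero hb₁ hc₁
  · rw [map_mul]; exact mul_ne_zero hb₂ hc₂
  · have : g₁ * g₂ * ((b₂ * c₂ : E.B) : F) - ((b₁ * c₁ : E.B) : F) =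
        (g₁ * (b₂ : F) - (b₁ : F)) * (g₂ * (c₂ : F)) + (b₁ : F) * (g₂ * (c₂ : F) - (c₁ : F)) := by
      push_cast
      ring
    rw [this]
    have hA : (g₁ * (b₂ : F) - (b₁ : F)) * (g₂ * (c₂ : F)) ∈ E.OI.nonunits :=
      NodeCtx.mul_mem_nonunits_left' _ hs (E.OI.mul_mem _ _ hm₂.1 (E.B_le_OI _ c₂.2))
    have hB : (b₁ : F) * (g₂ * (c₂ : F) - (c₁ : F)) ∈ E.OI.nonunits :=
      NodeCtx.mul_mem_nonunits_right' _ (E.B_le_OI _ b₁.2) hs'
    rw [ValuationSubring.mem_nonunits_iff] at hA hB ⊢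
    exact lt_of_le_of_lt (Valuation.map_add _ _ _) (max_lt hA hB)

theorem SUnitI.pow {g : F} (h : E.SUnitI g) (n : ℕ) : E.SUnitI (g ^ n) := by
  induction n with
  | zero => rw [pow_zero]; exact SUnitI.one
  | succ n ih => rw [pow_succ]; exact SUnitI.mul ih h

theorem SUnitI.zpow {g : F} (h : E.SUnitI g) (n : ℤ) : E.SUnitI (g ^ n) := by
  cases n with
  | ofNat n => rw [Int.ofNat_eq_natCast, zpow_natCast]; exact SUnitI.pow h n
  | negSucc n => rw [zpow_negSucc]; exact (SUnitI.pow h (n + 1)).inv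

theorem SUnitI.prod {ι : Type*} (S : Finset ι) (x : ι → F) (h : ∀ i ∈ S, E.SUnitI (x i)) :
    E.SUnitI (∏ i ∈ S, x i) := by
  classical
  induction S using Finset.induction_on with
  | empty => rw [Finset.prod_empty]; exact SUnitI.one
  | insert i S hi ih =>
    rw [Finset.prod_insert hi]
    exact SUnitI.mul (h i (Finset.mem_insert_self i S))
      (ih fun j hj => h j (Finset.mem_insert_of_mem hj))

/-- `(u' - t) / u'` is congruent to `1` at the Gauss valuation `∞` for a small constant `t`. -/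
theorem sunitI_sub_div {c : K} (hc : c ∈ E.A.nonunits) :
    E.SUnitI ((E.u' - algebraMap K F c) * E.u'⁻¹) := by
  refine ⟨1, 1, by rw [map_one]; exact one_ne_zero, by rw [map_one]; exact one_ne_zero, ?_⟩
  have : (E.u' - algebraMap K F c) * E.u'⁻¹ * ((1 : E.B) : F) - ((1 : E.B) : F) =
      -(algebraMap K F c * E.u'⁻¹) := by
    have := u'_ne_zero (E := E)
    push_cast
    field_simp
    ring
  rw [this]
  exact NodeCtx.neg_mem_nonunits' _
    (NodeCtx.mul_mem_nonunits_left' _ (E.const_mem_nonunits_OI hc) E.u'_OI.2)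

/-- `v_0(u' - t) = v(t)` for a constant `t` with `v(t) < v(pi0)`. -/
theorem valuation_O0_sub {c : K} (hc0 : c ≠ 0) (hc : E.pi0 / c ∈ E.A.nonunits) :
    E.O0.valuation (E.u' - algebraMap K F c) = E.O0.valuation (algebraMap K F c) := by
  have h1 : E.O0.valuation (algebraMap K F (E.pi0 / c)) < 1 := by
    have := E.const_mem_nonunits_O0 hc
    rwa [ValuationSubring.mem_nonunits_iff] at this
  rw [map_div₀, map_div₀] at h1
  have hcF : E.O0.valuation (algebraMap K F c) ≠ 0 :=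
    (Valuation.ne_zero_iff _).mpr (by rwa [ne_eq, map_eq_zero])
  rw [div_lt_one₀ (zero_lt_iff.mpr hcF), ← E.u'_O0] at h1
  rw [sub_eq_add_neg, Valuation.map_add_eq_of_lt_right _ (by rwa [Valuation.map_neg]),
    Valuation.map_neg]

/-- **The Jensen formula at a node, unit form.** -/
theorem jensen_unit {t : Place K F → K} (ht : E.IsCoord t) (p : ℤ) (D : Place K F → ℤ)
    (Z : Finset (Place K F)) (hZc : ∀ v ∈ Z, E.Centered v)
    (hZ : ∀ v, E.Centered v → D v ≠ 0 → v ∈ Z)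
    {f : F} (hf : ∀ v, E.Centered v → v.ord f = p * D v)
    {c c' : K} (hc : c ≠ 0) (hc' : c' ≠ 0) (a : ℤ)
    (hI : E.SUnitI (f * (algebraMap K F c)⁻¹ * E.u' ^ (-a)))
    (h0 : E.O0.valuation f = E.O0.valuation (algebraMap K F c')) :
    E.A.valuation (c' * c⁻¹ * E.pi0 ^ (-(a - p * ∑ v ∈ Z, D v)) *
      ((∏ v ∈ Z, t v ^ D v) ^ p)⁻¹) = 1 := by
  classical
  have hu0 := u'_ne_zero (E := E)
  have hcF : algebraMap K F c ≠ 0 := by rwa [ne_eq, map_eq_zero]
  have hf0 : f ≠ 0 := by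
    intro h
    rw [h, map_zero] at h0
    exact ((Valuation.ne_zero_iff _).mpr (by rwa [ne_eq, map_eq_zero] : algebraMap K F c' ≠ 0))
      h0.symm
  set deg : ℤ := ∑ v ∈ Z, D v with hdeg
  -- the auxiliary function
  set Q : F := ∏ v ∈ Z, ((E.u' - algebraMap K F (t v)) * E.u'⁻¹) ^ D v with hQ
  have hfac : ∀ v ∈ Z, (E.u' - algebraMap K F (t v)) * E.u'⁻¹ ≠ 0 := fun v hv =>
    mul_ne_zero (ht.sub_ne_zero (hZc v hv)) (inv_ne_zero hu0)
  have hQ0 : Q ≠ 0 := Finset.prod_ne_zero_iff.mpr fun v hv => zpow_ne_zero _ (hfac v hv)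
  have hQs : E.SUnitI Q := SUnitI.prod _ _ fun v hv =>
    SUnitI.zpow (sunitI_sub_div (ht.small v (hZc v hv))) _
  set g : F := f * (algebraMap K F c)⁻¹ * E.u' ^ (-a) * (Q ^ p)⁻¹ with hg
  have hgs : E.SUnitI g := SUnitI.mul hI (SUnitI.zpow hQs p).inv
  -- no zero or pole centred at the node
  have hQord : ∀ w, E.Centered w → w.ord Q = D w := by
    intro w hw
    rw [hQ, ord_prod_zpow w Z _ _ hfac]
    have h1 : ∀ v ∈ Z, D v * w.ord ((E.u' - algebraMap K F (t v)) * E.u'⁻¹) =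
        if w = v then D v else 0 := by
      intro v hv
      rw [w.ord_mul (ht.sub_ne_zero (hZc v hv)) (inv_ne_zero hu0), w.ord_inv, ht.ord_u' hw]
      split_ifs with hwv
      · rw [hwv, ht.ord_self v (hZc v hv)]
        ring
      · rw [ht.ord_ne v w (hZc v hv) hw hwv]
        ring
    rw [Finset.sum_congr rfl h1, Finset.sum_ite_eq Z w]
    split_ifs with hwZ
    · rfl
    · by_contra hne
      exact hwZ (hZ w hw (Ne.symm hne))
  have hgord : ∀ w, E.Centered w → w.ord g = 0 := by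
    intro w hw
    have h1 : f * (algebraMap K F c)⁻¹ ≠ 0 := mul_ne_zero hf0 (inv_ne_zero hcF)
    have h2 : E.u' ^ (-a) ≠ 0 := zpow_ne_zero _ hu0
    have h3 : (Q ^ p)⁻¹ ≠ 0 := inv_ne_zero (zpow_ne_zero _ hQ0)
    rw [hg, w.ord_mul (mul_ne_zero h1 h2) h3, w.ord_mul h1 h2, w.ord_mul hf0 (inv_ne_zero hcF),
      w.ord_inv, w.ord_inv, w.ord_zpow, w.ord_zpow, ord_const w hc, ht.ord_u' hw, hf w hw,
      hQord w hw]
    ring
  -- harmonicity
  obtain ⟨⟨hg0, hg0'⟩, -⟩ := E.toNodeCtx.harmonic hgs hgord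
  have hgv : E.O0.valuation g = 1 := by
    have h1 : E.O0.valuation g ≤ 1 := (E.O0.valuation_le_one_iff _).mpr hg0
    have h2 : E.O0.valuation g⁻¹ ≤ 1 := (E.O0.valuation_le_one_iff _).mpr hg0'
    rw [map_inv₀] at h2
    have h3 : E.O0.valuation g ≠ 0 := (Valuation.ne_zero_iff _).mpr hgs.ne_zero
    exact le_antisymm h1 ((inv_le_one₀ (zero_lt_iff.mpr h3)).mp h2)
  -- the valuation of `g` at `O0` is the valuation of a constant
  apply E.valuation_A_eq_one_of_O0
  rw [← hgv]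
  set P := E.O0.valuation (algebraMap K F E.pi0) with hP
  have hP0 : P ≠ 0 := (Valuation.ne_zero_iff _).mpr (by
    rw [ne_eq, map_eq_zero]; exact E.pi0_ne)
  set T := ∏ v ∈ Z, E.O0.valuation (algebraMap K F (t v)) ^ D v with hT
  -- the valuation of `Q`
  have hQv : E.O0.valuation Q = T * P ^ (-deg) := by
    rw [hQ, map_prod]
    have h1 : ∀ v ∈ Z, E.O0.valuation (((E.u' - algebraMap K F (t v)) * E.u'⁻¹) ^ D v) =
        E.O0.valuation (algebraMap K F (t v)) ^ D v * P ^ (-D v) := by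
      intro v hv
      rw [map_zpow₀, map_mul, map_inv₀,
        valuation_O0_sub (ht.ne_zero v (hZc v hv)) (ht.big v (hZc v hv)), E.u'_O0, mul_zpow,
        inv_zpow, ← zpow_neg]
    rw [Finset.prod_congr rfl h1, Finset.prod_mul_distrib, ← hT]
    congr 1
    rw [hdeg]
    exact prod_zpow_neg Z D hP0
  have e1 : ((T * P ^ (-deg)) ^ p)⁻¹ = (T ^ p)⁻¹ * P ^ (deg * p) := by
    rw [mul_zpow, mul_inv, ← zpow_mul]
    congr 1
    rw [← zpow_neg]
    congr 1
    ring
  have e2 : P ^ (-(a - p * deg)) = P ^ (-a) * P ^ (deg * p) := by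
    rw [← zpow_add₀ hP0]
    congr 1
    ring
  have hτ : E.O0.valuation (algebraMap K F (∏ v ∈ Z, t v ^ D v)) = T := by
    rw [map_prod, map_prod, hT]
    exact Finset.prod_congr rfl fun v _ => by rw [map_zpow₀, map_zpow₀]
  have hR : E.O0.valuation g = E.O0.valuation (algebraMap K F c') *
      (E.O0.valuation (algebraMap K F c))⁻¹ * P ^ (-a) * ((T * P ^ (-deg)) ^ p)⁻¹ := by
    rw [hg]
    simp only [map_mul, map_inv₀, map_zpow₀]
    rw [hQv, h0, E.u'_O0]
  have hL : E.O0.valuation (algebraMap K F (c' * c⁻¹ * E.pi0 ^ (-(a - p * deg)) *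
      ((∏ v ∈ Z, t v ^ D v) ^ p)⁻¹)) = E.O0.valuation (algebraMap K F c') *
      (E.O0.valuation (algebraMap K F c))⁻¹ * P ^ (-(a - p * deg)) * (T ^ p)⁻¹ := by
    simp only [map_mul, map_inv₀, map_zpow₀]
    rw [hτ]
  rw [hL, hR, e1, e2]
  ac_rfl

/-- **The Jensen formula at a node**: `v_0(f) - v_∞(f) = (n_s(f) - p deg Z) v(pi0) + p v(τ)`,
multiplicatively. -/
theorem jensen {t : Place K F → K} (ht : E.IsCoord t) (p : ℤ) (D : Place K F → ℤ)
    (Z : Finset (Place K F)) (hZc : ∀ v ∈ Z, E.Centered v)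
    (hZ : ∀ v, E.Centered v → D v ≠ 0 → v ∈ Z)
    {f : F} (hf : ∀ v, E.Centered v → v.ord f = p * D v)
    {c c' : K} (hc : c ≠ 0) (hc' : c' ≠ 0) (a : ℤ)
    (hI : E.SUnitI (f * (algebraMap K F c)⁻¹ * E.u' ^ (-a)))
    (h0 : E.O0.valuation f = E.O0.valuation (algebraMap K F c')) :
    E.A.valuation c' * (E.A.valuation c)⁻¹ =
      E.A.valuation E.pi0 ^ (a - p * ∑ v ∈ Z, D v) *
        E.A.valuation (∏ v ∈ Z, t v ^ D v) ^ p := by
  have h := jensen_unit ht p D Z hZc hZ hf hc hc' a hI h0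
  simp only [map_mul, map_inv₀, map_zpow₀] at h
  have hP0 : E.A.valuation E.pi0 ≠ 0 := (Valuation.ne_zero_iff _).mpr E.pi0_ne
  have hτ0 : E.A.valuation (∏ v ∈ Z, t v ^ D v) ≠ 0 := by
    apply (Valuation.ne_zero_iff _).mpr
    exact Finset.prod_ne_zero_iff.mpr fun v hv => zpow_ne_zero _ (ht.ne_zero v (hZc v hv))
  set X := E.A.valuation c' * (E.A.valuation c)⁻¹ with hX
  set P := E.A.valuation E.pi0 with hP
  set T := E.A.valuation (∏ v ∈ Z, t v ^ D v) with hT
  have h1 : X * P ^ (-(a - p * ∑ v ∈ Z, D v)) * (T ^ p)⁻¹ = 1 := h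
  have h2 : P ^ (-(a - p * ∑ v ∈ Z, D v)) * P ^ (a - p * ∑ v ∈ Z, D v) = 1 := by
    rw [← zpow_add₀ hP0, neg_add_cancel, zpow_zero]
  have h3 : (T ^ p)⁻¹ * T ^ p = 1 := inv_mul_cancel₀ (zpow_ne_zero _ hτ0)
  calc X = X * (P ^ (-(a - p * ∑ v ∈ Z, D v)) * P ^ (a - p * ∑ v ∈ Z, D v)) *
        ((T ^ p)⁻¹ * T ^ p) := by rw [h2, h3, mul_one, mul_one]
    _ = (X * P ^ (-(a - p * ∑ v ∈ Z, D v)) * (T ^ p)⁻¹) *
        (P ^ (a - p * ∑ v ∈ Z, D v) * T ^ p) := by ac_rfl
    _ = P ^ (a - p * ∑ v ∈ Z, D v) * T ^ p := by rw [h1, one_mul]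

/-- **TAME LEMMA** (cyclic value group): if the values of `c`, `c'`, `pi0`, `τ` are powers
`γ^w`, `γ^w'`, `γ^e`, `γ^m0` of one element `γ` of infinite order, then
`w' - w = e (a - p deg Z) + p m0`; in particular `w' - w ≡ e a (mod p)`. -/
theorem tame {t : Place K F → K} (ht : E.IsCoord t) (p : ℤ) (D : Place K F → ℤ)
    (Z : Finset (Place K F)) (hZc : ∀ v ∈ Z, E.Centered v)
    (hZ : ∀ v, E.Centered v → D v ≠ 0 → v ∈ Z)
    {f : F} (hf : ∀ v, E.Centered v → v.ord f = p * D v)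
    {c c' : K} (hc : c ≠ 0) (hc' : c' ≠ 0) (a : ℤ)
    (hI : E.SUnitI (f * (algebraMap K F c)⁻¹ * E.u' ^ (-a)))
    (h0 : E.O0.valuation f = E.O0.valuation (algebraMap K F c'))
    {γ : E.A.ValueGroup} (hγ0 : γ ≠ 0) (hγ : ∀ n : ℤ, γ ^ n = 1 → n = 0) {w w' e m0 : ℤ}
    (hw : E.A.valuation c = γ ^ w) (hw' : E.A.valuation c' = γ ^ w')
    (he : E.A.valuation E.pi0 = γ ^ e) (hm0 : E.A.valuation (∏ v ∈ Z, t v ^ D v) = γ ^ m0) :
    w' - w = e * (a - p * ∑ v ∈ Z, D v) + p * m0 := by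
  have h := jensen ht p D Z hZc hZ hf hc hc' a hI h0
  rw [hw, hw', he, hm0, ← zpow_neg, ← zpow_add₀ hγ0, ← zpow_mul, ← zpow_mul,
    ← zpow_add₀ hγ0] at h
  have h1 : γ ^ ((w' + -w) - (e * (a - p * ∑ v ∈ Z, D v) + m0 * p)) = 1 := by
    rw [zpow_sub₀ hγ0, h, div_self (zpow_ne_zero _ hγ0)]
  have h2 := hγ _ h1
  linarith

theorem tame_congr {t : Place K F → K} (ht : E.IsCoord t) (p : ℤ) (D : Place K F → ℤ)
    (Z : Finset (Place K F)) (hZc : ∀ v ∈ Z, E.Centered v)
    (hZ : ∀ v, E.Centered v → D v ≠ 0 → v ∈ Z)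
    {f : F} (hf : ∀ v, E.Centered v → v.ord f = p * D v)
    {c c' : K} (hc : c ≠ 0) (hc' : c' ≠ 0) (a : ℤ)
    (hI : E.SUnitI (f * (algebraMap K F c)⁻¹ * E.u' ^ (-a)))
    (h0 : E.O0.valuation f = E.O0.valuation (algebraMap K F c'))
    {γ : E.A.ValueGroup} (hγ0 : γ ≠ 0) (hγ : ∀ n : ℤ, γ ^ n = 1 → n = 0) {w w' e m0 : ℤ}
    (hw : E.A.valuation c = γ ^ w) (hw' : E.A.valuation c' = γ ^ w')
    (he : E.A.valuation E.pi0 = γ ^ e) (hm0 : E.A.valuation (∏ v ∈ Z, t v ^ D v) = γ ^ m0) :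
    w' - w ≡ e * a [ZMOD p] := by
  have h := tame ht p D Z hZc hZ hf hc hc' a hI h0 hγ0 hγ hw hw' he hm0
  rw [h, Int.modEq_iff_dvd]
  exact ⟨e * ∑ v ∈ Z, D v - m0, by ring⟩

end EdgeCtx

end Fermat.Agent.S40x.Tame.TameLemma
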