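/-
P-S44/S40, block R1 route beta, dir `S40x/Tame`: the INSTANCE of `Harmonic.NodeCtx` and
`TameLemma.EdgeCtx` on the landed two-valuation vocabulary of `S34x`.

Data: two `Gateway.C0.RedSetup`s `R₁ : (A, V, k, κ₁)`, `R₂ : (A, W, k, κ₂)` with the same `π`
(`V = v_∞`, `W = v_0` the two Gauss valuation rings of `F`), the `RedSetup2`
`redSetupTwoVal R₁ R₂ hπ`, a chart coordinate `C : ChartCoord _` (chart `t ≠ ∞`), the (L2)
property `hL : C.IsL2` and a NODE `s : Goursat.Nodes C.BbarT hL.h2` (a character of the glue ring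
`R = B₂ ⧸ I₂` of the reduced chart ring `C.BbarT ≤ C.B₁ × C.B₂`).

* `chartRing C`: the chart ring `{x ∈ V ∩ W | x integral over K[t]}` (`= BooAlg C` of `S33x/H1`);
* `rho₁ : chartRing C →+* C.B₁`, `rho₂ : chartRing C →+* C.B₂`: the two reductions;
* `nodeEv C hL s : chartRing C →+* k`: evaluation at the node, `= s ∘ φ ∘ rho₁ = s ∘ ψ ∘ rho₂`;
* `nodeCtx`: the `NodeCtx`, with `Sig = ` poles of `t`; `B_reg`, `mem_B` come from
  `Gateway/GoodRed/PlacesIntegral.isIntegral_iff_forall_ord_nonneg`;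
* `edgeCtx`: the `EdgeCtx` from the thickness facts on `u'` (hypothesis style);
* `sunitI_of_mem`, `sunit0_of_mem`, `regAt_of_mem`: elements of the chart ring not vanishing at the
  node are `s`-units along both branches.
-/
import Fermat.Agent.S40x.Tame.TameLemma
import Fermat.Agent.S34x.Lattice2.L2
import Fermat.Agent.S34x.C0two.Pair
import Fermat.Agent.Gateway.GoodRed.PlacesIntegral

set_option autoImplicit false
set_option linter.unusedSectionVars false

noncomputable section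

namespace Fermat.Agent.S40x.Tame.ChartNode

open AlgebraicCurve IsLocalRing IntermediateField
open Fermat.Agent.S34x Fermat.Agent.S34x.C0two Fermat.Agent.S34x.Lattice2
open Fermat.Agent.S40x.Tame.Harmonic Fermat.Agent.S40x.Tame.TameLemma

section Const

variable {K : Type*} [Field K] {A : ValuationSubring K} {F : Type*} [Field F] [Algebra K F]
  {O : ValuationSubring F} {k κ : Type*} [Field k] [Field κ] [Algebra k κ]

/-- `K ∩ O = A` for a `RedSetup`. -/
theorem algebraMap_mem_iff (R : Gateway.C0.RedSetup A O k κ) (c : K) :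
    algebraMap K F c ∈ O ↔ c ∈ A := by
  constructor
  · intro hc
    by_contra hcA
    have hci : c⁻¹ ∈ A := (A.mem_or_inv_mem c).resolve_left hcA
    have hc0 : c ≠ 0 := by
      rintro rfl
      exact hcA A.zero_mem
    have hcm : (⟨c⁻¹, hci⟩ : A) ∈ maximalIdeal A := by
      rw [mem_maximalIdeal, mem_nonunits_iff]
      intro hu
      apply hcA
      have h3 : A.valuation (c⁻¹) = 1 := (A.valuation_eq_one_iff ⟨c⁻¹, hci⟩).mp hu
      rw [map_inv₀, inv_eq_one] at h3
      exact (A.valuation_le_one_iff c).mp h3.le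
    have h1 : R.res ⟨algebraMap K F ((⟨c⁻¹, hci⟩ : A) : K), R.algebraMap_mem _⟩ = 0 := by
      rw [R.res_algebraMap, (R.π_eq_zero_iff _).mpr hcm, map_zero]
    have h2 : O.valuation (algebraMap K F c⁻¹) < 1 := (R.res_ker _).mp h1
    have h3 : O.valuation (algebraMap K F c) ≤ 1 := (O.valuation_le_one_iff _).mpr hc
    have h4 : O.valuation (algebraMap K F c⁻¹) * O.valuation (algebraMap K F c) = 1 := by
      rw [← map_mul, ← map_mul, inv_mul_cancel₀ hc0, map_one, map_one]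
    have h5 : O.valuation (algebraMap K F c⁻¹) * O.valuation (algebraMap K F c) < 1 :=
      mul_lt_one_of_lt_of_le h2 h3
    exact (ne_of_lt h5) h4
  · intro hc
    exact R.algebraMap_mem ⟨c, hc⟩

end Const

variable {K : Type*} [Field K] {A : ValuationSubring K} {F : Type*} [Field F] [Algebra K F]
  {V W : ValuationSubring F} {k κ₁ κ₂ : Type*} [Field k] [Field κ₁] [Field κ₂]
  [Algebra k κ₁] [Algebra k κ₂]
  {R₁ : Gateway.C0.RedSetup A V k κ₁} {R₂ : Gateway.C0.RedSetup A W k κ₂} {hπ : R₁.π = R₂.π}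
  (C : ChartCoord (redSetupTwoVal R₁ R₂ hπ))

/-- The chart ring of the chart `t ≠ ∞`: integral at both Gauss valuations and over `K[t]`. -/
def chartRing : Subring F where
  carrier := {x | x ∈ V ∧ x ∈ W ∧ IsIntegral (Algebra.adjoin K {C.t}) x}
  mul_mem' := fun hx hy => ⟨V.mul_mem _ _ hx.1 hy.1, W.mul_mem _ _ hx.2.1 hy.2.1,
    hx.2.2.mul hy.2.2⟩
  one_mem' := ⟨V.one_mem, W.one_mem, isIntegral_one⟩
  add_mem' := fun hx hy => ⟨V.add_mem _ _ hx.1 hy.1, W.add_mem _ _ hx.2.1 hy.2.1,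
    hx.2.2.add hy.2.2⟩
  zero_mem' := ⟨V.zero_mem, W.zero_mem, isIntegral_zero⟩
  neg_mem' := fun hx => ⟨V.neg_mem _ hx.1, W.neg_mem _ hx.2.1, hx.2.2.neg⟩

theorem mem_chartRing_iff {x : F} :
    x ∈ chartRing C ↔ x ∈ V ∧ x ∈ W ∧ IsIntegral (Algebra.adjoin K {C.t}) x := Iff.rfl

theorem mem_O_of_mem {x : F} (hx : x ∈ chartRing C) : x ∈ (twoVal V W).O := ⟨hx.1, hx.2.1⟩

theorem t_mem_chartRing : C.t ∈ chartRing C :=
  ⟨C.t_mem.1, C.t_mem.2, isIntegral_gen C.t⟩

theorem algebraMap_mem_chartRing (a : A) : algebraMap K F a ∈ chartRing C :=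
  ⟨R₁.algebraMap_mem a, R₂.algebraMap_mem a, by
    have h1 : algebraMap K F (a : K) =
        algebraMap (Algebra.adjoin K {C.t}) F (algebraMap K (Algebra.adjoin K {C.t}) (a : K)) :=
      rfl
    rw [h1]
    exact isIntegral_algebraMap⟩

/-- the chart ring is the union of the lattices `L(b C∞) ∩ S.O` (`= BooAlg C` of `S33x/H1`) -/
theorem mem_chartRing_iff_exists_lat {x : F} :
    x ∈ chartRing C ↔ ∃ b, x ∈ (redSetupTwoVal R₁ R₂ hπ).lat (C.LN 0 b) := by
  constructor
  · rintro ⟨hV, hW, hi⟩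
    obtain ⟨b, hb⟩ := (isIntegral_iff_exists_mem_twoPole C.t_mul_tinv).mp hi
    exact ⟨b, hb, hV, hW⟩
  · rintro ⟨b, hb, hO⟩
    exact ⟨hO.1, hO.2, (isIntegral_iff_exists_mem_twoPole C.t_mul_tinv).mpr ⟨b, hb⟩⟩

/-- the reduction of an element of the chart ring lies in the reduced chart ring -/
theorem res_mem_Bbar {x : F} (hx : x ∈ chartRing C) :
    (redSetupTwoVal R₁ R₂ hπ).res ⟨x, mem_O_of_mem C hx⟩ ∈ C.Bbar := by
  obtain ⟨b, hb⟩ := (isIntegral_iff_exists_mem_twoPole C.t_mul_tinv).mp hx.2.2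
  exact C.res_mem_Bbar _ hb

/-- the inclusion of the chart ring into `V` -/
def toV : chartRing C →+* V where
  toFun x := ⟨x.1, x.2.1⟩
  map_one' := rfl
  map_mul' _ _ := rfl
  map_zero' := rfl
  map_add' _ _ := rfl

/-- the inclusion of the chart ring into `W` -/
def toW : chartRing C →+* W where
  toFun x := ⟨x.1, x.2.2.1⟩
  map_one' := rfl
  map_mul' _ _ := rfl
  map_zero' := rfl
  map_add' _ _ := rfl

theorem res_eq (x : chartRing C) :
    (redSetupTwoVal R₁ R₂ hπ).res ⟨x.1, mem_O_of_mem C x.2⟩ =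
      (R₁.res (toV C x), R₂.res (toW C x)) := rfl

/-- the reduction along the `∞`-branch -/
def rho₁ : chartRing C →+* C.B₁ :=
  (R₁.res.comp (toV C)).codRestrict C.B₁ fun x =>
    (C.mem_Btilde_iff_prod.mp (C.Bbar_le_Btilde (res_mem_Bbar C x.2))).1

/-- the reduction along the `0`-branch -/
def rho₂ : chartRing C →+* C.B₂ :=
  (R₂.res.comp (toW C)).codRestrict C.B₂ fun x =>
    (C.mem_Btilde_iff_prod.mp (C.Bbar_le_Btilde (res_mem_Bbar C x.2))).2

theorem coe_rho₁ (x : chartRing C) : ((rho₁ C x : C.B₁) : κ₁) = R₁.res (toV C x) := rfl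

theorem coe_rho₂ (x : chartRing C) : ((rho₂ C x : C.B₂) : κ₂) = R₂.res (toW C x) := rfl

theorem rho_mem_BbarT (x : chartRing C) : (rho₁ C x, rho₂ C x) ∈ C.BbarT := by
  rw [ChartCoord.mem_BbarT_iff]
  exact res_mem_Bbar C x.2

theorem rho₁_eq_zero {x : chartRing C} (hx : (x : F) ∈ V.nonunits) : rho₁ C x = 0 := by
  apply Subtype.ext
  rw [coe_rho₁]
  show R₁.res (toV C x) = 0
  rw [R₁.res_ker]
  exact (V.mem_nonunits_iff).mp hx

theorem rho₂_eq_zero {x : chartRing C} (hx : (x : F) ∈ W.nonunits) : rho₂ C x = 0 := by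
  apply Subtype.ext
  rw [coe_rho₂]
  show R₂.res (toW C x) = 0
  rw [R₂.res_ker]
  exact (W.mem_nonunits_iff).mp hx

variable (hL : C.IsL2) (s : Goursat.Nodes C.BbarT hL.h2)

/-- evaluation at the node `s` -/
def nodeEv : chartRing C →+* k :=
  (s : Goursat.R C.BbarT hL.h2 →+* k).comp
    ((Goursat.ψ C.BbarT hL.h2 : C.B₂ →+* Goursat.R C.BbarT hL.h2).comp (rho₂ C))

theorem nodeEv_apply₂ (x : chartRing C) :
    nodeEv C hL s x = s (Goursat.ψ C.BbarT hL.h2 (rho₂ C x)) := rfl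

theorem nodeEv_apply₁ (x : chartRing C) :
    nodeEv C hL s x = s (Goursat.φ C.BbarT hL.h1 hL.h2 (rho₁ C x)) := by
  rw [nodeEv_apply₂, Goursat.φ_eq C.BbarT hL.h1 hL.h2 (rho_mem_BbarT C x)]

theorem nodeEv_eq_zero_of_V {x : chartRing C} (hx : (x : F) ∈ V.nonunits) :
    nodeEv C hL s x = 0 := by
  rw [nodeEv_apply₁, rho₁_eq_zero C hx, map_zero, map_zero]

theorem nodeEv_eq_zero_of_W {x : chartRing C} (hx : (x : F) ∈ W.nonunits) :
    nodeEv C hL s x = 0 := by
  rw [nodeEv_apply₂, rho₂_eq_zero C hx, map_zero, map_zero]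

/-- constants: `nodeEv (a) = π a` -/
theorem nodeEv_algebraMap (a : A) :
    nodeEv C hL s ⟨algebraMap K F a, algebraMap_mem_chartRing C a⟩ = R₂.π a := by
  rw [nodeEv_apply₂]
  have h1 : rho₂ C ⟨algebraMap K F a, algebraMap_mem_chartRing C a⟩ =
      algebraMap k C.B₂ (R₂.π a) := by
    apply Subtype.ext
    rw [coe_rho₂]
    exact R₂.res_algebraMap a
  rw [h1, AlgHom.commutes, AlgHom.commutes]
  rfl

section ctx

variable (ht : Transcendental K C.t) [FiniteDimensional K⟮C.t⟯ F] [Algebra.IsSeparable K⟮C.t⟯ F]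

/-- **The node context of the node `s` of the chart `t ≠ ∞`.** -/
def nodeCtx : NodeCtx K F k where
  OI := V
  O0 := W
  B := chartRing C
  ev := nodeEv C hL s
  Sig := {v | v.ord C.t < 0}
  B_le_OI _ hh := hh.1
  B_le_O0 _ hh := hh.2.1
  B_reg h hh v hv := by
    have h1 : 0 ≤ v.ord C.t := not_lt.mp hv
    have h2 : C.t ∈ v.toValuationSubring :=
      (Fermat.Agent.S24.ZP.ord_nonneg_iff v C.t_ne).mp h1
    exact Fermat.Agent.S24.ZP.integralClosure_le_place C.t v h2 ⟨h, hh.2.2⟩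
  mem_B h hV hW hreg := by
    refine ⟨hV, hW, ?_⟩
    rw [Fermat.Agent.Gateway.GoodRed.PlacesIntegral.isIntegral_iff_forall_ord_nonneg C.t ht h]
    intro P hP
    rcases eq_or_ne h 0 with rfl | h0
    · rw [Place.ord_zero]
    · exact (Fermat.Agent.S24.ZP.ord_nonneg_iff P h0).mpr (hreg P (not_lt.mpr hP))
  glueI _ hx := nodeEv_eq_zero_of_V C hL s hx
  glue0 _ hx := nodeEv_eq_zero_of_W C hL s hx

@[simp] theorem nodeCtx_OI : (nodeCtx C hL s ht).OI = V := rfl

@[simp] theorem nodeCtx_O0 : (nodeCtx C hL s ht).O0 = W := rfl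

@[simp] theorem nodeCtx_B : (nodeCtx C hL s ht).B = chartRing C := rfl

@[simp] theorem nodeCtx_ev : (nodeCtx C hL s ht).ev = nodeEv C hL s := rfl

theorem nodeCtx_Sig (v : Place K F) : v ∈ (nodeCtx C hL s ht).Sig ↔ v.ord C.t < 0 := Iff.rfl

/-- a place is centred at the node `s` iff `t` is regular there and every element of the chart
ring vanishing at the place vanishes at the node -/
theorem centered_iff (v : Place K F) :
    (nodeCtx C hL s ht).Centered v ↔
      0 ≤ v.ord C.t ∧ ∀ h : chartRing C, (h : F) ∈ v.toValuationSubring.nonunits →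
        nodeEv C hL s h = 0 := by
  unfold NodeCtx.Centered
  rw [nodeCtx_Sig, not_lt]
  rfl

/-- elements of the chart ring are regular at the node -/
theorem regAt_of_mem {g : F} (hg : g ∈ chartRing C) : (nodeCtx C hL s ht).RegAt g :=
  ⟨⟨g, hg⟩, 1, by rw [map_one]; exact one_ne_zero, by simp⟩

/-- an element of the chart ring which does not vanish at the node is an `s`-unit along the
`∞`-branch -/
theorem sunitI_of_mem {g : F} (hg : g ∈ chartRing C) (hs : nodeEv C hL s ⟨g, hg⟩ ≠ 0) :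
    (nodeCtx C hL s ht).SUnitI g :=
  ⟨⟨g, hg⟩, 1, hs, by rw [map_one]; exact one_ne_zero, by
    simp [NodeCtx.zero_mem_nonunits V]⟩

/-- an element of the chart ring which does not vanish at the node is an `s`-unit along the
`0`-branch -/
theorem sunit0_of_mem {g : F} (hg : g ∈ chartRing C) (hs : nodeEv C hL s ⟨g, hg⟩ ≠ 0) :
    (nodeCtx C hL s ht).SUnit0 g :=
  ⟨⟨g, hg⟩, 1, hs, by rw [map_one]; exact one_ne_zero, by
    simp [NodeCtx.zero_mem_nonunits W]⟩

/-- **The edge context of the node `s`**, from the thickness facts on the coordinate `u'`: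
`u'` is a unit at `v_∞` and `v_0 (u') = v_0 (pi0)`. -/
def edgeCtx (u' : F) (pi0 : K) (hpi0 : pi0 ≠ 0) (hu'V : u' ∈ V ∧ u'⁻¹ ∈ V)
    (hu'W : W.valuation u' = W.valuation (algebraMap K F pi0)) : EdgeCtx K F k where
  toNodeCtx := nodeCtx C hL s ht
  A := A
  mem_OI_iff := algebraMap_mem_iff R₁
  mem_O0_iff := algebraMap_mem_iff R₂
  u' := u'
  pi0 := pi0
  pi0_ne := hpi0
  u'_OI := hu'V
  u'_O0 := hu'W

end ctx

end Fermat.Agent.S40x.Tame.ChartNode
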