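/-
P-S44/S40, block R1 route beta, dir `S40x/Tame`: the chart ring of `Tame/ChartNode.lean` SEPARATES
the places at which the chart coordinate `t` is regular (hypothesis (Sep) of helper43's
`CoordOfDec`, msg 22595), without Riemann-Roch: the integral closure of `K[t]` in `F` is a Dedekind
domain whose maximal ideals are these places (`Gateway/Red/ChartPlaces`), and every function can be
scaled into `V ∩ W` by a constant (`RedSetup2.scal`).
-/
import Fermat.Agent.S40x.Tame.ChartNode
import Fermat.Agent.Gateway.Red.ChartPlaces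

set_option autoImplicit false
set_option linter.unusedSectionVars false

noncomputable section

namespace Fermat.Agent.S40x.Tame.ChartSep

open AlgebraicCurve IsLocalRing IntermediateField IsDedekindDomain
open Fermat.Agent.S34x Fermat.Agent.S34x.C0two Fermat.Agent.S34x.Lattice2
open Fermat.Agent.S40x.Tame.Harmonic Fermat.Agent.S40x.Tame.TameLemma
open Fermat.Agent.S40x.Tame.ChartNode

variable {K : Type*} [Field K] {A : ValuationSubring K} {F : Type*} [Field F] [Algebra K F]
  {V W : ValuationSubring F} {k κ₁ κ₂ : Type*} [Field k] [Field κ₁] [Field κ₂]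
  [Algebra k κ₁] [Algebra k κ₂]
  {R₁ : Gateway.C0.RedSetup A V k κ₁} {R₂ : Gateway.C0.RedSetup A W k κ₂} {hπ : R₁.π = R₂.π}
  (C : ChartCoord (redSetupTwoVal R₁ R₂ hπ))

/-- every function integral over `K[t]` can be scaled into the chart ring by a nonzero constant -/
theorem exists_smul_mem_chartRing {b : F} (hb : IsIntegral (Algebra.adjoin K {C.t}) b)
    (hb0 : b ≠ 0) : ∃ c : K, c ≠ 0 ∧ algebraMap K F c * b ∈ chartRing C := by
  obtain ⟨c, hc, hcO, -⟩ := (redSetupTwoVal R₁ R₂ hπ).scal b hb0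
  refine ⟨c, hc, ?_⟩
  rw [Algebra.smul_def] at hcO
  refine ⟨hcO.1, hcO.2, ?_⟩
  have h1 : algebraMap K F c =
      algebraMap (Algebra.adjoin K {C.t}) F (algebraMap K (Algebra.adjoin K {C.t}) c) := rfl
  rw [h1]
  exact isIntegral_algebraMap.mul hb

variable (ht : Transcendental K C.t) [FiniteDimensional K⟮C.t⟯ F] [Algebra.IsSeparable K⟮C.t⟯ F]
include ht

/-- **(Sep)**: two distinct places at which `t` is regular are separated by an element of the
chart ring. -/
theorem exists_sep {v w : Place K F} (hv : 0 ≤ v.ord C.t) (hw : 0 ≤ w.ord C.t) (hne : v ≠ w) :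
    ∃ g : chartRing C, (g : F) ∈ v.toValuationSubring.nonunits ∧
      (g : F) ∉ w.toValuationSubring.nonunits := by
  have := Fermat.Agent.Gateway.GoodRed.PlacesIntegral.isDedekindDomain_integralClosure_of_separable
    C.t ht
  have := Fermat.Agent.Gateway.GoodRed.PlacesIntegral.isFractionRing_integralClosure_of_finite
    (k := K) (E := F) C.t
  have hv' : C.t ∈ v.toValuationSubring := (Fermat.Agent.S24.ZP.ord_nonneg_iff v C.t_ne).mp hv
  have hw' : C.t ∈ w.toValuationSubring := (Fermat.Agent.S24.ZP.ord_nonneg_iff w C.t_ne).mp hw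
  set 𝔭 := Fermat.Agent.Gateway.Red.chartPrime C.t v hv' with h𝔭
  set 𝔮 := Fermat.Agent.Gateway.Red.chartPrime C.t w hw' with h𝔮
  have hpq : 𝔭 ≠ 𝔮 := by
    intro h
    apply hne
    rw [← Fermat.Agent.Gateway.Red.chartPlace_chartPrime C.t v hv',
      ← Fermat.Agent.Gateway.Red.chartPlace_chartPrime C.t w hw', ← h𝔭, ← h𝔮, h]
  have hnle : ¬ 𝔭.asIdeal ≤ 𝔮.asIdeal := by
    intro hle
    apply hpq
    have hmax : 𝔭.asIdeal.IsMaximal := 𝔭.isMaximal
    exact HeightOneSpectrum.ext (hmax.eq_of_le 𝔮.isPrime.ne_top hle)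
  obtain ⟨b, hb𝔭, hb𝔮⟩ := Set.not_subset.mp hnle
  have hb0 : (b : F) ≠ 0 := by
    intro h
    apply hb𝔮
    have : b = 0 := Subtype.ext h
    rw [this]
    exact 𝔮.asIdeal.zero_mem
  have hbv : (b : F) ∈ v.toValuationSubring.nonunits :=
    (Fermat.Agent.Gateway.Red.mem_chartPrime_iff C.t v hv' b).mp hb𝔭
  have hbw : (b : F) ∉ w.toValuationSubring.nonunits := fun h =>
    hb𝔮 ((Fermat.Agent.Gateway.Red.mem_chartPrime_iff C.t w hw' b).mpr h)
  obtain ⟨c, hc, hcb⟩ := exists_smul_mem_chartRing C b.2 hb0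
  refine ⟨⟨algebraMap K F c * (b : F), hcb⟩, ?_, ?_⟩
  · exact NodeCtx.mul_mem_nonunits_right' _ (v.algebraMap_mem' c) hbv
  · intro h
    apply hbw
    have h1 : (b : F) = algebraMap K F c⁻¹ * (algebraMap K F c * (b : F)) := by
      rw [← mul_assoc, ← map_mul, inv_mul_cancel₀ hc, map_one, one_mul]
    rw [h1]
    exact NodeCtx.mul_mem_nonunits_right' _ (w.algebraMap_mem' c⁻¹) h

/-- (Sep) in the vocabulary of the node context: two distinct places outside `Sig`. -/
theorem exists_sep_nodeCtx (hL : C.IsL2) (s : Goursat.Nodes C.BbarT hL.h2) {v w : Place K F}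
    (hv : v ∉ (nodeCtx C hL s ht).Sig) (hw : w ∉ (nodeCtx C hL s ht).Sig) (hne : v ≠ w) :
    ∃ g : (nodeCtx C hL s ht).B, (g : F) ∈ v.toValuationSubring.nonunits ∧
      (g : F) ∉ w.toValuationSubring.nonunits :=
  exists_sep C ht (not_lt.mp hv) (not_lt.mp hw) hne

end Fermat.Agent.S40x.Tame.ChartSep
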