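/-
P-S44/S40, block R1 route beta, dir `S40x/Tame`: two small adapters for `Tame/TameLemma.lean`.

* `isCoord_of_values`: the packaged local facts `EdgeCtx.IsCoord t` from the literals (L1)-(L3) of
  helper43's `NodePoints` (note 2622), stated with VALUES `c` of `u'` at a place
  (`0 < v.ord (u' - c)`, the vocabulary of `S24/PrincipalDiv.exists_const_sub_ord_pos`).
* `NodeCtx.swap`, `EdgeCtx.swap`: the node/edge context with the two branches exchanged
  (`OI ↔ O0`, coordinate `u` instead of `u'`); `Centered`, `RegAt` are unchanged, `SUnitI ↔ SUnit0`.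
  Applying `EdgeCtx.jensen` to `E` and to `E.swap` and adding gives `n_s + n'_s = p deg Z` and the
  Poincaré–Lelong formulas (d)/(PL2) of note 2592.
-/
import Fermat.Agent.S40x.Tame.TameLemma

set_option autoImplicit false
set_option linter.unusedSectionVars false

namespace Fermat.Agent.S40x.Tame.CoordSwap

open AlgebraicCurve Fermat.Agent.S40x.Tame.Harmonic Fermat.Agent.S40x.Tame.TameLemma

variable {K F k : Type*} [Field K] [Field F] [Algebra K F] [Field k]

/-- **(L1)-(L3) in value form ⟹ `IsCoord`.** -/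
theorem isCoord_of_values (E : EdgeCtx K F k) (t : Place K F → K) (hu' : E.u' ∈ E.B)
    (hval : ∀ v, E.Centered v → 0 < v.ord (E.u' - algebraMap K F (t v)))
    (h1 : ∀ v, E.Centered v → ∀ c : K, 0 < v.ord (E.u' - algebraMap K F c) →
      c ≠ 0 ∧ c ∈ E.A.nonunits ∧ E.pi0 / c ∈ E.A.nonunits)
    (h2 : ∀ v w, E.Centered v → E.Centered w → ∀ c : K,
      0 < v.ord (E.u' - algebraMap K F c) → 0 < w.ord (E.u' - algebraMap K F c) → w = v)
    (h3 : ∀ v, E.Centered v → ∀ c : K, 0 < v.ord (E.u' - algebraMap K F c) →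
      v.ord (E.u' - algebraMap K F c) = 1) :
    E.IsCoord t where
  ne_zero v hv := (h1 v hv (t v) (hval v hv)).1
  small v hv := (h1 v hv (t v) (hval v hv)).2.1
  big v hv := (h1 v hv (t v) (hval v hv)).2.2
  ord_self v hv := h3 v hv (t v) (hval v hv)
  ord_ne v w hv hw hne := by
    rcases eq_or_ne (E.u' - algebraMap K F (t v)) 0 with h0 | h0
    · rw [h0, Place.ord_zero]
    · have hmem : E.u' - algebraMap K F (t v) ∈ w.toValuationSubring :=
        w.toValuationSubring.sub_mem (E.B_reg _ hu' w hw.1) (w.algebraMap_mem' _)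
      have h4 : 0 ≤ w.ord (E.u' - algebraMap K F (t v)) :=
        (Fermat.Agent.S24.place_mem_iff_ord_nonneg w h0).mp hmem
      rcases h4.lt_or_eq with h5 | h5
      · exact absurd (h2 v w hv hw (t v) (hval v hv) h5) hne
      · exact h5.symm

/-- The node context with the two branches exchanged. -/
def swapNode (N : NodeCtx K F k) : NodeCtx K F k where
  OI := N.O0
  O0 := N.OI
  B := N.B
  ev := N.ev
  Sig := N.Sig
  B_le_OI := N.B_le_O0
  B_le_O0 := N.B_le_OI
  B_reg := N.B_reg
  mem_B h h0 hI hv := N.mem_B h hI h0 hv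
  glueI := N.glue0
  glue0 := N.glueI

theorem centered_swapNode (N : NodeCtx K F k) (v : Place K F) :
    (swapNode N).Centered v ↔ N.Centered v := Iff.rfl

theorem regAt_swapNode (N : NodeCtx K F k) (g : F) : (swapNode N).RegAt g ↔ N.RegAt g := Iff.rfl

theorem sunitI_swapNode (N : NodeCtx K F k) (g : F) : (swapNode N).SUnitI g ↔ N.SUnit0 g :=
  Iff.rfl

theorem sunit0_swapNode (N : NodeCtx K F k) (g : F) : (swapNode N).SUnit0 g ↔ N.SUnitI g :=
  Iff.rfl

/-- The edge context with the two branches exchanged: the coordinate is now `u`, with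
`v_0(u) = 0` and `v_∞(u) = v(pi0)`. -/
def swapEdge (E : EdgeCtx K F k) (u : F) (hu0 : u ∈ E.O0 ∧ u⁻¹ ∈ E.O0)
    (huI : E.OI.valuation u = E.OI.valuation (algebraMap K F E.pi0)) : EdgeCtx K F k where
  toNodeCtx := swapNode E.toNodeCtx
  A := E.A
  mem_OI_iff := E.mem_O0_iff
  mem_O0_iff := E.mem_OI_iff
  u' := u
  pi0 := E.pi0
  pi0_ne := E.pi0_ne
  u'_OI := hu0
  u'_O0 := huI

theorem centered_swapEdge (E : EdgeCtx K F k) (u : F) (hu0 : u ∈ E.O0 ∧ u⁻¹ ∈ E.O0)
    (huI : E.OI.valuation u = E.OI.valuation (algebraMap K F E.pi0)) (v : Place K F) :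
    (swapEdge E u hu0 huI).Centered v ↔ E.Centered v := Iff.rfl

end Fermat.Agent.S40x.Tame.CoordSwap
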