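/-
P-S44/S40, block R1 route beta, dir `S40x/Tame`: the thickness data `(u, u', Ψ)`, `u u' = pi0 Ψ`, of
the T-block on the chart-ring vocabulary of `Tame/ChartNode.lean`, and the two edge contexts
(coordinate `u'` along the `∞`-branch, coordinate `u` along the `0`-branch) they produce.

* `nodeEv_ne_zero_of_bezout`: the consumer form (T-b) `E + b Ψ + E' = 1`, `red_0 E = 0`,
  `red_∞ E' = 0` of the T-block gives `Ψ(s) ≠ 0` at EVERY node `s`;
* `Thick C pi0`: the thickness data; `Thick.edgeCtx`, `Thick.edgeCtxSwap`;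
* `Thick.nodeEv_u`, `Thick.nodeEv_u'`: `u(s) = u'(s) = 0`.
-/
import Fermat.Agent.S40x.Tame.ChartNode
import Fermat.Agent.S40x.Tame.CoordSwap

set_option autoImplicit false
set_option linter.unusedSectionVars false

noncomputable section

namespace Fermat.Agent.S40x.Tame.ChartThick

open AlgebraicCurve IsLocalRing IntermediateField
open Fermat.Agent.S34x Fermat.Agent.S34x.C0two Fermat.Agent.S34x.Lattice2
open Fermat.Agent.S40x.Tame.Harmonic Fermat.Agent.S40x.Tame.TameLemma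
open Fermat.Agent.S40x.Tame.ChartNode Fermat.Agent.S40x.Tame.CoordSwap

section Val

variable {F : Type*} [Field F]

theorem valuation_eq_one_of_notMem_nonunits (O : ValuationSubring F) {x : F} (hx : x ∈ O)
    (h : x ∉ O.nonunits) : O.valuation x = 1 := by
  have h1 : O.valuation x ≤ 1 := (O.valuation_le_one_iff x).mpr hx
  rcases h1.lt_or_eq with h2 | h2
  · exact absurd ((O.mem_nonunits_iff).mpr h2) h
  · exact h2

theorem inv_mem_of_notMem_nonunits (O : ValuationSubring F) {x : F} (hx : x ∈ O)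
    (h : x ∉ O.nonunits) : x⁻¹ ∈ O := by
  rw [← O.valuation_le_one_iff, map_inv₀, valuation_eq_one_of_notMem_nonunits O hx h, inv_one]

end Val

variable {K : Type*} [Field K] {A : ValuationSubring K} {F : Type*} [Field F] [Algebra K F]
  {V W : ValuationSubring F} {k κ₁ κ₂ : Type*} [Field k] [Field κ₁] [Field κ₂]
  [Algebra k κ₁] [Algebra k κ₂]
  {R₁ : Gateway.C0.RedSetup A V k κ₁} {R₂ : Gateway.C0.RedSetup A W k κ₂} {hπ : R₁.π = R₂.π}
  (C : ChartCoord (redSetupTwoVal R₁ R₂ hπ))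

/-- **(T-b) ⟹ `Ψ(s) ≠ 0` at every node.** -/
theorem nodeEv_ne_zero_of_bezout (hL : C.IsL2) (s : Goursat.Nodes C.BbarT hL.h2)
    {E b E' Psi : chartRing C} (hE : (E : F) ∈ W.nonunits) (hE' : (E' : F) ∈ V.nonunits)
    (h : E + b * Psi + E' = 1) : nodeEv C hL s Psi ≠ 0 := by
  intro h0
  have h1 := congrArg (nodeEv C hL s) h
  rw [map_add, map_add, map_mul, nodeEv_eq_zero_of_W C hL s hE, nodeEv_eq_zero_of_V C hL s hE', h0,
    mul_zero, add_zero, add_zero, map_one] at h1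
  exact zero_ne_one h1

/-- The thickness data of a chart: `u u' = pi0 Ψ`, `u` small at `v_∞` and a unit at `v_0`, `u'` small
at `v_0` and a unit at `v_∞`. -/
structure Thick (pi0 : K) where
  u : F
  u' : F
  Psi : F
  hu : u ∈ chartRing C
  hu' : u' ∈ chartRing C
  hPsi : Psi ∈ chartRing C
  mul_eq : u * u' = algebraMap K F pi0 * Psi
  pi0_ne : pi0 ≠ 0
  u_V : u ∈ V.nonunits
  u'_W : u' ∈ W.nonunits
  u'_V : u' ∉ V.nonunits
  u_W : u ∉ W.nonunits

namespace Thick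

variable {C} {pi0 : K} (T : Thick C pi0) (hL : C.IsL2) (s : Goursat.Nodes C.BbarT hL.h2)

theorem nodeEv_u : nodeEv C hL s ⟨T.u, T.hu⟩ = 0 := nodeEv_eq_zero_of_V C hL s T.u_V

theorem nodeEv_u' : nodeEv C hL s ⟨T.u', T.hu'⟩ = 0 := nodeEv_eq_zero_of_W C hL s T.u'_W

variable {hL s}

theorem Psi_notMem_V (hs : nodeEv C hL s ⟨T.Psi, T.hPsi⟩ ≠ 0) : T.Psi ∉ V.nonunits :=
  fun h => hs (nodeEv_eq_zero_of_V C hL s h)

theorem Psi_notMem_W (hs : nodeEv C hL s ⟨T.Psi, T.hPsi⟩ ≠ 0) : T.Psi ∉ W.nonunits :=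
  fun h => hs (nodeEv_eq_zero_of_W C hL s h)

theorem valuation_W_u' (hs : nodeEv C hL s ⟨T.Psi, T.hPsi⟩ ≠ 0) :
    W.valuation T.u' = W.valuation (algebraMap K F pi0) := by
  have h1 := congrArg W.valuation T.mul_eq
  rw [map_mul, map_mul, valuation_eq_one_of_notMem_nonunits W T.hu.2.1 T.u_W,
    valuation_eq_one_of_notMem_nonunits W T.hPsi.2.1 (T.Psi_notMem_W hs), one_mul, mul_one] at h1
  exact h1

theorem valuation_V_u (hs : nodeEv C hL s ⟨T.Psi, T.hPsi⟩ ≠ 0) :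
    V.valuation T.u = V.valuation (algebraMap K F pi0) := by
  have h1 := congrArg V.valuation T.mul_eq
  rw [map_mul, map_mul, valuation_eq_one_of_notMem_nonunits V T.hu'.1 T.u'_V,
    valuation_eq_one_of_notMem_nonunits V T.hPsi.1 (T.Psi_notMem_V hs), mul_one, mul_one] at h1
  exact h1

variable (ht : Transcendental K C.t) [FiniteDimensional K⟮C.t⟯ F] [Algebra.IsSeparable K⟮C.t⟯ F]

/-- the edge context with coordinate `u'` (along the `∞`-branch) -/
def edgeCtx (hs : nodeEv C hL s ⟨T.Psi, T.hPsi⟩ ≠ 0) : EdgeCtx K F k :=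
  ChartNode.edgeCtx C hL s ht T.u' pi0 T.pi0_ne
    ⟨T.hu'.1, inv_mem_of_notMem_nonunits V T.hu'.1 T.u'_V⟩ (T.valuation_W_u' hs)

/-- the edge context with coordinate `u` (along the `0`-branch) -/
def edgeCtxSwap (hs : nodeEv C hL s ⟨T.Psi, T.hPsi⟩ ≠ 0) : EdgeCtx K F k :=
  swapEdge (T.edgeCtx ht hs) T.u
    ⟨T.hu.2.1, inv_mem_of_notMem_nonunits W T.hu.2.1 T.u_W⟩ (T.valuation_V_u hs)

@[simp] theorem edgeCtx_u' (hs : nodeEv C hL s ⟨T.Psi, T.hPsi⟩ ≠ 0) :
    (T.edgeCtx ht hs).u' = T.u' := rfl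

@[simp] theorem edgeCtxSwap_u' (hs : nodeEv C hL s ⟨T.Psi, T.hPsi⟩ ≠ 0) :
    (T.edgeCtxSwap ht hs).u' = T.u := rfl

@[simp] theorem edgeCtx_pi0 (hs : nodeEv C hL s ⟨T.Psi, T.hPsi⟩ ≠ 0) :
    (T.edgeCtx ht hs).pi0 = pi0 := rfl

theorem edgeCtx_toNodeCtx (hs : nodeEv C hL s ⟨T.Psi, T.hPsi⟩ ≠ 0) :
    (T.edgeCtx ht hs).toNodeCtx = nodeCtx C hL s ht := rfl

theorem centered_edgeCtxSwap (hs : nodeEv C hL s ⟨T.Psi, T.hPsi⟩ ≠ 0) (v : Place K F) :
    (T.edgeCtxSwap ht hs).Centered v ↔ (T.edgeCtx ht hs).Centered v := Iff.rfl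

end Thick

end Fermat.Agent.S40x.Tame.ChartThick
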