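/-
helper43 (P-S44/S40, block R1, leaf (L1)-(L3) abstract part): points of the curve
`u u' = p Ψ(y, y')`, `u = y' - y ^ p`, `u' = y - y' ^ p`, centred at a node of thickness one.

Pure algebra, Mathlib only.

* `eq_of_param_eq` (L2): two points `(a, a')`, `(b, b')` which are congruent modulo an ideal `I`
  contained in the Jacobson radical, with the same parameter `t = u'` and `ρ = p / t ∈ I`,
  coincide.
* `hom_eq_of_param_eq` (L2, abstract form used at the good levels): two ring homomorphisms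
  `φ φ' : R → T` (values at two points centred at the node) agreeing on the parameter `u'` and on
  the constants of the local decomposition `h = c + u a + u' b + p e` coincide (contraction with
  uniform factor `max |ρ| |t| |p| < 1`, rank one, no completeness).
* `lipschitz_of_dec`: quantitative version, `|h(P) - h(P')| ≤ C |u'(P) - u'(P')|`.
-/
import Mathlib

set_option autoImplicit false

namespace Fermat.Agent.S40x.Tame.NodePoints

open Finset

section Injectivity

variable {A : Type*} [CommRing A]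

/-- `∑_{i<p} x^i y^(p-1-i)` lies in `I` as soon as `x - y ∈ I` and `p ∈ I`. -/
theorem geomSum₂_mem {I : Ideal A} {p : ℕ} (hp : (p : A) ∈ I) {x y : A} (hxy : x - y ∈ I) :
    (∑ i ∈ range p, x ^ i * y ^ (p - 1 - i)) ∈ I := by
  rw [← Ideal.Quotient.eq_zero_iff_mem, map_sum]
  have hx : Ideal.Quotient.mk I x = Ideal.Quotient.mk I y := by
    rw [← sub_eq_zero, ← map_sub, Ideal.Quotient.eq_zero_iff_mem]; exact hxy
  have h1 : ∀ i ∈ range p, Ideal.Quotient.mk I (x ^ i * y ^ (p - 1 - i)) =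
      Ideal.Quotient.mk I y ^ (p - 1) := by
    intro i hi
    rw [map_mul, map_pow, map_pow, hx, ← pow_add]
    congr 1
    have := mem_range.mp hi
    omega
  rw [sum_congr rfl h1, sum_const, card_range, nsmul_eq_mul]
  have : (Ideal.Quotient.mk I (p : A)) = 0 := Ideal.Quotient.eq_zero_iff_mem.mpr hp
  rw [map_natCast] at this
  rw [this, zero_mul]

/-- **(L2)**: uniqueness of the point with given parameter. `Ψ` is any function with difference
quotients (e.g. a polynomial function). -/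
theorem eq_of_param_eq {I : Ideal A} (hI : ∀ x ∈ I, IsUnit (1 + x)) {p : ℕ} (hp : (p : A) ∈ I)
    (Ψ : A → A → A) {a a' b b' t ρ : A} (hρ : ρ ∈ I)
    (h1 : a - a' ^ p = t) (h1' : b - b' ^ p = t)
    (h2 : a' - a ^ p = ρ * Ψ a a') (h2' : b' - b ^ p = ρ * Ψ b b')
    (hd : a - b ∈ I) (hd' : a' - b' ∈ I)
    (hΨ : ∃ c c' : A, Ψ a a' - Ψ b b' = (a - b) * c + (a' - b') * c') :
    a = b ∧ a' = b' := by
  obtain ⟨c, c', hcc⟩ := hΨ
  set S := ∑ i ∈ range p, a' ^ i * b' ^ (p - 1 - i) with hS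
  set S2 := ∑ i ∈ range p, a ^ i * b ^ (p - 1 - i) with hS2
  have hSI : S ∈ I := geomSum₂_mem hp hd'
  have hS2I : S2 ∈ I := geomSum₂_mem hp hd
  have e1 : S * (a' - b') = a' ^ p - b' ^ p := (Commute.all a' b').geom_sum₂_mul p
  have e2 : S2 * (a - b) = a ^ p - b ^ p := (Commute.all a b).geom_sum₂_mul p
  -- `d = S d'`
  have hdS : a - b = S * (a' - b') := by
    rw [e1]
    have : a - b = (a - a' ^ p) - (b - b' ^ p) + (a' ^ p - b' ^ p) := by ring
    rw [this, h1, h1']; ring
  -- `d' = S2 d + ρ (d c + d' c')`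
  have hd'S : a' - b' = S2 * (a - b) + ρ * ((a - b) * c + (a' - b') * c') := by
    rw [e2, ← hcc]
    have : a' - b' = (a' - a ^ p) - (b' - b ^ p) + (a ^ p - b ^ p) := by ring
    rw [this, h2, h2']; ring
  have key : (a' - b') * (1 + -((S2 + ρ * c) * S + ρ * c')) = 0 := by
    have := hd'S
    rw [hdS] at this
    linear_combination this
  have hx : -((S2 + ρ * c) * S + ρ * c') ∈ I :=
    I.neg_mem (I.add_mem (I.mul_mem_left _ hSI) (I.mul_mem_right _ hρ))
  have hu := hI _ hx
  have hd0 : a' - b' = 0 := by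
    obtain ⟨w, hw⟩ := hu
    have := congrArg (· * (w⁻¹ : Aˣ).val) key
    simp only [zero_mul] at this
    rw [mul_assoc, ← hw, Units.mul_inv, mul_one] at this
    exact this
  have hd00 : a - b = 0 := by rw [hdS, hd0, mul_zero]
  exact ⟨sub_eq_zero.mp hd00, sub_eq_zero.mp hd0⟩

end Injectivity

section Contraction

variable {R T G : Type*} [CommRing R] [CommRing T] [LinearOrderedCommGroupWithZero G]

/-- **(L2), abstract form**: two ring homomorphisms `φ φ' : R → T` into a ring with a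
submultiplicative ultrametric norm, both of norm `≤ 1`, which agree on the parameter `u'` and on
the "constants" of the local decomposition `h = c + u a + u' b + p e`, coincide, provided
`t = φ u'`, `ρ = p / t` and `p` are small and the norm is archimedean (rank one). -/
theorem hom_eq_of_param_eq
    (nrm : T → G) (hneg : ∀ x, nrm (-x) = nrm x)
    (hadd : ∀ x y, nrm (x + y) ≤ max (nrm x) (nrm y))
    (hmul : ∀ x y, nrm (x * y) ≤ nrm x * nrm y)
    (hsep : ∀ x, nrm x = 0 → x = 0)
    (harch : ∀ th : G, th < 1 → ∀ c : G, c ≠ 0 → ∃ n : ℕ, th ^ n < c)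
    (φ φ' : R →+* T) (hle : ∀ h, nrm (φ h) ≤ 1) (hle' : ∀ h, nrm (φ' h) ≤ 1)
    (u u' Ψ : R) (p : ℕ) (ρ : T) (huu : u * u' = p * Ψ) (hpar : φ u' = φ' u')
    (hρ : ρ * φ u' = p) (hcancel : ∀ x, φ u' * x = 0 → x = 0)
    (ht : nrm (φ u') < 1) (hρ1 : nrm ρ < 1) (hp1 : nrm (p : T) < 1)
    (Dec : ∀ h : R, ∃ c a b e : R, h = c + u * a + u' * b + p * e ∧ φ c = φ' c) :
    φ = φ' := by
  set t := φ u' with ht_def
  -- `φ u = ρ φ Ψ`, `φ' u = ρ φ' Ψ`
  have hu : φ u = ρ * φ Ψ := by
    have h1 : φ u * t = (p : T) * φ Ψ := by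
      rw [ht_def, ← map_mul, huu, map_mul, map_natCast]
    have h2 : t * (φ u - ρ * φ Ψ) = 0 := by
      rw [← hρ] at h1
      linear_combination h1
    exact sub_eq_zero.mp (hcancel _ h2)
  have hu' : φ' u = ρ * φ' Ψ := by
    have h1 : φ' u * t = (p : T) * φ' Ψ := by
      rw [hpar, ← map_mul, huu, map_mul, map_natCast]
    have h2 : t * (φ' u - ρ * φ' Ψ) = 0 := by
      rw [← hρ] at h1
      linear_combination h1
    exact sub_eq_zero.mp (hcancel _ h2)
  set θ : G := max (nrm ρ) (max (nrm t) (nrm (p : T))) with hθ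
  have hθ1 : θ < 1 := max_lt hρ1 (max_lt ht hp1)
  have hρθ : nrm ρ ≤ θ := le_max_left _ _
  have htθ : nrm t ≤ θ := le_trans (le_max_left _ _) (le_max_right _ _)
  have hpθ : nrm (p : T) ≤ θ := le_trans (le_max_right _ _) (le_max_right _ _)
  -- norm of a difference
  have hsub : ∀ x y : T, nrm (x - y) ≤ max (nrm x) (nrm y) := by
    intro x y
    rw [sub_eq_add_neg]
    exact le_trans (hadd _ _) (by rw [hneg])
  have hΔle : ∀ h : R, nrm (φ h - φ' h) ≤ 1 := fun h =>
    le_trans (hsub _ _) (max_le (hle h) (hle' h))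
  -- one contraction step
  have step : ∀ h : R, ∃ h' : R, nrm (φ h - φ' h) ≤ θ * nrm (φ h' - φ' h') := by
    intro h
    obtain ⟨c, a, b, e, hdec, hc⟩ := Dec h
    have hΔ : φ h - φ' h = ρ * (φ Ψ * (φ a - φ' a)) + ρ * ((φ Ψ - φ' Ψ) * φ' a)
        + t * (φ b - φ' b) + (p : T) * (φ e - φ' e) := by
      rw [hdec]
      simp only [map_add, map_mul, map_natCast]
      rw [hu, hu', hc, ← hpar]
      ring
    -- bounds of the four terms
    have b1 : nrm (ρ * (φ Ψ * (φ a - φ' a))) ≤ θ * nrm (φ a - φ' a) := by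
      refine le_trans (hmul _ _) (mul_le_mul' hρθ ?_)
      refine le_trans (hmul _ _) ?_
      calc nrm (φ Ψ) * nrm (φ a - φ' a) ≤ 1 * nrm (φ a - φ' a) := mul_le_mul' (hle Ψ) le_rfl
        _ = nrm (φ a - φ' a) := one_mul _
    have b2 : nrm (ρ * ((φ Ψ - φ' Ψ) * φ' a)) ≤ θ * nrm (φ Ψ - φ' Ψ) := by
      refine le_trans (hmul _ _) (mul_le_mul' hρθ ?_)
      refine le_trans (hmul _ _) ?_
      calc nrm (φ Ψ - φ' Ψ) * nrm (φ' a) ≤ nrm (φ Ψ - φ' Ψ) * 1 := mul_le_mul' le_rfl (hle' a)
        _ = nrm (φ Ψ - φ' Ψ) := mul_one _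
    have b3 : nrm (t * (φ b - φ' b)) ≤ θ * nrm (φ b - φ' b) :=
      le_trans (hmul _ _) (mul_le_mul' htθ le_rfl)
    have b4 : nrm ((p : T) * (φ e - φ' e)) ≤ θ * nrm (φ e - φ' e) :=
      le_trans (hmul _ _) (mul_le_mul' hpθ le_rfl)
    have hmax : nrm (φ h - φ' h) ≤ max (max (max (nrm (ρ * (φ Ψ * (φ a - φ' a))))
        (nrm (ρ * ((φ Ψ - φ' Ψ) * φ' a)))) (nrm (t * (φ b - φ' b))))
        (nrm ((p : T) * (φ e - φ' e))) := by
      rw [hΔ]
      refine le_trans (hadd _ _) (max_le_max ?_ le_rfl)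
      refine le_trans (hadd _ _) (max_le_max ?_ le_rfl)
      exact hadd _ _
    rcases le_max_iff.mp hmax with h123 | h4
    · rcases le_max_iff.mp h123 with h12 | h3
      · rcases le_max_iff.mp h12 with h1 | h2
        · exact ⟨a, le_trans h1 b1⟩
        · exact ⟨Ψ, le_trans h2 b2⟩
      · exact ⟨b, le_trans h3 b3⟩
    · exact ⟨e, le_trans h4 b4⟩
  -- iterate
  have iter : ∀ n : ℕ, ∀ h : R, nrm (φ h - φ' h) ≤ θ ^ n := by
    intro n
    induction n with
    | zero => intro h; rw [pow_zero]; exact hΔle h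
    | succ n ih =>
      intro h
      obtain ⟨h', hh'⟩ := step h
      refine le_trans hh' ?_
      rw [pow_succ']
      exact mul_le_mul' le_rfl (ih h')
  ext h
  by_contra hne
  have hne' : nrm (φ h - φ' h) ≠ 0 := fun h0 => hne (sub_eq_zero.mp (hsep _ h0))
  obtain ⟨n, hn⟩ := harch θ hθ1 _ hne'
  exact absurd (iter n h) (not_le.mpr hn)

end Contraction

section Lipschitz

variable {R K G : Type*} [CommRing R] [Field K] [LinearOrderedCommGroupWithZero G]

/-- **Quantitative (L2)**: with the local decomposition `h = c + u a + u' b + p e`, every `h ∈ R`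
is Lipschitz in the parameter `u'` on the points `φ`, `φ'` (ring homomorphisms to a valued field,
of norm `≤ 1`, agreeing on the constants), with constant `max 1 (|p| / (|t| |t'|))`. -/
theorem lipschitz_of_dec (w : Valuation K G)
    (harch : ∀ th : G, th < 1 → ∀ c : G, c ≠ 0 → ∃ n : ℕ, th ^ n < c)
    (φ φ' : R →+* K) (hle : ∀ h, w (φ h) ≤ 1) (hle' : ∀ h, w (φ' h) ≤ 1)
    (u u' Ψ : R) (p : ℕ) (huu : u * u' = p * Ψ)
    (ht0 : φ u' ≠ 0) (ht0' : φ' u' ≠ 0)
    (ht : w (φ u') < 1) (hρ : w ((p : K) / φ u') < 1) (hp1 : w (p : K) < 1)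
    (Dec : ∀ h : R, ∃ c a b e : R, h = c + u * a + u' * b + p * e ∧ φ c = φ' c) (h : R) :
    w (φ h - φ' h) ≤
      max 1 (w (p : K) / (w (φ u') * w (φ' u'))) * w (φ u' - φ' u') := by
  set t := φ u' with ht_def
  set t' := φ' u' with ht'_def
  set C : G := max 1 (w (p : K) / (w t * w t')) with hC
  set θ : G := max (w ((p : K) / t)) (max (w t) (w (p : K))) with hθ
  have hθ1 : θ < 1 := max_lt hρ (max_lt ht hp1)
  have hρθ : w ((p : K) / t) ≤ θ := le_max_left _ _
  have htθ : w t ≤ θ := le_trans (le_max_left _ _) (le_max_right _ _)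
  have hpθ : w (p : K) ≤ θ := le_trans (le_max_right _ _) (le_max_right _ _)
  have hC1 : (1 : G) ≤ C := le_max_left _ _
  have hwt : w t ≠ 0 := (Valuation.ne_zero_iff _).mpr ht0
  have hwt' : w t' ≠ 0 := (Valuation.ne_zero_iff _).mpr ht0'
  -- `φ u = p φΨ / t`, `φ' u = p φ'Ψ / t'`
  have hu : φ u = (p : K) / t * φ Ψ := by
    have h1 : φ u * t = (p : K) * φ Ψ := by
      rw [ht_def, ← map_mul, huu, map_mul, map_natCast]
    field_simp
    linear_combination h1
  have hu' : φ' u = (p : K) / t' * φ' Ψ := by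
    have h1 : φ' u * t' = (p : K) * φ' Ψ := by
      rw [ht'_def, ← map_mul, huu, map_mul, map_natCast]
    field_simp
    linear_combination h1
  have hφu : w (φ u) ≤ θ := by
    rw [hu, map_mul]
    calc w ((p : K) / t) * w (φ Ψ) ≤ θ * 1 := mul_le_mul' hρθ (hle Ψ)
      _ = θ := mul_one _
  have hΔle : ∀ h : R, w (φ h - φ' h) ≤ 1 := fun h =>
    le_trans (Valuation.map_sub _ _ _) (max_le (hle h) (hle' h))
  -- `Δu = (p/t) ΔΨ - (p φ'Ψ / (t t')) Δu'`
  have hΔu : φ u - φ' u = (p : K) / t * (φ Ψ - φ' Ψ) - (p : K) * φ' Ψ / (t * t') * (t - t') := by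
    rw [hu, hu']
    field_simp
    ring
  have hΔu_le : w (φ u - φ' u) ≤ max (θ * w (φ Ψ - φ' Ψ)) (C * w (t - t')) := by
    rw [hΔu]
    refine le_trans (Valuation.map_sub _ _ _) (max_le_max ?_ ?_)
    · rw [map_mul]
      exact mul_le_mul' hρθ le_rfl
    · rw [map_mul, map_div₀, map_mul, map_mul]
      refine mul_le_mul' ?_ le_rfl
      refine le_trans ?_ (le_max_right _ _)
      rw [div_le_div_iff_of_pos_right (zero_lt_iff.mpr (mul_ne_zero hwt hwt'))]
      calc w (p : K) * w (φ' Ψ) ≤ w (p : K) * 1 := mul_le_mul' le_rfl (hle' Ψ)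
        _ = w (p : K) := mul_one _
  -- one step
  have step : ∀ h : R, ∃ h' : R, w (φ h - φ' h) ≤
      max (θ * w (φ h' - φ' h')) (C * w (t - t')) := by
    intro h
    obtain ⟨c, a, b, e, hdec, hc⟩ := Dec h
    have hΔ : φ h - φ' h = φ u * (φ a - φ' a) + (φ u - φ' u) * φ' a
        + t * (φ b - φ' b) + (t - t') * φ' b + (p : K) * (φ e - φ' e) := by
      rw [hdec]
      simp only [map_add, map_mul, map_natCast]
      rw [hc]
      ring
    have b1 : w (φ u * (φ a - φ' a)) ≤ θ * w (φ a - φ' a) := by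
      rw [map_mul]; exact mul_le_mul' hφu le_rfl
    have b2 : w ((φ u - φ' u) * φ' a) ≤ max (θ * w (φ Ψ - φ' Ψ)) (C * w (t - t')) := by
      rw [map_mul]
      calc w (φ u - φ' u) * w (φ' a) ≤ w (φ u - φ' u) * 1 := mul_le_mul' le_rfl (hle' a)
        _ = w (φ u - φ' u) := mul_one _
        _ ≤ _ := hΔu_le
    have b3 : w (t * (φ b - φ' b)) ≤ θ * w (φ b - φ' b) := by
      rw [map_mul]; exact mul_le_mul' htθ le_rfl
    have b4 : w ((t - t') * φ' b) ≤ C * w (t - t') := by
      rw [map_mul, mul_comm]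
      exact mul_le_mul' (le_trans (hle' b) hC1) le_rfl
    have b5 : w ((p : K) * (φ e - φ' e)) ≤ θ * w (φ e - φ' e) := by
      rw [map_mul]; exact mul_le_mul' hpθ le_rfl
    have hmax : w (φ h - φ' h) ≤ max (max (max (max (w (φ u * (φ a - φ' a)))
        (w ((φ u - φ' u) * φ' a))) (w (t * (φ b - φ' b)))) (w ((t - t') * φ' b)))
        (w ((p : K) * (φ e - φ' e))) := by
      rw [hΔ]
      refine le_trans (Valuation.map_add _ _ _) (max_le_max ?_ le_rfl)
      refine le_trans (Valuation.map_add _ _ _) (max_le_max ?_ le_rfl)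
      refine le_trans (Valuation.map_add _ _ _) (max_le_max ?_ le_rfl)
      exact Valuation.map_add _ _ _
    rcases le_max_iff.mp hmax with h1234 | h5
    · rcases le_max_iff.mp h1234 with h123 | h4
      · rcases le_max_iff.mp h123 with h12 | h3
        · rcases le_max_iff.mp h12 with h1 | h2
          · exact ⟨a, le_trans (le_trans h1 b1) (le_max_left _ _)⟩
          · exact ⟨Ψ, le_trans h2 b2⟩
        · exact ⟨b, le_trans (le_trans h3 b3) (le_max_left _ _)⟩
      · exact ⟨h, le_trans (le_trans h4 b4) (le_max_right _ _)⟩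
    · exact ⟨e, le_trans (le_trans h5 b5) (le_max_left _ _)⟩
  -- iterate
  have iter : ∀ n : ℕ, ∀ h : R, w (φ h - φ' h) ≤ max (θ ^ n) (C * w (t - t')) := by
    intro n
    induction n with
    | zero => intro h; rw [pow_zero]; exact le_trans (hΔle h) (le_max_left _ _)
    | succ n ih =>
      intro h
      obtain ⟨h', hh'⟩ := step h
      refine le_trans hh' (max_le ?_ (le_max_right _ _))
      rw [pow_succ']
      calc θ * w (φ h' - φ' h') ≤ θ * max (θ ^ n) (C * w (t - t')) := mul_le_mul' le_rfl (ih h')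
        _ ≤ max (θ * θ ^ n) (C * w (t - t')) := by
            rcases le_total (θ ^ n) (C * w (t - t')) with hle1 | hle1
            · rw [max_eq_right hle1]
              refine le_trans ?_ (le_max_right _ _)
              calc θ * (C * w (t - t')) ≤ 1 * (C * w (t - t')) := mul_le_mul' hθ1.le le_rfl
                _ = _ := one_mul _
            · rw [max_eq_left hle1]
              exact le_max_left _ _
  by_contra hcon
  rw [not_le] at hcon
  have hne : w (φ h - φ' h) ≠ 0 := fun h0 => by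
    rw [h0] at hcon
    exact absurd hcon (not_lt.mpr zero_le)
  obtain ⟨n, hn⟩ := harch θ hθ1 _ hne
  have := iter n h
  rcases le_max_iff.mp this with h1 | h2
  · exact absurd h1 (not_le.mpr hn)
  · exact absurd h2 (not_le.mpr hcon)

end Lipschitz

end Fermat.Agent.S40x.Tame.NodePoints
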