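import Fermat.Agent.S40x.Tame.TameLemma
import Fermat.Agent.S40x.Tame.NodePoints

set_option autoImplicit false
set_option linter.unusedSectionVars false

namespace Fermat.Agent.S40x.Tame.CoordOfDec

open AlgebraicCurve Fermat.Agent.S40x.Tame.Harmonic Fermat.Agent.S40x.Tame.TameLemma

variable {K F k : Type*} [Field K] [Field F] [Algebra K F] [Field k]

section Values

variable (hres : ∀ v : Place K F, Function.Surjective (algebraMap K v.ResidueField))

/-- the residue field of a place is the constant field -/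
noncomputable def resEquiv (v : Place K F) : K ≃+* v.ResidueField :=
  RingEquiv.ofBijective (algebraMap K v.ResidueField)
    ⟨(algebraMap K v.ResidueField).injective, hres v⟩

/-- the value of a function at a place -/
noncomputable def valAt (v : Place K F) : v.toValuationSubring →+* K :=
  ((resEquiv hres v).symm : v.ResidueField →+* K).comp (IsLocalRing.residue v.toValuationSubring)

variable {hres}

theorem resEquiv_apply (v : Place K F) (c : K) :
    resEquiv hres v c = algebraMap K v.ResidueField c := rfl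

theorem residue_eq (v : Place K F) (x : v.toValuationSubring) :
    IsLocalRing.residue v.toValuationSubring x = algebraMap K v.ResidueField (valAt hres v x) := by
  show _ = resEquiv hres v ((resEquiv hres v).symm (IsLocalRing.residue _ x))
  rw [RingEquiv.apply_symm_apply]

theorem valAt_const (v : Place K F) (c : K) :
    valAt hres v (algebraMap K v.toValuationSubring c) = c := by
  show (resEquiv hres v).symm (IsLocalRing.residue _ (algebraMap K v.toValuationSubring c)) = c
  have : IsLocalRing.residue v.toValuationSubring (algebraMap K v.toValuationSubring c)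
      = resEquiv hres v c := rfl
  rw [this, RingEquiv.symm_apply_apply]

theorem sub_valAt_mem_nonunits (v : Place K F) (x : v.toValuationSubring) :
    (x : F) - algebraMap K F (valAt hres v x) ∈ v.toValuationSubring.nonunits := by
  rw [ValuationSubring.mem_nonunits_iff_exists_mem_maximalIdeal]
  refine ⟨sub_mem x.2 (v.algebraMap_mem' _), ?_⟩
  rw [← IsLocalRing.residue_eq_zero_iff]
  have : (⟨(x : F) - algebraMap K F (valAt hres v x), sub_mem x.2
      (v.algebraMap_mem' _)⟩ : v.toValuationSubring)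
      = x - algebraMap K v.toValuationSubring (valAt hres v x) := rfl
  rw [this, map_sub, residue_eq (hres := hres) v x]
  exact sub_self _

theorem valAt_eq_of_sub_mem (v : Place K F) (x : v.toValuationSubring) (c : K)
    (h : (x : F) - algebraMap K F c ∈ v.toValuationSubring.nonunits) : valAt hres v x = c := by
  rw [ValuationSubring.mem_nonunits_iff_exists_mem_maximalIdeal] at h
  obtain ⟨hm, hmax⟩ := h
  rw [← IsLocalRing.residue_eq_zero_iff] at hmax
  have : (⟨(x : F) - algebraMap K F c, hm⟩ : v.toValuationSubring)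
      = x - algebraMap K v.toValuationSubring c := rfl
  rw [this, map_sub, sub_eq_zero] at hmax
  show (resEquiv hres v).symm (IsLocalRing.residue _ x) = c
  rw [hmax]
  exact valAt_const (hres := hres) v c

theorem valAt_eq_zero_iff (v : Place K F) (x : v.toValuationSubring) :
    valAt hres v x = 0 ↔ (x : F) ∈ v.toValuationSubring.nonunits := by
  constructor
  · intro h
    have := sub_valAt_mem_nonunits (hres := hres) v x
    rwa [h, map_zero, sub_zero] at this
  · intro h
    apply valAt_eq_of_sub_mem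
    rwa [map_zero, sub_zero]

end Values

section Centered

variable {hres : ∀ v : Place K F, Function.Surjective (algebraMap K v.ResidueField)}
variable (E : EdgeCtx K F k)
variable [HasPrincipalDivisors K F]

/-- constants of `A` lie in the chart ring -/
theorem const_mem_B {c : K} (hc : c ∈ E.A) : algebraMap K F c ∈ E.B :=
  E.mem_B _ ((E.mem_OI_iff c).mpr hc) ((E.mem_O0_iff c).mpr hc) fun v _ => v.algebraMap_mem' c

variable {E}

/-- elements of `B` are regular at centred places -/
theorem mem_of_centered {v : Place K F} (hv : E.Centered v) (h : E.B) :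
    (h : F) ∈ v.toValuationSubring := E.B_reg h h.2 v hv.1

/-- the value of an element of the chart ring at a centred place -/
noncomputable def bval (hres : ∀ v : Place K F, Function.Surjective (algebraMap K v.ResidueField))
    {v : Place K F} (hv : E.Centered v) (h : E.B) : K :=
  valAt hres v ⟨h, mem_of_centered hv h⟩

theorem bval_add {v : Place K F} (hv : E.Centered v) (h₁ h₂ : E.B) :
    bval hres hv (h₁ + h₂) = bval hres hv h₁ + bval hres hv h₂ := by
  unfold bval
  rw [← map_add]; rfl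

theorem bval_mul {v : Place K F} (hv : E.Centered v) (h₁ h₂ : E.B) :
    bval hres hv (h₁ * h₂) = bval hres hv h₁ * bval hres hv h₂ := by
  unfold bval
  rw [← map_mul]; rfl

theorem bval_sub {v : Place K F} (hv : E.Centered v) (h₁ h₂ : E.B) :
    bval hres hv (h₁ - h₂) = bval hres hv h₁ - bval hres hv h₂ := by
  unfold bval
  rw [← map_sub]; rfl

theorem bval_one {v : Place K F} (hv : E.Centered v) : bval hres hv (1 : E.B) = 1 := by
  unfold bval
  exact map_one _

theorem bval_const {v : Place K F} (hv : E.Centered v) {c : K} (hc : c ∈ E.A) :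
    bval hres hv ⟨algebraMap K F c, const_mem_B E hc⟩ = c :=
  valAt_const (hres := hres) v c

theorem bval_eq_zero_iff {v : Place K F} (hv : E.Centered v) (h : E.B) :
    bval hres hv h = 0 ↔ (h : F) ∈ v.toValuationSubring.nonunits :=
  valAt_eq_zero_iff (hres := hres) v ⟨h, mem_of_centered hv h⟩

/-- a function of the chart ring vanishing at a centred place is killed by `ev` -/
theorem ev_eq_zero_of_bval {v : Place K F} (hv : E.Centered v) (h : E.B)
    (h0 : bval hres hv h = 0) : E.ev h = 0 :=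
  hv.2 h ((bval_eq_zero_iff hv h).mp h0)

/-- values of the chart ring at centred places are integral -/
theorem bval_mem_A {v : Place K F} (hv : E.Centered v) (h : E.B) : bval hres hv h ∈ E.A := by
  by_contra hcon
  set c := bval hres hv h with hc
  have hc0 : c ≠ 0 := fun h0 => hcon (h0 ▸ E.A.zero_mem)
  have hd : c⁻¹ ∈ E.A.nonunits := by
    rw [ValuationSubring.mem_nonunits_iff, map_inv₀]
    have h1 : ¬ E.A.valuation c ≤ 1 := fun hle => hcon ((E.A.valuation_le_one_iff _).mp hle)
    rw [not_le] at h1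
    exact inv_lt_one_of_one_lt₀ h1
  set dB : E.B := ⟨algebraMap K F c⁻¹, const_mem_B E (E.A.nonunits_le hd)⟩ with hdB
  have hval : bval hres hv (dB * h - 1) = 0 := by
    rw [bval_sub, bval_mul, bval_one, hdB, bval_const hv (E.A.nonunits_le hd), ← hc,
      inv_mul_cancel₀ hc0, sub_self]
  have hev := ev_eq_zero_of_bval hv _ hval
  rw [map_sub, map_one, sub_eq_zero] at hev
  have hsm : ((dB * h : E.B) : F) ∈ E.OI.nonunits := by
    push_cast
    exact NodeCtx.mul_mem_nonunits_left' _ (E.const_mem_nonunits_OI hd) (E.B_le_OI _ h.2)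
  have := E.glueI _ hsm
  rw [hev] at this
  exact one_ne_zero this

/-- `ev h = 0` iff the value of `h` at a centred place is small. -/
theorem ev_eq_zero_iff {v : Place K F} (hv : E.Centered v) (h : E.B) :
    E.ev h = 0 ↔ bval hres hv h ∈ E.A.nonunits := by
  set c := bval hres hv h with hc
  have hcA : c ∈ E.A := bval_mem_A hv h
  set cB : E.B := ⟨algebraMap K F c, const_mem_B E hcA⟩ with hcB
  have hval : bval hres hv (h - cB) = 0 := by
    rw [bval_sub, hcB, bval_const hv hcA, ← hc, sub_self]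
  have hev := ev_eq_zero_of_bval hv _ hval
  rw [map_sub, sub_eq_zero] at hev
  constructor
  · intro h0
    by_contra hcon
    -- `c` is a unit of `A`
    have h1 : E.A.valuation c = 1 := by
      have hle : E.A.valuation c ≤ 1 := (E.A.valuation_le_one_iff _).mpr hcA
      rcases hle.lt_or_eq with hlt | heq
      · exact absurd ((ValuationSubring.mem_nonunits_iff _).mpr hlt) hcon
      · exact heq
    have hc0 : c ≠ 0 := by
      intro h2; rw [h2, map_zero] at h1; exact zero_ne_one h1
    have hinvA : c⁻¹ ∈ E.A := by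
      apply (E.A.valuation_le_one_iff _).mp
      rw [map_inv₀, h1, inv_one]
    set cB' : E.B := ⟨algebraMap K F c⁻¹, const_mem_B E hinvA⟩ with hcB'
    have hprod : cB * cB' = 1 := by
      apply Subtype.ext
      push_cast
      rw [hcB, hcB']
      simp only
      rw [← map_mul, mul_inv_cancel₀ hc0, map_one]
    have := congrArg E.ev hprod
    rw [map_mul, ← hev, h0, zero_mul, map_one] at this
    exact zero_ne_one this
  · intro hsm
    rw [hev]
    exact E.glueI _ (E.const_mem_nonunits_OI hsm)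

end Centered

section L1

variable {hres : ∀ v : Place K F, Function.Surjective (algebraMap K v.ResidueField)}
variable {E : EdgeCtx K F k}
variable [HasPrincipalDivisors K F]

/-- positive order means: in the maximal ideal -/
theorem mem_nonunits_of_ord_pos (v : Place K F) {f : F} (h : 0 < v.ord f) :
    f ∈ v.toValuationSubring.nonunits := by
  have hf : f ≠ 0 := by
    rintro rfl
    rw [Place.ord_zero] at h
    exact lt_irrefl _ h
  rw [ValuationSubring.mem_nonunits_iff]
  by_contra hcon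
  rw [not_lt] at hcon
  have h1 : v.toValuationSubring.valuation f⁻¹ ≤ 1 := by
    rw [map_inv₀]
    exact inv_le_one_of_one_le₀ hcon
  have h2 : f⁻¹ ∈ v.toValuationSubring := (v.toValuationSubring.valuation_le_one_iff _).mp h1
  have h3 := (Fermat.Agent.S24.place_mem_iff_ord_nonneg v (inv_ne_zero hf)).mp h2
  rw [v.ord_inv] at h3
  omega

theorem ord_pos_of_mem_nonunits (v : Place K F) {f : F} (hf : f ≠ 0)
    (h : f ∈ v.toValuationSubring.nonunits) : 0 < v.ord f := by
  have h1 : f ∈ v.toValuationSubring := v.toValuationSubring.nonunits_le h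
  have h2 : 0 ≤ v.ord f := (Fermat.Agent.S24.place_mem_iff_ord_nonneg v hf).mp h1
  rcases h2.lt_or_eq with h3 | h3
  · exact h3
  · exfalso
    have h4 : 0 ≤ v.ord f⁻¹ := by rw [v.ord_inv, ← h3]; simp
    have h5 : f⁻¹ ∈ v.toValuationSubring :=
      (Fermat.Agent.S24.place_mem_iff_ord_nonneg v (inv_ne_zero hf)).mpr h4
    rw [ValuationSubring.mem_nonunits_iff] at h
    have h6 : v.toValuationSubring.valuation f⁻¹ ≤ 1 :=
      (v.toValuationSubring.valuation_le_one_iff _).mpr h5
    rw [map_inv₀] at h6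
    have h7 : v.toValuationSubring.valuation f ≠ 0 := (Valuation.ne_zero_iff _).mpr hf
    have h8 : (1 : _) ≤ v.toValuationSubring.valuation f := by
      rwa [inv_le_one₀ (zero_lt_iff.mpr h7)] at h6
    exact absurd h (not_lt.mpr h8)

/-- the value of an element of `B` at a centred place is characterised by positivity of the
order of the difference -/
theorem bval_eq_of_ord_pos {v : Place K F} (hv : E.Centered v) (h : E.B) {c : K}
    (hc : 0 < v.ord ((h : F) - algebraMap K F c)) : bval hres hv h = c :=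
  valAt_eq_of_sub_mem (hres := hres) v ⟨h, mem_of_centered hv h⟩ c
    (mem_nonunits_of_ord_pos v hc)

/-- **(L1)**, values of the coordinate: thickness one. -/
theorem bval_u'_props {u Ψ : F} (hu : u ∈ E.B) (hu' : E.u' ∈ E.B) (hΨ : Ψ ∈ E.B)
    (huu : u * E.u' = algebraMap K F E.pi0 * Ψ)
    (hevu : E.ev ⟨u, hu⟩ = 0) (hevu' : E.ev ⟨E.u', hu'⟩ = 0) (hevΨ : E.ev ⟨Ψ, hΨ⟩ ≠ 0)
    {v : Place K F} (hv : E.Centered v) :
    bval hres hv ⟨E.u', hu'⟩ ≠ 0 ∧ bval hres hv ⟨E.u', hu'⟩ ∈ E.A.nonunits ∧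
      E.pi0 / bval hres hv ⟨E.u', hu'⟩ ∈ E.A.nonunits ∧
      bval hres hv ⟨u, hu⟩ * bval hres hv ⟨E.u', hu'⟩ = E.pi0 * bval hres hv ⟨Ψ, hΨ⟩ ∧
      E.A.valuation (bval hres hv ⟨Ψ, hΨ⟩) = 1 := by
  set t := bval hres hv ⟨E.u', hu'⟩ with ht
  set s := bval hres hv ⟨u, hu⟩ with hs
  set ψ := bval hres hv ⟨Ψ, hΨ⟩ with hψ
  have htm : t ∈ E.A.nonunits := (ev_eq_zero_iff hv _).mp hevu'
  have hsm : s ∈ E.A.nonunits := (ev_eq_zero_iff hv _).mp hevu
  have hψA : ψ ∈ E.A := bval_mem_A hv _
  have hψn : ψ ∉ E.A.nonunits := fun h => hevΨ ((ev_eq_zero_iff hv _).mpr h)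
  have hψ1 : E.A.valuation ψ = 1 := by
    have hle : E.A.valuation ψ ≤ 1 := (E.A.valuation_le_one_iff _).mpr hψA
    rcases hle.lt_or_eq with hlt | heq
    · exact absurd ((ValuationSubring.mem_nonunits_iff _).mpr hlt) hψn
    · exact heq
  have hψ0 : ψ ≠ 0 := by
    intro h; rw [h, map_zero] at hψ1; exact zero_ne_one hψ1
  -- the thickness relation on values
  have hrel : s * t = E.pi0 * ψ := by
    have hπ : algebraMap K F E.pi0 ∈ v.toValuationSubring := v.algebraMap_mem' _
    have e1 : (⟨u, mem_of_centered hv ⟨u, hu⟩⟩ : v.toValuationSubring) *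
        ⟨E.u', mem_of_centered hv ⟨E.u', hu'⟩⟩ =
        algebraMap K v.toValuationSubring E.pi0 * ⟨Ψ, mem_of_centered hv ⟨Ψ, hΨ⟩⟩ :=
      Subtype.ext huu
    have e2 := congrArg (valAt hres v) e1
    rw [map_mul, map_mul, valAt_const] at e2
    exact e2
  have hst : s * t ≠ 0 := by rw [hrel]; exact mul_ne_zero E.pi0_ne hψ0
  have ht0 : t ≠ 0 := right_ne_zero_of_mul hst
  refine ⟨ht0, htm, ?_, hrel, hψ1⟩
  have e3 : E.pi0 / t = s * ψ⁻¹ := by
    field_simp
    linear_combination -hrel
  rw [e3, ValuationSubring.mem_nonunits_iff, map_mul, map_inv₀, hψ1, inv_one, mul_one]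
  exact (ValuationSubring.mem_nonunits_iff _).mp hsm

/-- `u'` is not a constant -/
theorem u'_sub_const_ne_zero (hu' : E.u' ∈ E.B) (hevu' : E.ev ⟨E.u', hu'⟩ = 0) (c : K) :
    E.u' - algebraMap K F c ≠ 0 := by
  intro h
  have h1 : E.u' = algebraMap K F c := sub_eq_zero.mp h
  -- `c` is a unit of `A`
  have hc1 : c ∈ E.A := (E.mem_OI_iff c).mp (h1 ▸ E.u'_OI.1)
  have hc2 : c⁻¹ ∈ E.A := (E.mem_OI_iff c⁻¹).mp (by rw [map_inv₀, ← h1]; exact E.u'_OI.2)
  have hc0 : c ≠ 0 := by
    rintro rfl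
    rw [map_zero] at h1
    exact EdgeCtx.u'_ne_zero (E := E) h1
  have hprod : (⟨E.u', hu'⟩ : E.B) * ⟨algebraMap K F c⁻¹, const_mem_B E hc2⟩ = 1 := by
    apply Subtype.ext
    show E.u' * algebraMap K F c⁻¹ = 1
    rw [h1, ← map_mul, mul_inv_cancel₀ hc0, map_one]
  have := congrArg E.ev hprod
  rw [map_mul, hevu', zero_mul, map_one] at this
  exact zero_ne_one this

end L1

section L2

variable {hres : ∀ v : Place K F, Function.Surjective (algebraMap K v.ResidueField)}
variable {E : EdgeCtx K F k}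
variable [HasPrincipalDivisors K F]

theorem inv_mem_of_not_mem_nonunits (O : ValuationSubring F) {x : F}
    (hn : x ∉ O.nonunits) : x⁻¹ ∈ O := by
  rw [ValuationSubring.mem_nonunits_iff, not_lt] at hn
  apply (O.valuation_le_one_iff _).mp
  rw [map_inv₀]
  exact inv_le_one_of_one_le₀ hn

/-- functions regular at the node are regular at the centred places -/
theorem regAt_mem {v : Place K F} (hv : E.Centered v) {g : F} (hg : E.RegAt g) :
    g ∈ v.toValuationSubring := by
  obtain ⟨a, b, hb, hab⟩ := hg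
  have hbn : (b : F) ∉ v.toValuationSubring.nonunits := fun h => hb (hv.2 b h)
  have hbinv := inv_mem_of_not_mem_nonunits _ hbn
  have hb0 : (b : F) ≠ 0 := E.coe_ne_zero_of_ev_ne_zero hb
  have : g = (a : F) * (b : F)⁻¹ := by
    rw [← hab, mul_assoc, mul_inv_cancel₀ hb0, mul_one]
  rw [this]
  exact v.toValuationSubring.mul_mem _ _ (mem_of_centered hv a) hbinv

/-- a function of `B` which does not vanish at the node has unit values at centred places -/
theorem valuation_bval_eq_one {v : Place K F} (hv : E.Centered v) (b : E.B) (hb : E.ev b ≠ 0) :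
    E.A.valuation (bval hres hv b) = 1 := by
  have hle : E.A.valuation (bval hres hv b) ≤ 1 :=
    (E.A.valuation_le_one_iff _).mpr (bval_mem_A hv b)
  rcases hle.lt_or_eq with hlt | heq
  · exact absurd ((ev_eq_zero_iff hv b).mpr ((ValuationSubring.mem_nonunits_iff _).mpr hlt)) hb
  · exact heq

/-- values of functions regular at the node are integral -/
theorem valAt_regAt_mem_A {v : Place K F} (hv : E.Centered v) {g : F} (hg : E.RegAt g)
    (hgv : g ∈ v.toValuationSubring) : valAt hres v ⟨g, hgv⟩ ∈ E.A := by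
  obtain ⟨a, b, hb, hab⟩ := hg
  have e1 : (⟨g, hgv⟩ : v.toValuationSubring) * ⟨b, mem_of_centered hv b⟩ =
      ⟨a, mem_of_centered hv a⟩ := Subtype.ext hab
  have e2 := congrArg (valAt hres v) e1
  rw [map_mul] at e2
  have h1 : E.A.valuation (valAt hres v ⟨b, mem_of_centered hv b⟩) = 1 :=
    valuation_bval_eq_one hv b hb
  have h2 : E.A.valuation (valAt hres v ⟨a, mem_of_centered hv a⟩) ≤ 1 :=
    (E.A.valuation_le_one_iff _).mpr (bval_mem_A hv a)
  apply (E.A.valuation_le_one_iff _).mp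
  have := congrArg E.A.valuation e2
  rw [map_mul, h1, mul_one] at this
  rw [this]
  exact h2

/-- evaluation at a centred place of a ring of functions regular at the node -/
noncomputable def evR (hres : ∀ v : Place K F, Function.Surjective (algebraMap K v.ResidueField))
    {v : Place K F} (hv : E.Centered v) (R : Subring F) (hR : ∀ h ∈ R, E.RegAt h) : R →+* K where
  toFun h := valAt hres v ⟨h, regAt_mem hv (hR h h.2)⟩
  map_one' := by
    show valAt hres v ⟨((1 : R) : F), _⟩ = 1
    exact map_one (valAt hres v)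
  map_mul' x y := by
    show valAt hres v ⟨((x * y : R) : F), _⟩ = _
    rw [← map_mul]; rfl
  map_zero' := by
    show valAt hres v ⟨((0 : R) : F), _⟩ = 0
    exact map_zero (valAt hres v)
  map_add' x y := by
    show valAt hres v ⟨((x + y : R) : F), _⟩ = _
    rw [← map_add]; rfl

theorem evR_apply {v : Place K F} (hv : E.Centered v) (R : Subring F) (hR : ∀ h ∈ R, E.RegAt h)
    (h : R) : evR hres hv R hR h = valAt hres v ⟨h, regAt_mem hv (hR h h.2)⟩ := rfl

/-- The hypotheses on a node of thickness one: the local decomposition (Dec) in a ring `R` of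
functions regular at the node (e.g. the node ring of the model over the unramified base), descent
(Desc) and the description (Loc) of the local rings of the generic fibre. -/
structure NodeDec (E : EdgeCtx K F k) where
  /-- the coordinate on the other branch -/
  u : F
  /-- the unit in the thickness relation -/
  Ψ : F
  /-- the residue characteristic -/
  p : ℕ
  /-- the node ring -/
  R : Subring F
  hpi0 : E.pi0 = (p : K)
  hu : u ∈ E.B
  hu' : E.u' ∈ E.B
  hΨ : Ψ ∈ E.B
  huu : u * E.u' = algebraMap K F E.pi0 * Ψ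
  hevu : E.ev ⟨u, hu⟩ = 0
  hevu' : E.ev ⟨E.u', hu'⟩ = 0
  hevΨ : E.ev ⟨Ψ, hΨ⟩ ≠ 0
  hR : ∀ h ∈ R, E.RegAt h
  huR : u ∈ R
  hu'R : E.u' ∈ R
  hΨR : Ψ ∈ R
  dec : ∀ h ∈ R, ∃ (c : K) (a b e : F), algebraMap K F c ∈ R ∧ a ∈ R ∧ b ∈ R ∧ e ∈ R ∧
    h = algebraMap K F c + u * a + E.u' * b + algebraMap K F E.pi0 * e
  desc : ∀ h ∈ E.B, h ∈ Submodule.span K (R : Set F)
  loc : ∀ v : Place K F, E.Centered v → ∀ f ∈ v.toValuationSubring, ∃ (a b : E.B) (c : K),
    c ≠ 0 ∧ (b : F) ∉ v.toValuationSubring.nonunits ∧ f * (b : F) * algebraMap K F c = (a : F)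
  harch : ∀ th : E.A.ValueGroup, th < 1 → ∀ c : E.A.ValueGroup, c ≠ 0 → ∃ n : ℕ, th ^ n < c

namespace NodeDec

variable (D : NodeDec E)

/-- the value of the coordinate at a place -/
noncomputable def tval (hres : ∀ v : Place K F, Function.Surjective (algebraMap K v.ResidueField))
    (v : Place K F) : K := by
  classical
  exact if hv : E.Centered v then bval hres hv ⟨E.u', D.hu'⟩ else 0

theorem tval_eq {v : Place K F} (hv : E.Centered v) :
    D.tval hres v = bval hres hv ⟨E.u', D.hu'⟩ := by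
  unfold tval
  rw [dif_pos hv]

theorem props {v : Place K F} (hv : E.Centered v) :
    bval hres hv ⟨E.u', D.hu'⟩ ≠ 0 ∧ bval hres hv ⟨E.u', D.hu'⟩ ∈ E.A.nonunits ∧
      E.pi0 / bval hres hv ⟨E.u', D.hu'⟩ ∈ E.A.nonunits ∧
      bval hres hv ⟨D.u, D.hu⟩ * bval hres hv ⟨E.u', D.hu'⟩ =
        E.pi0 * bval hres hv ⟨D.Ψ, D.hΨ⟩ ∧
      E.A.valuation (bval hres hv ⟨D.Ψ, D.hΨ⟩) = 1 :=
  bval_u'_props (hres := hres) D.hu D.hu' D.hΨ D.huu D.hevu D.hevu' D.hevΨ hv

theorem natCast_eq : algebraMap K F E.pi0 = (D.p : F) := by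
  rw [D.hpi0, map_natCast]

theorem valuation_t_lt {v : Place K F} (hv : E.Centered v) :
    E.A.valuation (bval hres hv ⟨E.u', D.hu'⟩) < 1 :=
  (ValuationSubring.mem_nonunits_iff _).mp (D.props hv).2.1

theorem valuation_rho_lt {v : Place K F} (hv : E.Centered v) :
    E.A.valuation ((D.p : K) / bval hres hv ⟨E.u', D.hu'⟩) < 1 := by
  rw [← D.hpi0]
  exact (ValuationSubring.mem_nonunits_iff _).mp (D.props hv).2.2.1

theorem valuation_p_lt (hv : ∃ v : Place K F, E.Centered v) (hres : ∀ v : Place K F,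
    Function.Surjective (algebraMap K v.ResidueField)) : E.A.valuation (D.p : K) < 1 := by
  obtain ⟨v, hv⟩ := hv
  have h1 := D.valuation_t_lt (hres := hres) hv
  have h2 := D.valuation_rho_lt (hres := hres) hv
  have h3 : (D.p : K) = (D.p : K) / bval hres hv ⟨E.u', D.hu'⟩ * bval hres hv ⟨E.u', D.hu'⟩ :=
    (div_mul_cancel₀ _ (D.props hv).1).symm
  rw [h3, map_mul]
  exact mul_lt_one_of_nonneg_of_lt_one_left zero_le h2 h1.le

/-- **(L2), ring form**: two centred places with the same parameter have the same values on the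
node ring. -/
theorem evR_eq_of_param_eq {v w : Place K F} (hv : E.Centered v) (hw : E.Centered w)
    (hpar : bval hres hv ⟨E.u', D.hu'⟩ = bval hres hw ⟨E.u', D.hu'⟩) :
    evR hres hv D.R D.hR = evR hres hw D.R D.hR := by
  have ht0 := (D.props (hres := hres) hv).1
  refine NodePoints.hom_eq_of_param_eq (fun x : K => E.A.valuation x)
    (fun x => Valuation.map_neg _ x) (fun x y => Valuation.map_add _ x y)
    (fun x y => (map_mul _ x y).le) (fun x hx => (Valuation.zero_iff _).mp hx) D.harch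
    (evR hres hv D.R D.hR) (evR hres hw D.R D.hR)
    (fun h => (E.A.valuation_le_one_iff _).mpr (valAt_regAt_mem_A hv (D.hR h h.2) _))
    (fun h => (E.A.valuation_le_one_iff _).mpr (valAt_regAt_mem_A hw (D.hR h h.2) _))
    ⟨D.u, D.huR⟩ ⟨E.u', D.hu'R⟩ ⟨D.Ψ, D.hΨR⟩ D.p ((D.p : K) / bval hres hv ⟨E.u', D.hu'⟩)
    ?_ hpar ?_ ?_ ?_ ?_ ?_ ?_
  · apply Subtype.ext
    show D.u * E.u' = ((D.p : D.R) : F) * D.Ψ
    rw [Subring.coe_natCast, ← D.natCast_eq]
    exact D.huu
  · exact div_mul_cancel₀ _ ht0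
  · intro x hx
    rcases mul_eq_zero.mp hx with h | h
    · exact absurd h ht0
    · exact h
  · exact D.valuation_t_lt hv
  · exact D.valuation_rho_lt hv
  · exact D.valuation_p_lt ⟨v, hv⟩ hres
  · intro h
    obtain ⟨c, a, b, e, hc, ha, hb, he, heq⟩ := D.dec h h.2
    refine ⟨⟨algebraMap K F c, hc⟩, ⟨a, ha⟩, ⟨b, hb⟩, ⟨e, he⟩, ?_, ?_⟩
    · apply Subtype.ext
      show (h : F) = algebraMap K F c + D.u * a + E.u' * b + ((D.p : D.R) : F) * e
      rw [Subring.coe_natCast, ← D.natCast_eq]
      exact heq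
    · rw [evR_apply, evR_apply]
      exact (valAt_const (hres := hres) v c).trans (valAt_const (hres := hres) w c).symm

/-- two centred places with the same values on the node ring have the same values on `B` -/
theorem bval_eq_of_evR_eq {v w : Place K F} (hv : E.Centered v) (hw : E.Centered w)
    (h : evR hres hv D.R D.hR = evR hres hw D.R D.hR) (g : E.B) :
    bval hres hv g = bval hres hw g := by
  have key : ∀ x ∈ Submodule.span K (D.R : Set F),
      ∃ (hxv : x ∈ v.toValuationSubring) (hxw : x ∈ w.toValuationSubring),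
        valAt hres v ⟨x, hxv⟩ = valAt hres w ⟨x, hxw⟩ := by
    intro x hx
    induction hx using Submodule.span_induction with
    | mem x hx =>
      refine ⟨regAt_mem hv (D.hR x hx), regAt_mem hw (D.hR x hx), ?_⟩
      have := congrArg (fun f => f ⟨x, hx⟩) h
      exact this
    | zero =>
      refine ⟨v.toValuationSubring.zero_mem, w.toValuationSubring.zero_mem, ?_⟩
      exact (map_zero (valAt hres v)).trans (map_zero (valAt hres w)).symm
    | add x y _ _ ihx ihy =>
      obtain ⟨hxv, hxw, hx⟩ := ihx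
      obtain ⟨hyv, hyw, hy⟩ := ihy
      refine ⟨v.toValuationSubring.add_mem _ _ hxv hyv, w.toValuationSubring.add_mem _ _ hxw hyw, ?_⟩
      have e1 : (⟨x + y, v.toValuationSubring.add_mem _ _ hxv hyv⟩ : v.toValuationSubring) =
          ⟨x, hxv⟩ + ⟨y, hyv⟩ := rfl
      have e2 : (⟨x + y, w.toValuationSubring.add_mem _ _ hxw hyw⟩ : w.toValuationSubring) =
          ⟨x, hxw⟩ + ⟨y, hyw⟩ := rfl
      rw [e1, e2, map_add, map_add, hx, hy]
    | smul c x _ ih =>
      obtain ⟨hxv, hxw, hx⟩ := ih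
      have hcv : c • x ∈ v.toValuationSubring := by
        rw [Algebra.smul_def]
        exact v.toValuationSubring.mul_mem _ _ (v.algebraMap_mem' c) hxv
      have hcw : c • x ∈ w.toValuationSubring := by
        rw [Algebra.smul_def]
        exact w.toValuationSubring.mul_mem _ _ (w.algebraMap_mem' c) hxw
      refine ⟨hcv, hcw, ?_⟩
      have e1 : (⟨c • x, hcv⟩ : v.toValuationSubring) =
          algebraMap K v.toValuationSubring c * ⟨x, hxv⟩ := Subtype.ext (Algebra.smul_def c x)
      have e2 : (⟨c • x, hcw⟩ : w.toValuationSubring) =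
          algebraMap K w.toValuationSubring c * ⟨x, hxw⟩ := Subtype.ext (Algebra.smul_def c x)
      rw [e1, e2, map_mul, map_mul, valAt_const, valAt_const, hx]
  obtain ⟨_, _, hx⟩ := key g (D.desc g g.2)
  exact hx

/-- two centred places with the same values on `B` coincide -/
theorem eq_of_bval_eq (D : NodeDec E) {v w : Place K F} (hv : E.Centered v) (hw : E.Centered w)
    (h : ∀ g : E.B, bval hres hv g = bval hres hw g) : w = v := by
  have key : ∀ {v w : Place K F} (hv : E.Centered v) (hw : E.Centered w),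
      (∀ g : E.B, bval hres hv g = bval hres hw g) →
      ∀ f ∈ v.toValuationSubring, f ∈ w.toValuationSubring := by
    intro v w hv hw h f hf
    obtain ⟨a, b, c, hc, hb, hab⟩ := D.loc v hv f hf
    have hbw : (b : F) ∉ w.toValuationSubring.nonunits := by
      intro hcon
      apply hb
      rw [← bval_eq_zero_iff (hres := hres) hv b, h b]
      exact (bval_eq_zero_iff hw b).mpr hcon
    have hbinv := inv_mem_of_not_mem_nonunits _ hbw
    have hb0 : (b : F) ≠ 0 := by
      intro h0
      apply hbw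
      rw [h0]
      exact NodeCtx.zero_mem_nonunits _
    have hcF : algebraMap K F c ≠ 0 := by rwa [ne_eq, map_eq_zero]
    have : f = (a : F) * (b : F)⁻¹ * algebraMap K F c⁻¹ := by
      rw [← hab, map_inv₀]
      field_simp
    rw [this]
    exact w.toValuationSubring.mul_mem _ _
      (w.toValuationSubring.mul_mem _ _ (mem_of_centered hw a) hbinv) (w.algebraMap_mem' _)
  apply Place.ext
  ext f
  exact ⟨key hw hv (fun g => (h g).symm) f, key hv hw h f⟩

/-- **(L2)**: the coordinate `u'` is injective on the centred places. -/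
theorem eq_of_param_eq {v w : Place K F} (hv : E.Centered v) (hw : E.Centered w)
    (hpar : bval hres hv ⟨E.u', D.hu'⟩ = bval hres hw ⟨E.u', D.hu'⟩) : w = v :=
  D.eq_of_bval_eq hv hw (D.bval_eq_of_evR_eq hv hw (D.evR_eq_of_param_eq hv hw hpar))

end NodeDec

end L2

section L3

variable {hres : ∀ v : Place K F, Function.Surjective (algebraMap K v.ResidueField)}
variable {E : EdgeCtx K F k}
variable [HasPrincipalDivisors K F]

theorem ord_eq_zero_of_not_mem_nonunits (v : Place K F) {x : F} (hx : x ∈ v.toValuationSubring)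
    (hn : x ∉ v.toValuationSubring.nonunits) : v.ord x = 0 := by
  have hx0 : x ≠ 0 := by
    rintro rfl
    exact hn (NodeCtx.zero_mem_nonunits _)
  have h1 : 0 ≤ v.ord x := (Fermat.Agent.S24.place_mem_iff_ord_nonneg v hx0).mp hx
  rcases h1.lt_or_eq with h | h
  · exact absurd (mem_nonunits_of_ord_pos v h) hn
  · exact h.symm

namespace NodeDec

variable (D : NodeDec E)

/-- the coordinate has neither zero nor pole at a centred place -/
theorem ord_u' (D : NodeDec E) {v : Place K F} (hv : E.Centered v)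
    (hres : ∀ v : Place K F, Function.Surjective (algebraMap K v.ResidueField)) :
    v.ord E.u' = 0 := by
  apply ord_eq_zero_of_not_mem_nonunits v (mem_of_centered hv ⟨E.u', D.hu'⟩)
  intro hcon
  exact (D.props (hres := hres) hv).1 ((bval_eq_zero_iff hv ⟨E.u', D.hu'⟩).mpr hcon)

/-- **(Ex)**: every constant of the open annulus `|pi0| < |c| < 1` is the value of `u'` at a centred
place (from harmonicity). -/
theorem exists_centered_zero (D : NodeDec E)
    (hres : ∀ v : Place K F, Function.Surjective (algebraMap K v.ResidueField)) {c : K}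
    (hc0 : c ≠ 0) (hcs : c ∈ E.A.nonunits) (hcb : E.pi0 / c ∈ E.A.nonunits) :
    ∃ w : Place K F, E.Centered w ∧ 0 < w.ord (E.u' - algebraMap K F c) := by
  by_contra hcon
  push Not at hcon
  have hne : E.u' - algebraMap K F c ≠ 0 := u'_sub_const_ne_zero D.hu' D.hevu' c
  have hu0 : E.u' ≠ 0 := EdgeCtx.u'_ne_zero (E := E)
  have hcB : algebraMap K F c ∈ E.B := const_mem_B E (E.A.nonunits_le hcs)
  have hs : E.SUnitI ((E.u' - algebraMap K F c) * E.u'⁻¹) := EdgeCtx.sunitI_sub_div hcs
  have hord : ∀ w : Place K F, E.Centered w →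
      w.ord ((E.u' - algebraMap K F c) * E.u'⁻¹) = 0 := by
    intro w hw
    have h1 : E.u' - algebraMap K F c ∈ w.toValuationSubring :=
      mem_of_centered hw ⟨_, E.B.sub_mem D.hu' hcB⟩
    have h2 : 0 ≤ w.ord (E.u' - algebraMap K F c) :=
      (Fermat.Agent.S24.place_mem_iff_ord_nonneg w hne).mp h1
    have h3 := hcon w hw
    rw [w.ord_mul hne (inv_ne_zero hu0), w.ord_inv, D.ord_u' hw hres]
    omega
  obtain ⟨⟨hg0, -⟩, -⟩ := E.toNodeCtx.harmonic hs hord
  have h1 : E.O0.valuation ((E.u' - algebraMap K F c) * E.u'⁻¹) ≤ 1 :=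
    (E.O0.valuation_le_one_iff _).mpr hg0
  rw [map_mul, map_inv₀, EdgeCtx.valuation_O0_sub hc0 hcb, E.u'_O0] at h1
  have h2 : E.O0.valuation (algebraMap K F (E.pi0 / c)) < 1 :=
    (ValuationSubring.mem_nonunits_iff _).mp (E.const_mem_nonunits_O0 hcb)
  rw [map_div₀, map_div₀] at h2
  have hc' : E.O0.valuation (algebraMap K F c) ≠ 0 :=
    (Valuation.ne_zero_iff _).mpr (by rwa [ne_eq, map_eq_zero])
  have hπ' : E.O0.valuation (algebraMap K F E.pi0) ≠ 0 :=
    (Valuation.ne_zero_iff _).mpr (by rw [ne_eq, map_eq_zero]; exact E.pi0_ne)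
  rw [div_lt_one₀ (zero_lt_iff.mpr hc')] at h2
  rw [← div_eq_mul_inv, div_le_one₀ (zero_lt_iff.mpr hπ')] at h1
  exact absurd h1 (not_le.mpr h2)

/-- the Lipschitz bound of the node ring in the parameter `u'` -/
theorem lipschitz_R {v w : Place K F} (hv : E.Centered v) (hw : E.Centered w) (h : D.R) :
    E.A.valuation (evR hres hw D.R D.hR h - evR hres hv D.R D.hR h) ≤
      max 1 (E.A.valuation (D.p : K) / (E.A.valuation (bval hres hw ⟨E.u', D.hu'⟩) *
        E.A.valuation (bval hres hv ⟨E.u', D.hu'⟩))) *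
      E.A.valuation (bval hres hw ⟨E.u', D.hu'⟩ - bval hres hv ⟨E.u', D.hu'⟩) := by
  refine NodePoints.lipschitz_of_dec E.A.valuation D.harch
    (evR hres hw D.R D.hR) (evR hres hv D.R D.hR)
    (fun h => (E.A.valuation_le_one_iff _).mpr (valAt_regAt_mem_A hw (D.hR h h.2) _))
    (fun h => (E.A.valuation_le_one_iff _).mpr (valAt_regAt_mem_A hv (D.hR h h.2) _))
    ⟨D.u, D.huR⟩ ⟨E.u', D.hu'R⟩ ⟨D.Ψ, D.hΨR⟩ D.p ?_ (D.props hw).1 (D.props hv).1
    (D.valuation_t_lt hw) (D.valuation_rho_lt hw) (D.valuation_p_lt ⟨v, hv⟩ hres) ?_ h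
  · apply Subtype.ext
    show D.u * E.u' = ((D.p : D.R) : F) * D.Ψ
    rw [Subring.coe_natCast, ← D.natCast_eq]
    exact D.huu
  · intro h
    obtain ⟨c, a, b, e, hc, ha, hb, he, heq⟩ := D.dec h h.2
    refine ⟨⟨algebraMap K F c, hc⟩, ⟨a, ha⟩, ⟨b, hb⟩, ⟨e, he⟩, ?_, ?_⟩
    · apply Subtype.ext
      show (h : F) = algebraMap K F c + D.u * a + E.u' * b + ((D.p : D.R) : F) * e
      rw [Subring.coe_natCast, ← D.natCast_eq]
      exact heq
    · rw [evR_apply, evR_apply]
      exact (valAt_const (hres := hres) w c).trans (valAt_const (hres := hres) v c).symm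

/-- the Lipschitz bound for the chart ring -/
theorem lipschitz_B {v : Place K F} (hv : E.Centered v) (g : E.B) :
    ∃ M : E.A.ValueGroup, 1 ≤ M ∧ ∀ (w : Place K F) (hw : E.Centered w),
      E.A.valuation (bval hres hw g - bval hres hv g) ≤ M *
        (max 1 (E.A.valuation (D.p : K) / (E.A.valuation (bval hres hw ⟨E.u', D.hu'⟩) *
          E.A.valuation (bval hres hv ⟨E.u', D.hu'⟩))) *
        E.A.valuation (bval hres hw ⟨E.u', D.hu'⟩ - bval hres hv ⟨E.u', D.hu'⟩)) := by
  have key : ∀ x ∈ Submodule.span K (D.R : Set F),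
      ∃ M : E.A.ValueGroup, 1 ≤ M ∧ ∀ (w : Place K F) (hw : E.Centered w),
      ∃ (hxv : x ∈ v.toValuationSubring) (hxw : x ∈ w.toValuationSubring),
        E.A.valuation (valAt hres w ⟨x, hxw⟩ - valAt hres v ⟨x, hxv⟩) ≤ M *
        (max 1 (E.A.valuation (D.p : K) / (E.A.valuation (bval hres hw ⟨E.u', D.hu'⟩) *
          E.A.valuation (bval hres hv ⟨E.u', D.hu'⟩))) *
        E.A.valuation (bval hres hw ⟨E.u', D.hu'⟩ - bval hres hv ⟨E.u', D.hu'⟩)) := by
    intro x hx
    induction hx using Submodule.span_induction with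
    | mem x hx =>
      refine ⟨1, le_rfl, fun w hw => ⟨regAt_mem hv (D.hR x hx), regAt_mem hw (D.hR x hx), ?_⟩⟩
      rw [one_mul]
      exact D.lipschitz_R hv hw ⟨x, hx⟩
    | zero =>
      refine ⟨1, le_rfl, fun w hw =>
        ⟨v.toValuationSubring.zero_mem, w.toValuationSubring.zero_mem, ?_⟩⟩
      have e1 : valAt hres w ⟨0, w.toValuationSubring.zero_mem⟩ = 0 := map_zero (valAt hres w)
      have e2 : valAt hres v ⟨0, v.toValuationSubring.zero_mem⟩ = 0 := map_zero (valAt hres v)
      rw [e1, e2, sub_zero, map_zero]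
      exact zero_le
    | add x y _ _ ihx ihy =>
      obtain ⟨M₁, hM₁, h₁⟩ := ihx
      obtain ⟨M₂, hM₂, h₂⟩ := ihy
      refine ⟨max M₁ M₂, le_trans hM₁ (le_max_left _ _), fun w hw => ?_⟩
      obtain ⟨hxv, hxw, hx⟩ := h₁ w hw
      obtain ⟨hyv, hyw, hy⟩ := h₂ w hw
      refine ⟨v.toValuationSubring.add_mem _ _ hxv hyv,
        w.toValuationSubring.add_mem _ _ hxw hyw, ?_⟩
      have e1 : (⟨x + y, v.toValuationSubring.add_mem _ _ hxv hyv⟩ : v.toValuationSubring) =
          ⟨x, hxv⟩ + ⟨y, hyv⟩ := rfl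
      have e2 : (⟨x + y, w.toValuationSubring.add_mem _ _ hxw hyw⟩ : w.toValuationSubring) =
          ⟨x, hxw⟩ + ⟨y, hyw⟩ := rfl
      rw [e1, e2, map_add, map_add]
      have e3 : valAt hres w ⟨x, hxw⟩ + valAt hres w ⟨y, hyw⟩ -
          (valAt hres v ⟨x, hxv⟩ + valAt hres v ⟨y, hyv⟩) =
          (valAt hres w ⟨x, hxw⟩ - valAt hres v ⟨x, hxv⟩) +
          (valAt hres w ⟨y, hyw⟩ - valAt hres v ⟨y, hyv⟩) := by ring
      rw [e3]
      refine le_trans (Valuation.map_add _ _ _) (max_le ?_ ?_)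
      · exact le_trans hx (mul_le_mul' (le_max_left _ _) le_rfl)
      · exact le_trans hy (mul_le_mul' (le_max_right _ _) le_rfl)
    | smul c x _ ih =>
      obtain ⟨M₁, hM₁, h₁⟩ := ih
      refine ⟨max 1 (E.A.valuation c * M₁), le_max_left _ _, fun w hw => ?_⟩
      obtain ⟨hxv, hxw, hx⟩ := h₁ w hw
      have hcv : c • x ∈ v.toValuationSubring := by
        rw [Algebra.smul_def]
        exact v.toValuationSubring.mul_mem _ _ (v.algebraMap_mem' c) hxv
      have hcw : c • x ∈ w.toValuationSubring := by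
        rw [Algebra.smul_def]
        exact w.toValuationSubring.mul_mem _ _ (w.algebraMap_mem' c) hxw
      refine ⟨hcv, hcw, ?_⟩
      have e1 : (⟨c • x, hcv⟩ : v.toValuationSubring) =
          algebraMap K v.toValuationSubring c * ⟨x, hxv⟩ := Subtype.ext (Algebra.smul_def c x)
      have e2 : (⟨c • x, hcw⟩ : w.toValuationSubring) =
          algebraMap K w.toValuationSubring c * ⟨x, hxw⟩ := Subtype.ext (Algebra.smul_def c x)
      rw [e1, e2, map_mul, map_mul, valAt_const, valAt_const, ← mul_sub, map_mul]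
      refine le_trans (mul_le_mul' le_rfl hx) ?_
      rw [← mul_assoc]
      exact mul_le_mul' (le_max_right _ _) le_rfl
  obtain ⟨M, hM, hk⟩ := key g (D.desc g g.2)
  refine ⟨M, hM, fun w hw => ?_⟩
  obtain ⟨_, _, hx⟩ := hk w hw
  exact hx

end NodeDec

end L3

section Main

variable {hres : ∀ v : Place K F, Function.Surjective (algebraMap K v.ResidueField)}
variable {E : EdgeCtx K F k}
variable [HasPrincipalDivisors K F]

namespace NodeDec

variable (D : NodeDec E)

/-- **(L3)**: the coordinate `u'` is unramified at the centred places. -/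
theorem ord_eq_one {v : Place K F} (hv : E.Centered v) :
    v.ord (E.u' - algebraMap K F (bval hres hv ⟨E.u', D.hu'⟩)) = 1 := by
  classical
  obtain ⟨t, ht⟩ : ∃ t, t = bval hres hv ⟨E.u', D.hu'⟩ := ⟨_, rfl⟩
  rw [← ht]
  have hne : E.u' - algebraMap K F t ≠ 0 := u'_sub_const_ne_zero D.hu' D.hevu' t
  have hpos : 0 < v.ord (E.u' - algebraMap K F t) := by
    apply ord_pos_of_mem_nonunits v hne
    rw [ht]
    exact sub_valAt_mem_nonunits (hres := hres) v ⟨E.u', mem_of_centered hv ⟨E.u', D.hu'⟩⟩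
  by_contra hne1
  have h2 : 2 ≤ v.ord (E.u' - algebraMap K F t) := by omega
  -- Step A: a uniformizer in `B`
  obtain ⟨ϖ, hϖ⟩ := IsDiscreteValuationRing.exists_irreducible v.toValuationSubring
  have hϖ1 : v.ord (ϖ : F) = 1 := v.ord_coe_irreducible hϖ
  obtain ⟨g, b₁, c₁, hc₁, hb₁, hg⟩ := D.loc v hv (ϖ : F) ϖ.2
  have hϖ0 : (ϖ : F) ≠ 0 := by
    intro h; rw [h, Place.ord_zero] at hϖ1; exact zero_ne_one hϖ1
  have hb₁0 : (b₁ : F) ≠ 0 := fun h => hb₁ (h ▸ NodeCtx.zero_mem_nonunits _)
  have hc₁F : algebraMap K F c₁ ≠ 0 := by rwa [ne_eq, map_eq_zero]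
  have hgord : v.ord (g : F) = 1 := by
    rw [← hg, v.ord_mul (mul_ne_zero hϖ0 hb₁0) hc₁F, v.ord_mul hϖ0 hb₁0, hϖ1,
      ord_eq_zero_of_not_mem_nonunits v (mem_of_centered hv b₁) hb₁, EdgeCtx.ord_const v hc₁]
    rfl
  have hg0 : (g : F) ≠ 0 := by
    intro h; rw [h, Place.ord_zero] at hgord; exact zero_ne_one hgord
  have hgv : bval hres hv g = 0 :=
    (bval_eq_zero_iff hv g).mpr (mem_nonunits_of_ord_pos v (by rw [hgord]; exact one_pos))
  -- Step B: `(u' - t) / g ^ 2` is regular at `v`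
  have hgg0 : (g : F) * (g : F) ≠ 0 := mul_ne_zero hg0 hg0
  have hf2 : (E.u' - algebraMap K F t) * ((g : F) * (g : F))⁻¹ ∈ v.toValuationSubring := by
    rw [Fermat.Agent.S24.place_mem_iff_ord_nonneg v (mul_ne_zero hne (inv_ne_zero hgg0)),
      v.ord_mul hne (inv_ne_zero hgg0), v.ord_inv, v.ord_mul hg0 hg0, hgord]
    omega
  obtain ⟨a, b, c, hc, hb, hab⟩ := D.loc v hv _ hf2
  have hrel : (E.u' - algebraMap K F t) * (b : F) * algebraMap K F c =
      (a : F) * ((g : F) * (g : F)) := by
    rw [← hab]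
    field_simp
  -- Step C: Lipschitz constants
  obtain ⟨Mg, hMg, hLg⟩ := D.lipschitz_B (hres := hres) hv g
  obtain ⟨Mb, hMb, hLb⟩ := D.lipschitz_B (hres := hres) hv b
  rw [← ht] at hLg hLb
  obtain ⟨T, hT⟩ : ∃ T, T = E.A.valuation t := ⟨_, rfl⟩
  obtain ⟨P, hP⟩ : ∃ P, P = E.A.valuation (D.p : K) := ⟨_, rfl⟩
  obtain ⟨C₀, hC₀⟩ : ∃ C₀, C₀ = max 1 (P / (T * T)) := ⟨_, rfl⟩
  obtain ⟨β, hβ⟩ : ∃ β, β = E.A.valuation (bval hres hv b) := ⟨_, rfl⟩
  obtain ⟨γ, hγ⟩ : ∃ γ, γ = E.A.valuation c := ⟨_, rfl⟩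
  have ht0 : t ≠ 0 := by rw [ht]; exact (D.props hv).1
  have hT0 : T ≠ 0 := by rw [hT]; exact (Valuation.ne_zero_iff _).mpr ht0
  have hT1 : T < 1 := by rw [hT, ht]; exact D.valuation_t_lt hv
  have hβ0 : β ≠ 0 := by
    rw [hβ]
    exact (Valuation.ne_zero_iff _).mpr fun h => hb ((bval_eq_zero_iff hv b).mp h)
  have hγ0 : γ ≠ 0 := by rw [hγ]; exact (Valuation.ne_zero_iff _).mpr hc
  have hC₀1 : 1 ≤ C₀ := by rw [hC₀]; exact le_max_left _ _
  have hC₀0 : C₀ ≠ 0 := (lt_of_lt_of_le zero_lt_one hC₀1).ne'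
  have hMg0 : Mg ≠ 0 := (lt_of_lt_of_le zero_lt_one hMg).ne'
  have hMb0 : Mb ≠ 0 := (lt_of_lt_of_le zero_lt_one hMb).ne'
  -- Step D: a small `τ`
  obtain ⟨bound, hbound⟩ : ∃ bound, bound =
      min T (min (β / (Mb * C₀)) (β * γ / ((Mg * C₀) * (Mg * C₀)))) := ⟨_, rfl⟩
  have hK2 : Mb * C₀ ≠ 0 := mul_ne_zero hMb0 hC₀0
  have hK3 : (Mg * C₀) * (Mg * C₀) ≠ 0 :=
    mul_ne_zero (mul_ne_zero hMg0 hC₀0) (mul_ne_zero hMg0 hC₀0)
  have hbound0 : bound ≠ 0 := by
    rw [hbound]
    have h1 : β / (Mb * C₀) ≠ 0 := div_ne_zero hβ0 hK2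
    have h3 : β * γ / ((Mg * C₀) * (Mg * C₀)) ≠ 0 := div_ne_zero (mul_ne_zero hβ0 hγ0) hK3
    rcases min_choice T (min (β / (Mb * C₀)) (β * γ / ((Mg * C₀) * (Mg * C₀)))) with h | h
    · rw [h]; exact hT0
    · rw [h]
      rcases min_choice (β / (Mb * C₀)) (β * γ / ((Mg * C₀) * (Mg * C₀))) with h' | h'
      · rw [h']; exact h1
      · rw [h']; exact h3
  have hπlt : E.A.valuation E.pi0 < 1 := by
    rw [D.hpi0]; exact D.valuation_p_lt ⟨v, hv⟩ hres
  obtain ⟨n, hn⟩ := D.harch _ hπlt bound hbound0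
  obtain ⟨τ, hτ⟩ : ∃ τ, τ = E.pi0 ^ n := ⟨_, rfl⟩
  have hτ0 : τ ≠ 0 := by rw [hτ]; exact pow_ne_zero _ E.pi0_ne
  obtain ⟨σ, hσ⟩ : ∃ σ, σ = E.A.valuation τ := ⟨_, rfl⟩
  have hσ0 : σ ≠ 0 := by rw [hσ]; exact (Valuation.ne_zero_iff _).mpr hτ0
  have hσb : σ < bound := by rw [hσ, hτ, map_pow]; exact hn
  have hσ1 : σ < T := lt_of_lt_of_le hσb (by rw [hbound]; exact min_le_left _ _)
  have hσ2 : Mb * (C₀ * σ) < β := by
    have h1 : σ < β / (Mb * C₀) := lt_of_lt_of_le hσb (by
      rw [hbound]; exact le_trans (min_le_right _ _) (min_le_left _ _))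
    rw [lt_div_iff₀ (zero_lt_iff.mpr hK2)] at h1
    calc Mb * (C₀ * σ) = σ * (Mb * C₀) := by ac_rfl
      _ < β := h1
  have hσ3 : (Mg * (C₀ * σ)) * (Mg * (C₀ * σ)) < σ * β * γ := by
    have h1 : σ < β * γ / ((Mg * C₀) * (Mg * C₀)) := lt_of_lt_of_le hσb (by
      rw [hbound]; exact le_trans (min_le_right _ _) (min_le_right _ _))
    rw [lt_div_iff₀ (zero_lt_iff.mpr hK3)] at h1
    have h2 := mul_lt_mul_of_pos_right h1 (zero_lt_iff.mpr hσ0)
    calc (Mg * (C₀ * σ)) * (Mg * (C₀ * σ)) = σ * ((Mg * C₀) * (Mg * C₀)) * σ := by ac_rfl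
      _ < β * γ * σ := h2
      _ = σ * β * γ := by ac_rfl
  -- Step E: the point `w` with parameter `t + τ`
  have hvalT : E.A.valuation (t + τ) = T := by
    rw [hT]
    exact Valuation.map_add_eq_of_lt_left _ (by rw [← hσ, ← hT]; exact hσ1)
  have hc'0 : t + τ ≠ 0 := by
    intro h
    rw [h, map_zero] at hvalT
    exact hT0 hvalT.symm
  have hc's : t + τ ∈ E.A.nonunits := by
    rw [ValuationSubring.mem_nonunits_iff, hvalT]; exact hT1
  have hc'b : E.pi0 / (t + τ) ∈ E.A.nonunits := by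
    have h1 := (D.props (hres := hres) hv).2.2.1
    rw [← ht, ValuationSubring.mem_nonunits_iff, map_div₀, ← hT] at h1
    rw [ValuationSubring.mem_nonunits_iff, map_div₀, hvalT]
    exact h1
  obtain ⟨w, hw, hwpos⟩ := D.exists_centered_zero hres hc'0 hc's hc'b
  have htw : bval hres hw ⟨E.u', D.hu'⟩ = t + τ :=
    bval_eq_of_ord_pos hw ⟨E.u', D.hu'⟩ hwpos
  have hδ : max 1 (E.A.valuation (D.p : K) / (E.A.valuation (bval hres hw ⟨E.u', D.hu'⟩) *
      E.A.valuation t)) * E.A.valuation (bval hres hw ⟨E.u', D.hu'⟩ - t) = C₀ * σ := by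
    rw [htw, add_sub_cancel_left, hvalT, ← hT, ← hP, ← hC₀, ← hσ]
  have hLg' := hLg w hw
  rw [hδ, hgv, sub_zero] at hLg'
  have hLb' := hLb w hw
  rw [hδ] at hLb'
  have hbw : E.A.valuation (bval hres hw b) = β := by
    have e : bval hres hw b = bval hres hv b + (bval hres hw b - bval hres hv b) := by ring
    rw [e, hβ]
    exact Valuation.map_add_eq_of_lt_left _ (by rw [← hβ]; exact lt_of_le_of_lt hLb' hσ2)
  -- Step F: evaluate the relation at `w`
  have hev : τ * bval hres hw b * c = bval hres hw a * (bval hres hw g * bval hres hw g) := by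
    have e1 : ((⟨E.u', mem_of_centered hw ⟨E.u', D.hu'⟩⟩ : w.toValuationSubring) -
        algebraMap K w.toValuationSubring t) * ⟨b, mem_of_centered hw b⟩ *
        algebraMap K w.toValuationSubring c =
        ⟨a, mem_of_centered hw a⟩ * (⟨g, mem_of_centered hw g⟩ * ⟨g, mem_of_centered hw g⟩) :=
      Subtype.ext hrel
    have e2 := congrArg (valAt hres w) e1
    rw [map_mul, map_mul, map_sub, valAt_const, valAt_const, map_mul, map_mul] at e2
    have e3 : valAt hres w ⟨E.u', mem_of_centered hw ⟨E.u', D.hu'⟩⟩ = t + τ := htw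
    rw [e3, add_sub_cancel_left] at e2
    exact e2
  have hcontra := congrArg E.A.valuation hev
  rw [map_mul, map_mul, map_mul, map_mul, hbw, ← hσ, ← hγ] at hcontra
  have ha1 : E.A.valuation (bval hres hw a) ≤ 1 :=
    (E.A.valuation_le_one_iff _).mpr (bval_mem_A hw a)
  have hle : σ * β * γ ≤ (Mg * (C₀ * σ)) * (Mg * (C₀ * σ)) := by
    rw [hcontra]
    calc E.A.valuation (bval hres hw a) *
          (E.A.valuation (bval hres hw g) * E.A.valuation (bval hres hw g))
        ≤ 1 * ((Mg * (C₀ * σ)) * (Mg * (C₀ * σ))) :=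
          mul_le_mul' ha1 (mul_le_mul' hLg' hLg')
      _ = (Mg * (C₀ * σ)) * (Mg * (C₀ * σ)) := one_mul _
  exact absurd hle (not_le.mpr hσ3)

/-- **(L1)-(L3)**: on a node of thickness one with the local decomposition, `u'` is a coordinate on
the points centred at the node. -/
theorem isCoord (hres : ∀ v : Place K F, Function.Surjective (algebraMap K v.ResidueField)) :
    E.IsCoord (D.tval hres) where
  ne_zero v hv := by rw [D.tval_eq hv]; exact (D.props hv).1
  small v hv := by rw [D.tval_eq hv]; exact (D.props hv).2.1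
  big v hv := by rw [D.tval_eq hv]; exact (D.props hv).2.2.1
  ord_self v hv := by rw [D.tval_eq hv]; exact D.ord_eq_one hv
  ord_ne v w hv hw hne := by
    rw [D.tval_eq hv]
    have hne0 : E.u' - algebraMap K F (bval hres hv ⟨E.u', D.hu'⟩) ≠ 0 :=
      u'_sub_const_ne_zero D.hu' D.hevu' _
    have hcA : bval hres hv ⟨E.u', D.hu'⟩ ∈ E.A := bval_mem_A hv _
    have hmem : E.u' - algebraMap K F (bval hres hv ⟨E.u', D.hu'⟩) ∈ w.toValuationSubring :=
      mem_of_centered hw ⟨_, E.B.sub_mem D.hu' (const_mem_B E hcA)⟩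
    have h4 : 0 ≤ w.ord (E.u' - algebraMap K F (bval hres hv ⟨E.u', D.hu'⟩)) :=
      (Fermat.Agent.S24.place_mem_iff_ord_nonneg w hne0).mp hmem
    rcases h4.lt_or_eq with h5 | h5
    · exfalso
      apply hne
      apply D.eq_of_param_eq (hres := hres) hv hw
      exact (bval_eq_of_ord_pos hw ⟨E.u', D.hu'⟩ h5).symm
    · exact h5.symm

end NodeDec

end Main

end Fermat.Agent.S40x.Tame.CoordOfDec
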