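/-
helper43 (P-S44/S40, block R1 route beta, dir `S40x/Tame`): the hypothesis (Loc) of
`Tame/CoordOfDec.lean` (`NodeDec.loc`: the local ring of a place `v ∉ Sig` is the localisation of
`K · B`) from

* (Sep): two distinct places outside `Sig` are separated by an element of the chart ring
  (`Tame/ChartSep.exists_sep_nodeCtx` for the chart instance), and
* (Scal): a function regular outside `Sig` can be scaled into the chart ring by a nonzero constant
  (`Tame/ChartSep.exists_smul_mem_chartRing`),

using only finiteness of pole sets (`HasPrincipalDivisors`).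
-/
import Fermat.Agent.S40x.Tame.Harmonic

set_option autoImplicit false
set_option linter.unusedSectionVars false

namespace Fermat.Agent.S40x.Tame.LocOfSep

open AlgebraicCurve Fermat.Agent.S40x.Tame.Harmonic

variable {K F k : Type*} [Field K] [Field F] [Algebra K F] [Field k]

theorem not_mem_nonunits_iff (O : ValuationSubring F) (x : F) :
    x ∉ O.nonunits ↔ 1 ≤ O.valuation x := by
  rw [ValuationSubring.mem_nonunits_iff, not_lt]

theorem mul_not_mem_nonunits (O : ValuationSubring F) {x y : F} (hx : x ∉ O.nonunits)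
    (hy : y ∉ O.nonunits) : x * y ∉ O.nonunits := by
  rw [not_mem_nonunits_iff] at hx hy ⊢
  rw [map_mul]
  exact le_trans hx (le_mul_of_one_le_right' hy)

theorem pow_not_mem_nonunits (O : ValuationSubring F) {x : F} (hx : x ∉ O.nonunits) (n : ℕ) :
    x ^ n ∉ O.nonunits := by
  induction n with
  | zero =>
    rw [pow_zero, not_mem_nonunits_iff, map_one]
  | succ n ih =>
    rw [pow_succ]
    exact mul_not_mem_nonunits O ih hx

variable (N : NodeCtx K F k)

/-- clearing finitely many poles away from a place `v`, with a multiplier which is a unit at `v` -/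
theorem exists_clear_away
    (sep : ∀ v w : Place K F, v ∉ N.Sig → w ∉ N.Sig → v ≠ w →
      ∃ g : N.B, (g : F) ∈ v.toValuationSubring.nonunits ∧ (g : F) ∉ w.toValuationSubring.nonunits)
    (v : Place K F) (hv : v ∉ N.Sig) (f : F) (S : Finset (Place K F))
    (hS : ∀ w ∈ S, w ∉ N.Sig ∧ w ≠ v) :
    ∃ b : N.B, (b : F) ∉ v.toValuationSubring.nonunits ∧
      ∀ w ∈ S, f * (b : F) ∈ w.toValuationSubring := by
  classical
  induction S using Finset.induction_on with
  | empty =>
    refine ⟨1, ?_, by simp⟩
    rw [not_mem_nonunits_iff]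
    simp
  | insert w S hw ih =>
    obtain ⟨b, hb, hmem⟩ := ih fun x hx => hS x (Finset.mem_insert_of_mem hx)
    obtain ⟨hwS, hwv⟩ := hS w (Finset.mem_insert_self w S)
    obtain ⟨ψ, hψw, hψv⟩ := sep w v hwS hv hwv
    have hψ0 : (ψ : F) ≠ 0 := by
      intro h
      apply hψv
      rw [h]
      exact NodeCtx.zero_mem_nonunits _
    obtain ⟨m, hm⟩ := NodeCtx.exists_pow_mul_mem w hψw hψ0 (f * (b : F))
    refine ⟨ψ ^ m * b, ?_, ?_⟩
    · push_cast
      exact mul_not_mem_nonunits _ (pow_not_mem_nonunits _ hψv m) hb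
    · intro x hx
      have hcoe : f * ((ψ ^ m * b : N.B) : F) = (ψ : F) ^ m * (f * (b : F)) := by
        push_cast
        ring
      rw [hcoe]
      rcases Finset.mem_insert.mp hx with rfl | hxS
      · exact hm
      · have hxSig : x ∉ N.Sig := (hS x hx).1
        exact x.toValuationSubring.mul_mem _ _
          (x.toValuationSubring.pow_mem (N.B_reg _ ψ.2 x hxSig) m) (hmem x hxS)

variable [HasPrincipalDivisors K F]

/-- **(Loc) from (Sep) and (Scal)**: every function regular at `v ∉ Sig` is a quotient `a / (c b)`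
with `a b` in the chart ring, `c` a nonzero constant and `b` a unit at `v`. -/
theorem loc_of_sep
    (sep : ∀ v w : Place K F, v ∉ N.Sig → w ∉ N.Sig → v ≠ w →
      ∃ g : N.B, (g : F) ∈ v.toValuationSubring.nonunits ∧ (g : F) ∉ w.toValuationSubring.nonunits)
    (scal : ∀ f : F, (∀ v : Place K F, v ∉ N.Sig → f ∈ v.toValuationSubring) →
      ∃ c : K, c ≠ 0 ∧ algebraMap K F c * f ∈ N.B)
    (v : Place K F) (hv : v ∉ N.Sig) (f : F) (hf : f ∈ v.toValuationSubring) :
    ∃ (a b : N.B) (c : K), c ≠ 0 ∧ (b : F) ∉ v.toValuationSubring.nonunits ∧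
      f * (b : F) * algebraMap K F c = (a : F) := by
  classical
  rcases eq_or_ne f 0 with rfl | hf0
  · refine ⟨0, 1, 1, one_ne_zero, ?_, by simp⟩
    rw [not_mem_nonunits_iff]
    simp
  obtain ⟨D, hD, -⟩ := HasPrincipalDivisors.exists_divisor (K := K) f hf0
  set S : Finset (Place K F) :=
    D.support.filter fun w => w ∉ N.Sig ∧ f ∉ w.toValuationSubring with hSdef
  have hS : ∀ w ∈ S, w ∉ N.Sig ∧ w ≠ v := by
    intro w hw
    rw [hSdef, Finset.mem_filter] at hw
    refine ⟨hw.2.1, ?_⟩
    rintro rfl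
    exact hw.2.2 hf
  obtain ⟨b, hb, hmem⟩ := exists_clear_away N sep v hv f S hS
  have hall : ∀ w : Place K F, w ∉ N.Sig → f * (b : F) ∈ w.toValuationSubring := by
    intro w hw
    by_cases hfw : f ∈ w.toValuationSubring
    · exact w.toValuationSubring.mul_mem _ _ hfw (N.B_reg _ b.2 w hw)
    · apply hmem
      rw [hSdef, Finset.mem_filter]
      refine ⟨?_, hw, hfw⟩
      rw [Finsupp.mem_support_iff, hD]
      intro h
      apply hfw
      rw [Fermat.Agent.S24.place_mem_iff_ord_nonneg w hf0, h]
  obtain ⟨c, hc, hcB⟩ := scal _ hall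
  exact ⟨⟨_, hcB⟩, b, c, hc, hb, by ring⟩

end Fermat.Agent.S40x.Tame.LocOfSep
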