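/-
P-S44/S40, block R1 route beta, dir `S40x/Tame`: **the two branch orders at a node add up to
`p deg Z`** (formula (d)/(PL2) of note 2592; helper47's (d-lit) for ALL functions over `Qbar`).

`E` is the edge context with coordinate `u'` (along the `∞`-branch), `swapEdge E u ..` the one with
coordinate `u` (along the `0`-branch); `t v = u'(v)`, `t' v = u(v)` are the values at the centred
places, `|t v| |t' v| = |pi0|` (from `u u' = pi0 Ψ`, `|Ψ(v)| = 1`).  If `f` has divisor `p D` on the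
points centred at the node, `f ~ c u'^a` along the `∞`-branch and `f ~ d u^a'` along the `0`-branch
(`a = n_s(f)`, `a' = n'_s(f)`), then adding the two Jensen formulas gives `a + a' = p deg D`.
-/
import Fermat.Agent.S40x.Tame.CoordSwap

set_option autoImplicit false
set_option linter.unusedSectionVars false

namespace Fermat.Agent.S40x.Tame.NodeSum

open AlgebraicCurve Fermat.Agent.S40x.Tame.Harmonic Fermat.Agent.S40x.Tame.TameLemma
  Fermat.Agent.S40x.Tame.CoordSwap

variable {K F k : Type*} [Field K] [Field F] [Algebra K F] [Field k]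
variable [HasPrincipalDivisors K F]

omit [HasPrincipalDivisors K F] in
theorem prod_zpow_const {G : Type*} [CommGroupWithZero G] {ι : Type*} (S : Finset ι) {x : G}
    (hx : x ≠ 0) (n : ι → ℤ) : ∏ i ∈ S, x ^ n i = x ^ ∑ i ∈ S, n i := by
  classical
  induction S using Finset.induction_on with
  | empty => simp
  | insert i S hi ih => rw [Finset.prod_insert hi, Finset.sum_insert hi, ih, zpow_add₀ hx]

/-- an `s`-unit along the `∞`-branch has `OI`-valuation one -/
theorem valuation_OI_eq_one (N : NodeCtx K F k) {g : F} (hs : N.SUnitI g) :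
    N.OI.valuation g = 1 := by
  obtain ⟨h1, h2⟩ := hs.mem_and_inv_mem
  have h3 : N.OI.valuation g ≤ 1 := (N.OI.valuation_le_one_iff _).mpr h1
  have h4 : N.OI.valuation g⁻¹ ≤ 1 := (N.OI.valuation_le_one_iff _).mpr h2
  have hg0 : g ≠ 0 := hs.ne_zero
  have h5 : N.OI.valuation g ≠ 0 := (Valuation.ne_zero_iff _).mpr hg0
  rw [map_inv₀, inv_le_one₀ (zero_lt_iff.mpr h5)] at h4
  exact le_antisymm h3 h4

/-- an `s`-unit along the `0`-branch has `O0`-valuation one -/
theorem valuation_O0_eq_one (N : NodeCtx K F k) {g : F} (hs : N.SUnit0 g) :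
    N.O0.valuation g = 1 :=
  valuation_OI_eq_one (swapNode N) ((sunitI_swapNode N g).mpr hs)

/-- `f ~ c u'^a` along the `∞`-branch ⟹ `v_∞ (f) = v (c)` -/
theorem valuation_OI_of_sunitI (E : EdgeCtx K F k) {f : F} {c : K} (hc : c ≠ 0) (a : ℤ)
    (hI : E.SUnitI (f * (algebraMap K F c)⁻¹ * E.u' ^ (-a))) :
    E.OI.valuation f = E.OI.valuation (algebraMap K F c) := by
  have h1 := valuation_OI_eq_one E.toNodeCtx hI
  have hu : E.OI.valuation E.u' = 1 := by
    have h3 : E.OI.valuation E.u' ≤ 1 := (E.OI.valuation_le_one_iff _).mpr E.u'_OI.1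
    have h4 : E.OI.valuation E.u'⁻¹ ≤ 1 := (E.OI.valuation_le_one_iff _).mpr E.u'_OI.2
    have h5 : E.OI.valuation E.u' ≠ 0 := (Valuation.ne_zero_iff _).mpr E.u'_ne_zero
    rw [map_inv₀, inv_le_one₀ (zero_lt_iff.mpr h5)] at h4
    exact le_antisymm h3 h4
  have hcF : E.OI.valuation (algebraMap K F c) ≠ 0 :=
    (Valuation.ne_zero_iff _).mpr (by rwa [ne_eq, map_eq_zero])
  rw [map_mul, map_mul, map_zpow₀, hu, one_zpow, mul_one, map_inv₀] at h1
  have h2 := congrArg (· * E.OI.valuation (algebraMap K F c)) h1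
  simp only [one_mul] at h2
  rw [mul_assoc, inv_mul_cancel₀ hcF, mul_one] at h2
  exact h2

/-- **(d)/(PL2)**: the two branch orders of a function with divisor `p D` near the node add up to
`p deg D`. -/
theorem node_sum (E : EdgeCtx K F k) (u : F) (hu0 : u ∈ E.O0 ∧ u⁻¹ ∈ E.O0)
    (huI : E.OI.valuation u = E.OI.valuation (algebraMap K F E.pi0))
    {t t' : Place K F → K} (ht : E.IsCoord t) (ht' : (swapEdge E u hu0 huI).IsCoord t')
    (htt : ∀ v, E.Centered v → E.A.valuation (t v) * E.A.valuation (t' v) = E.A.valuation E.pi0)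
    (hinf : ∀ n : ℤ, E.A.valuation E.pi0 ^ n = 1 → n = 0)
    (p : ℤ) (D : Place K F → ℤ) (Z : Finset (Place K F)) (hZc : ∀ v ∈ Z, E.Centered v)
    (hZ : ∀ v, E.Centered v → D v ≠ 0 → v ∈ Z)
    {f : F} (hf : ∀ v, E.Centered v → v.ord f = p * D v)
    {c d : K} (hc : c ≠ 0) (hd : d ≠ 0) (a a' : ℤ)
    (hI : E.SUnitI (f * (algebraMap K F c)⁻¹ * E.u' ^ (-a)))
    (h0 : E.SUnit0 (f * (algebraMap K F d)⁻¹ * u ^ (-a'))) :
    a + a' = p * ∑ v ∈ Z, D v := by
  set E' := swapEdge E u hu0 huI with hE'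
  -- the two valuations of `f`
  have hfI : E.OI.valuation f = E.OI.valuation (algebraMap K F c) :=
    valuation_OI_of_sunitI E hc a hI
  have hf0 : E.O0.valuation f = E.O0.valuation (algebraMap K F d) :=
    valuation_OI_of_sunitI E' hd a' h0
  -- the two Jensen formulas
  have J1 := E.jensen ht p D Z hZc hZ hf hc hd a hI hf0
  have J2 := E'.jensen ht' p D Z hZc hZ hf hd hc a' h0 hfI
  have hA : E'.A = E.A := rfl
  have hpi : E'.pi0 = E.pi0 := rfl
  rw [hpi] at J2
  change E.A.valuation c * (E.A.valuation d)⁻¹ =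
    E.A.valuation E.pi0 ^ (a' - p * ∑ v ∈ Z, D v) *
      E.A.valuation (∏ v ∈ Z, t' v ^ D v) ^ p at J2
  set P := E.A.valuation E.pi0 with hP
  have hP0 : P ≠ 0 := (Valuation.ne_zero_iff _).mpr E.pi0_ne
  have hc0 : E.A.valuation c ≠ 0 := (Valuation.ne_zero_iff _).mpr hc
  have hd0 : E.A.valuation d ≠ 0 := (Valuation.ne_zero_iff _).mpr hd
  -- the product of the two `τ`-terms
  have hττ : E.A.valuation (∏ v ∈ Z, t v ^ D v) * E.A.valuation (∏ v ∈ Z, t' v ^ D v) =
      P ^ (∑ v ∈ Z, D v) := by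
    rw [map_prod, map_prod, ← Finset.prod_mul_distrib, ← prod_zpow_const Z hP0 D]
    refine Finset.prod_congr rfl fun v hv => ?_
    rw [map_zpow₀, map_zpow₀, ← mul_zpow, htt v (hZc v hv)]
  -- multiply
  have h1 : (E.A.valuation d * (E.A.valuation c)⁻¹) * (E.A.valuation c * (E.A.valuation d)⁻¹) = 1 := by
    field_simp
  rw [J1, J2] at h1
  have h2 : P ^ (a - p * ∑ v ∈ Z, D v) * E.A.valuation (∏ v ∈ Z, t v ^ D v) ^ p *
      (P ^ (a' - p * ∑ v ∈ Z, D v) * E.A.valuation (∏ v ∈ Z, t' v ^ D v) ^ p) =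
      P ^ (a + a' - p * ∑ v ∈ Z, D v) := by
    have e1 : P ^ (a - p * ∑ v ∈ Z, D v) * E.A.valuation (∏ v ∈ Z, t v ^ D v) ^ p *
        (P ^ (a' - p * ∑ v ∈ Z, D v) * E.A.valuation (∏ v ∈ Z, t' v ^ D v) ^ p) =
        P ^ (a - p * ∑ v ∈ Z, D v) * P ^ (a' - p * ∑ v ∈ Z, D v) *
          (E.A.valuation (∏ v ∈ Z, t v ^ D v) * E.A.valuation (∏ v ∈ Z, t' v ^ D v)) ^ p := by
      rw [mul_mul_mul_comm, ← mul_zpow]
    rw [e1, hττ, ← zpow_mul, ← zpow_add₀ hP0, ← zpow_add₀ hP0]
    congr 1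
    ring
  rw [h2] at h1
  have h3 := hinf _ h1
  linarith

end Fermat.Agent.S40x.Tame.NodeSum
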