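/-
P-S44/S40, block R1 route beta, dir `S40x/Tame`: ASSEMBLY of route beta on the chart instance.

On the vocabulary of `Tame/ChartNode.lean` (two `RedSetup`s, chart coordinate `C`, (L2), a node `s`)
with the thickness data `T : ChartThick.Thick C pi0` (`u u' = pi0 Ψ`, T-block) and `Ψ(s) ≠ 0`:

* `harch_of_rank_one`: the value group of `A` is archimedean (`RedSetup.rank_one`);
* `exists_smul_mem_of_regular` (Scal), `loc` (Loc): helper43's hypotheses of `Tame/LocOfSep` and
  `NodeDec.loc`, PROVED for the chart instance (`ChartSep.exists_sep` + `LocOfSep.loc_of_sep`);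
* `DecData T hL s ht`: what is still an INPUT: the node ring `R` with the local decomposition (Dec)
  (block N2) and the descent (Desc) (block N0a);
* `DecData.nodeDec`, `DecData.nodeDecSwap`: helper43's `CoordOfDec.NodeDec` for the coordinate `u'`
  (branch `∞`) and for the coordinate `u` (branch `0`);
* `DecData.isCoord`, `DecData.isCoordSwap`: `u'` and `u` are coordinates on the points centred at `s`;
* `DecData.jensen`, `DecData.tame_congr` (branch `∞`), `DecData.tame_congr_swap` (branch `0`),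
  `DecData.node_sum` (`n_s + n'_s = p deg D`): the final statements, with no hypothesis on places.
-/
import Fermat.Agent.S40x.Tame.ChartThick
import Fermat.Agent.S40x.Tame.ChartSep
import Fermat.Agent.S40x.Tame.CoordOfDec
import Fermat.Agent.S40x.Tame.LocOfSep
import Fermat.Agent.S40x.Tame.NodeSum
import Fermat.Agent.S24.PrincipalDiv

set_option autoImplicit false
set_option linter.unusedSectionVars false

noncomputable section

namespace Fermat.Agent.S40x.Tame.ChartDec

open AlgebraicCurve IsLocalRing IntermediateField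
open Fermat.Agent.S34x Fermat.Agent.S34x.C0two Fermat.Agent.S34x.Lattice2
open Fermat.Agent.S40x.Tame.Harmonic Fermat.Agent.S40x.Tame.TameLemma
open Fermat.Agent.S40x.Tame.ChartNode Fermat.Agent.S40x.Tame.ChartThick
open Fermat.Agent.S40x.Tame.CoordSwap Fermat.Agent.S40x.Tame.CoordOfDec

section Arch

/-- the value group of a rank-one valuation ring is archimedean -/
theorem harch_of_rank_one {K : Type*} [Field K] (A : ValuationSubring K)
    (hrk : ∀ x ∈ maximalIdeal A, ∀ c : A, c ≠ 0 → ∃ j : ℕ, c ∣ x ^ j) :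
    ∀ th : A.ValueGroup, th < 1 → ∀ c : A.ValueGroup, c ≠ 0 → ∃ n : ℕ, th ^ n < c := by
  intro th hth c hc
  obtain ⟨x, rfl⟩ := A.valuation_surjective th
  obtain ⟨y, rfl⟩ := A.valuation_surjective c
  have hy0 : y ≠ 0 := (Valuation.ne_zero_iff _).mp hc
  by_cases hyA : y ∈ A
  · have hxA : x ∈ A := (A.valuation_le_one_iff x).mp hth.le
    have hxm : (⟨x, hxA⟩ : A) ∈ maximalIdeal A := by
      rw [A.valuation_lt_one_iff]
      exact hth
    have hyx0 : (⟨y, hyA⟩ * ⟨x, hxA⟩ : A) ≠ 0 ∨ x = 0 := by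
      by_cases hx0 : x = 0
      · right; exact hx0
      · left
        intro h
        have := congrArg Subtype.val h
        simp only [MulMemClass.coe_mul, ZeroMemClass.coe_zero, mul_eq_zero] at this
        rcases this with h | h
        · exact hy0 h
        · exact hx0 h
    rcases hyx0 with hyx0 | hx0
    · obtain ⟨j, z, hz⟩ := hrk _ hxm _ hyx0
      refine ⟨j, ?_⟩
      have h1 : x ^ j = y * x * (z : K) := by
        have := congrArg Subtype.val hz
        simpa using this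
      rw [← map_pow, h1, map_mul, map_mul]
      have hz1 : A.valuation (z : K) ≤ 1 := (A.valuation_le_one_iff _).mpr z.2
      calc A.valuation y * A.valuation x * A.valuation (z : K)
          ≤ A.valuation y * A.valuation x * 1 := mul_le_mul' le_rfl hz1
        _ = A.valuation y * A.valuation x := mul_one _
        _ < A.valuation y * 1 := mul_lt_mul_of_pos_left hth (zero_lt_iff.mpr hc)
        _ = A.valuation y := mul_one _
    · refine ⟨1, ?_⟩
      rw [pow_one, hx0, map_zero]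
      exact zero_lt_iff.mpr hc
  · refine ⟨1, ?_⟩
    rw [pow_one]
    have h1 : 1 < A.valuation y := by
      by_contra h
      exact hyA ((A.valuation_le_one_iff y).mp (not_lt.mp h))
    exact hth.trans h1

end Arch

variable {K : Type*} [Field K] {A : ValuationSubring K} {F : Type*} [Field F] [Algebra K F]
  {V W : ValuationSubring F} {k κ₁ κ₂ : Type*} [Field k] [Field κ₁] [Field κ₂]
  [Algebra k κ₁] [Algebra k κ₂]
  {R₁ : Gateway.C0.RedSetup A V k κ₁} {R₂ : Gateway.C0.RedSetup A W k κ₂} {hπ : R₁.π = R₂.π}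
  (C : ChartCoord (redSetupTwoVal R₁ R₂ hπ))

section Loc

variable (ht : Transcendental K C.t) [FiniteDimensional K⟮C.t⟯ F] [Algebra.IsSeparable K⟮C.t⟯ F]
include ht

/-- **(Scal)**: a function regular at all places where `t` is regular can be scaled into the chart
ring by a nonzero constant. -/
theorem exists_smul_mem_of_regular (f : F)
    (hreg : ∀ v : Place K F, ¬ v.ord C.t < 0 → f ∈ v.toValuationSubring) :
    ∃ c : K, c ≠ 0 ∧ algebraMap K F c * f ∈ chartRing C := by
  rcases eq_or_ne f 0 with rfl | hf0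
  · exact ⟨1, one_ne_zero, by rw [mul_zero]; exact (chartRing C).zero_mem⟩
  · apply ChartSep.exists_smul_mem_chartRing C _ hf0
    rw [Fermat.Agent.Gateway.GoodRed.PlacesIntegral.isIntegral_iff_forall_ord_nonneg C.t ht f]
    intro P hP
    exact (Fermat.Agent.S24.ZP.ord_nonneg_iff P hf0).mpr (hreg P (not_lt.mpr hP))

variable [HasPrincipalDivisors K F]

/-- **(Loc)**: the local ring of a place `v ∉ Sig` is the localisation of `K · B`. -/
theorem loc (hL : C.IsL2) (s : Goursat.Nodes C.BbarT hL.h2) (v : Place K F)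
    (hv : v ∉ (nodeCtx C hL s ht).Sig) (f : F) (hf : f ∈ v.toValuationSubring) :
    ∃ (a b : (nodeCtx C hL s ht).B) (c : K), c ≠ 0 ∧ (b : F) ∉ v.toValuationSubring.nonunits ∧
      f * (b : F) * algebraMap K F c = (a : F) :=
  LocOfSep.loc_of_sep (nodeCtx C hL s ht)
    (fun _ _ hv hw hne => ChartSep.exists_sep_nodeCtx C ht hL s hv hw hne)
    (fun f hf => exists_smul_mem_of_regular C ht f hf) v hv f hf

end Loc

variable {C} {pi0 : K}

/-- What route beta still needs as an INPUT at a node `s` of thickness one: the node ring `R` with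
the local decomposition (Dec) [block N2] and the descent (Desc) [block N0a]. -/
structure DecData (T : Thick C pi0) (hL : C.IsL2) (s : Goursat.Nodes C.BbarT hL.h2)
    (ht : Transcendental K C.t) [FiniteDimensional K⟮C.t⟯ F] [Algebra.IsSeparable K⟮C.t⟯ F] where
  /-- the residue characteristic -/
  p : ℕ
  hpi0 : pi0 = (p : K)
  /-- the node ring -/
  R : Subring F
  hR : ∀ h ∈ R, (nodeCtx C hL s ht).RegAt h
  huR : T.u ∈ R
  hu'R : T.u' ∈ R
  hPsiR : T.Psi ∈ R
  dec : ∀ h ∈ R, ∃ (c : K) (a b e : F), algebraMap K F c ∈ R ∧ a ∈ R ∧ b ∈ R ∧ e ∈ R ∧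
    h = algebraMap K F c + T.u * a + T.u' * b + algebraMap K F pi0 * e
  desc : ∀ h ∈ chartRing C, h ∈ Submodule.span K (R : Set F)

namespace DecData

variable {T : Thick C pi0} {hL : C.IsL2} {s : Goursat.Nodes C.BbarT hL.h2}
  {ht : Transcendental K C.t} [FiniteDimensional K⟮C.t⟯ F] [Algebra.IsSeparable K⟮C.t⟯ F]
  [HasPrincipalDivisors K F]
  (X : DecData T hL s ht) (hs : nodeEv C hL s ⟨T.Psi, T.hPsi⟩ ≠ 0)

/-- helper43's `NodeDec` for the coordinate `u'` (branch `∞`) -/
def nodeDec : NodeDec (T.edgeCtx ht hs) where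
  u := T.u
  Ψ := T.Psi
  p := X.p
  R := X.R
  hpi0 := X.hpi0
  hu := T.hu
  hu' := T.hu'
  hΨ := T.hPsi
  huu := T.mul_eq
  hevu := T.nodeEv_u hL s
  hevu' := T.nodeEv_u' hL s
  hevΨ := hs
  hR := X.hR
  huR := X.huR
  hu'R := X.hu'R
  hΨR := X.hPsiR
  dec := X.dec
  desc := X.desc
  loc v hv f hf := loc C ht hL s v hv.1 f hf
  harch := harch_of_rank_one A R₁.rank_one

/-- helper43's `NodeDec` for the coordinate `u` (branch `0`) -/
def nodeDecSwap : NodeDec (T.edgeCtxSwap ht hs) where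
  u := T.u'
  Ψ := T.Psi
  p := X.p
  R := X.R
  hpi0 := X.hpi0
  hu := T.hu'
  hu' := T.hu
  hΨ := T.hPsi
  huu := by
    show T.u' * T.u = algebraMap K F pi0 * T.Psi
    rw [mul_comm]
    exact T.mul_eq
  hevu := T.nodeEv_u' hL s
  hevu' := T.nodeEv_u hL s
  hevΨ := hs
  hR := X.hR
  huR := X.hu'R
  hu'R := X.huR
  hΨR := X.hPsiR
  dec h hh := by
    obtain ⟨c, a, b, e, hc, ha, hb, he, rfl⟩ := X.dec h hh
    exact ⟨c, b, a, e, hc, hb, ha, he, by
      show algebraMap K F c + T.u * a + T.u' * b + algebraMap K F pi0 * e =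
        algebraMap K F c + T.u' * b + T.u * a + algebraMap K F pi0 * e
      ring⟩
  desc := X.desc
  loc v hv f hf := loc C ht hL s v hv.1 f hf
  harch := harch_of_rank_one A R₁.rank_one

variable [IsAlgClosed K] [CharZero K]

omit [Algebra.IsSeparable K⟮C.t⟯ F] [HasPrincipalDivisors K F] in
/-- residue fields of places are the constant field -/
theorem hres (ht : Transcendental K C.t) (v : Place K F) :
    Function.Surjective (algebraMap K v.ResidueField) :=
  Fermat.Agent.S24.PD.residue_surjective ht v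

/-- the value of `u'` at a place -/
def tval : Place K F → K := (X.nodeDec hs).tval (hres ht)

/-- the value of `u` at a place -/
def tvalSwap : Place K F → K := (X.nodeDecSwap hs).tval (hres ht)

/-- **(L1)-(L3) along the `∞`-branch.** -/
theorem isCoord : (T.edgeCtx ht hs).IsCoord (X.tval hs) := (X.nodeDec hs).isCoord (hres ht)

/-- **(L1)-(L3) along the `0`-branch.** -/
theorem isCoordSwap : (T.edgeCtxSwap ht hs).IsCoord (X.tvalSwap hs) :=
  (X.nodeDecSwap hs).isCoord (hres ht)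

/-- `|u(v)| |u'(v)| = |pi0|` at the centred places -/
theorem valuation_tval_mul {v : Place K F} (hv : (T.edgeCtx ht hs).Centered v) :
    A.valuation (X.tval hs v) * A.valuation (X.tvalSwap hs v) = A.valuation pi0 := by
  have h1 := (X.nodeDec hs).props (hres := hres ht) hv
  obtain ⟨-, -, -, h2, h3⟩ := h1
  have e1 : X.tval hs v = bval (hres ht) hv ⟨T.u', T.hu'⟩ := (X.nodeDec hs).tval_eq hv
  have e2 : X.tvalSwap hs v = bval (hres ht) hv ⟨T.u, T.hu⟩ :=
    (X.nodeDecSwap hs).tval_eq (hres := hres ht) hv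
  rw [e1, e2, mul_comm, ← map_mul]
  have h2' : bval (hres ht) hv ⟨T.u, T.hu⟩ * bval (hres ht) hv ⟨T.u', T.hu'⟩ =
      pi0 * bval (hres ht) hv ⟨T.Psi, T.hPsi⟩ := h2
  rw [h2', map_mul]
  have h3' : A.valuation (bval (hres ht) hv ⟨T.Psi, T.hPsi⟩) = 1 := h3
  rw [h3', mul_one]

/-- **Jensen formula at the node `s`, branch `∞`.** -/
theorem jensen (p : ℤ) (D : Place K F → ℤ) (Z : Finset (Place K F))
    (hZc : ∀ v ∈ Z, (nodeCtx C hL s ht).Centered v)
    (hZ : ∀ v, (nodeCtx C hL s ht).Centered v → D v ≠ 0 → v ∈ Z)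
    {f : F} (hf : ∀ v, (nodeCtx C hL s ht).Centered v → v.ord f = p * D v)
    {c c' : K} (hc : c ≠ 0) (hc' : c' ≠ 0) (a : ℤ)
    (hI : (nodeCtx C hL s ht).SUnitI (f * (algebraMap K F c)⁻¹ * T.u' ^ (-a)))
    (h0 : W.valuation f = W.valuation (algebraMap K F c')) :
    A.valuation c' * (A.valuation c)⁻¹ =
      A.valuation pi0 ^ (a - p * ∑ v ∈ Z, D v) *
        A.valuation (∏ v ∈ Z, X.tval hs v ^ D v) ^ p :=
  (T.edgeCtx ht hs).jensen (X.isCoord hs) p D Z hZc hZ hf hc hc' a hI h0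

/-- **Jensen formula at the node `s`, branch `0`.** -/
theorem jensen_swap (p : ℤ) (D : Place K F → ℤ) (Z : Finset (Place K F))
    (hZc : ∀ v ∈ Z, (nodeCtx C hL s ht).Centered v)
    (hZ : ∀ v, (nodeCtx C hL s ht).Centered v → D v ≠ 0 → v ∈ Z)
    {f : F} (hf : ∀ v, (nodeCtx C hL s ht).Centered v → v.ord f = p * D v)
    {d d' : K} (hd : d ≠ 0) (hd' : d' ≠ 0) (a' : ℤ)
    (h0 : (nodeCtx C hL s ht).SUnit0 (f * (algebraMap K F d)⁻¹ * T.u ^ (-a')))
    (hI : V.valuation f = V.valuation (algebraMap K F d')) :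
    A.valuation d' * (A.valuation d)⁻¹ =
      A.valuation pi0 ^ (a' - p * ∑ v ∈ Z, D v) *
        A.valuation (∏ v ∈ Z, X.tvalSwap hs v ^ D v) ^ p :=
  (T.edgeCtxSwap ht hs).jensen (X.isCoordSwap hs) p D Z hZc hZ hf hd hd' a' h0 hI

/-- **TAME LEMMA at the node `s`, branch `∞`**: if `f` has divisor `p D` on the points centred at
`s`, `f ~ c u'^a` along the `∞`-branch and `v_0(f) = v(c')`, then `w(c') - w(c) ≡ e a (mod p)`
(`w`, `e` the exponents of `c`, `c'`, `pi0` on a generator `γ` of a cyclic subgroup of the value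
group containing them and the value of `τ = ∏ u'(v)^(D v)`). -/
theorem tame_congr (p : ℤ) (D : Place K F → ℤ) (Z : Finset (Place K F))
    (hZc : ∀ v ∈ Z, (nodeCtx C hL s ht).Centered v)
    (hZ : ∀ v, (nodeCtx C hL s ht).Centered v → D v ≠ 0 → v ∈ Z)
    {f : F} (hf : ∀ v, (nodeCtx C hL s ht).Centered v → v.ord f = p * D v)
    {c c' : K} (hc : c ≠ 0) (hc' : c' ≠ 0) (a : ℤ)
    (hI : (nodeCtx C hL s ht).SUnitI (f * (algebraMap K F c)⁻¹ * T.u' ^ (-a)))
    (h0 : W.valuation f = W.valuation (algebraMap K F c'))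
    {γ : A.ValueGroup} (hγ0 : γ ≠ 0) (hγ : ∀ n : ℤ, γ ^ n = 1 → n = 0) {w w' e m0 : ℤ}
    (hw : A.valuation c = γ ^ w) (hw' : A.valuation c' = γ ^ w')
    (he : A.valuation pi0 = γ ^ e)
    (hm0 : A.valuation (∏ v ∈ Z, X.tval hs v ^ D v) = γ ^ m0) :
    w' - w ≡ e * a [ZMOD p] :=
  (T.edgeCtx ht hs).tame_congr (X.isCoord hs) p D Z hZc hZ hf hc hc' a hI h0 hγ0 hγ hw hw' he hm0

/-- **TAME LEMMA at the node `s`, branch `0`.** -/
theorem tame_congr_swap (p : ℤ) (D : Place K F → ℤ) (Z : Finset (Place K F))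
    (hZc : ∀ v ∈ Z, (nodeCtx C hL s ht).Centered v)
    (hZ : ∀ v, (nodeCtx C hL s ht).Centered v → D v ≠ 0 → v ∈ Z)
    {f : F} (hf : ∀ v, (nodeCtx C hL s ht).Centered v → v.ord f = p * D v)
    {d d' : K} (hd : d ≠ 0) (hd' : d' ≠ 0) (a' : ℤ)
    (h0 : (nodeCtx C hL s ht).SUnit0 (f * (algebraMap K F d)⁻¹ * T.u ^ (-a')))
    (hI : V.valuation f = V.valuation (algebraMap K F d'))
    {γ : A.ValueGroup} (hγ0 : γ ≠ 0) (hγ : ∀ n : ℤ, γ ^ n = 1 → n = 0) {w w' e m0 : ℤ}
    (hw : A.valuation d = γ ^ w) (hw' : A.valuation d' = γ ^ w')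
    (he : A.valuation pi0 = γ ^ e)
    (hm0 : A.valuation (∏ v ∈ Z, X.tvalSwap hs v ^ D v) = γ ^ m0) :
    w' - w ≡ e * a' [ZMOD p] :=
  (T.edgeCtxSwap ht hs).tame_congr (X.isCoordSwap hs) p D Z hZc hZ hf hd hd' a' h0 hI hγ0 hγ hw hw'
    he hm0

include X hs in
/-- **(d)/(PL2) at the node `s`**: `n_s(f) + n'_s(f) = p deg D`. -/
theorem node_sum (hinf : ∀ n : ℤ, A.valuation pi0 ^ n = 1 → n = 0)
    (p : ℤ) (D : Place K F → ℤ) (Z : Finset (Place K F))
    (hZc : ∀ v ∈ Z, (nodeCtx C hL s ht).Centered v)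
    (hZ : ∀ v, (nodeCtx C hL s ht).Centered v → D v ≠ 0 → v ∈ Z)
    {f : F} (hf : ∀ v, (nodeCtx C hL s ht).Centered v → v.ord f = p * D v)
    {c d : K} (hc : c ≠ 0) (hd : d ≠ 0) (a a' : ℤ)
    (hI : (nodeCtx C hL s ht).SUnitI (f * (algebraMap K F c)⁻¹ * T.u' ^ (-a)))
    (h0 : (nodeCtx C hL s ht).SUnit0 (f * (algebraMap K F d)⁻¹ * T.u ^ (-a'))) :
    a + a' = p * ∑ v ∈ Z, D v :=
  NodeSum.node_sum (T.edgeCtx ht hs) T.u _ _ (X.isCoord hs) (X.isCoordSwap hs)
    (fun _ hv => X.valuation_tval_mul hs hv) hinf p D Z hZc hZ hf hc hd a a' hI h0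

end DecData

end Fermat.Agent.S40x.Tame.ChartDec
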