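/-
P-S44/S40, block R1 route beta, dir `S40x/Tame`: route beta at the CONCRETE level `M q`
(`q ∤ M` the residue characteristic), on the landed objects of `S34x/Inst`:

`R₁ = redSetupInfty H hA`, `R₂ = redSetupZero H hA`, `redSetup2 H hA = redSetupTwoVal R₁ R₂ rfl`,
any chart `C : ChartCoord (redSetup2 H hA)` with `C.t = α x`, `x ∈ F_M` with integer expansion `z`
and the degree facts `D : HDegMq.ChartDeg L k M z` (landed for `z = x₄`, `4 ∣ M`:
`HDegMq.chartDeg_four`, with (L2) from `IsL2Haupt.isL2_x4`).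

The file only checks that the abstract route-beta files apply verbatim: the instances
`FiniteDimensional L⟮C.t⟯ F`, `Algebra.IsSeparable L⟮C.t⟯ F`, `HasPrincipalDivisors L F`, and the
transcendence of `C.t`; then `nodeCtxMq`, and the final statements `node_sum_Mq`, `tame_congr_Mq`.
-/
import Fermat.Agent.S40x.Tame.ChartDec
import Fermat.Agent.S34x.Inst.HDegMq
import Fermat.Agent.Gateway.HK1.Modular

set_option autoImplicit false
set_option linter.unusedSectionVars false
set_option linter.style.haveILetI false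

noncomputable section

namespace Fermat.Agent.S40x.Tame.ChartMq

open ModularCurve AlgebraicCurve IntermediateField IsLocalRing Module
open Fermat.Agent.Gateway.Hecke Fermat.Agent.Gateway.ESC
open Fermat.Agent.Gateway.Red Fermat.Agent.Gateway.GoodRed
open Fermat.Agent.S34x Fermat.Agent.S34x.TwoVal Fermat.Agent.S34x.C0two Fermat.Agent.S34x.Lattice2
open Fermat.Agent.S34x.Inst.RedSetupInst Fermat.Agent.S34x.Inst.HDegMq
open Fermat.Agent.S40x.Tame.Harmonic Fermat.Agent.S40x.Tame.TameLemma
open Fermat.Agent.S40x.Tame.ChartNode Fermat.Agent.S40x.Tame.ChartThick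
open Fermat.Agent.S40x.Tame.ChartDec

/-- shortcut (the generic search for this instance takes more than a second) -/
local instance (priority := 100000) algebraFLShortcut (L : Type) [Field L] [Algebra ℚ L] (M : ℕ)
    [NeZero M] : Algebra L (FL L M) := inferInstance

variable {L : Type} [Field L] [Algebra ℚ L] [IsAlgClosed L] {A : ValuationSubring L}
  {k : Type} [Field k] {π : A →+* k} [IsAlgClosed k]
variable {M q : ℕ} [NeZero M] [NeZero q] [Fact q.Prime] [CharP k q]
variable {hdeg : finrankAlong L (heckeAlphaBar L M q) = q + 1} {hq : q.Prime} {hqM : ¬ q ∣ M}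
variable {hrk : ∀ x ∈ maximalIdeal A, ∀ c : A, c ≠ 0 → ∃ j : ℕ, c ∣ x ^ j}
  {hπ : Function.Surjective π}
variable (H : ResidueFacts A π M q hdeg hq hqM hrk hπ) (hA : A.LiesOverPrime q)
variable {z : LaurentSeries ℤ} (D : ChartDeg L k M z)
variable {x : FBar L M} (hz : ((x : FL L M) : LaurentSeries L) = coeffMap (Int.castRingHom L) z)
variable (C : ChartCoord (redSetup2 H hA)) (hCt : C.t = heckeAlphaBar L M q x)

/-- the landed `redSetup2` IS the `redSetupTwoVal` of `Tame/ChartNode.lean` -/
theorem redSetup2_eq :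
    redSetup2 H hA = redSetupTwoVal (redSetupInfty H hA) (redSetupZero H hA) rfl := rfl

include D hz hCt in
theorem isSeparable_t : Algebra.IsSeparable L⟮C.t⟯ (FL L (M * q)) := by
  haveI := finiteDimensional_t H hA D hz C hCt
  haveI : CharZero L := algebraRat.charZero L
  exact Fermat.Agent.S34x.Inst.Charts.isSeparable_adjoin_of_charZero C.t

variable (hL : C.IsL2) (s : Goursat.Nodes C.BbarT hL.h2)

/-- **The node context of a node `s` of the chart `C` at level `M q`.** -/
def nodeCtxMq : NodeCtx L (FL L (M * q)) k :=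
  haveI := finiteDimensional_t H hA D hz C hCt
  haveI := isSeparable_t H hA D hz C hCt
  nodeCtx C hL s (transcendental_t H hA D hz C hCt)

theorem nodeCtxMq_B : (nodeCtxMq H hA D hz C hCt hL s).B = chartRing C := rfl

theorem nodeCtxMq_OI : (nodeCtxMq H hA D hz C hCt hL s).OI = valInfty A π M q hrk hπ hqM := rfl

theorem nodeCtxMq_O0 :
    (nodeCtxMq H hA D hz C hCt hL s).O0 = valZero A π M q hdeg hq hqM hrk hπ := rfl

variable {pi0 : L} (T : Thick C pi0)

/-- **(d)/(PL2) at level `M q`**: at a node `s` of thickness one with the local decomposition,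
`n_s(f) + n'_s(f) = p deg D`. -/
theorem node_sum_Mq
    (X : haveI := finiteDimensional_t H hA D hz C hCt
      haveI := isSeparable_t H hA D hz C hCt
      DecData T hL s (transcendental_t H hA D hz C hCt))
    (hs : nodeEv C hL s ⟨T.Psi, T.hPsi⟩ ≠ 0)
    (hinf : ∀ n : ℤ, A.valuation pi0 ^ n = 1 → n = 0)
    (p : ℤ) (Dv : Place L (FL L (M * q)) → ℤ) (Z : Finset (Place L (FL L (M * q))))
    (hZc : ∀ v ∈ Z, (nodeCtxMq H hA D hz C hCt hL s).Centered v)
    (hZ : ∀ v, (nodeCtxMq H hA D hz C hCt hL s).Centered v → Dv v ≠ 0 → v ∈ Z)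
    {f : FL L (M * q)}
    (hf : ∀ v, (nodeCtxMq H hA D hz C hCt hL s).Centered v → v.ord f = p * Dv v)
    {c d : L} (hc : c ≠ 0) (hd : d ≠ 0) (a a' : ℤ)
    (hI : (nodeCtxMq H hA D hz C hCt hL s).SUnitI
      (f * (algebraMap L (FL L (M * q)) c)⁻¹ * T.u' ^ (-a)))
    (h0 : (nodeCtxMq H hA D hz C hCt hL s).SUnit0
      (f * (algebraMap L (FL L (M * q)) d)⁻¹ * T.u ^ (-a'))) :
    a + a' = p * ∑ v ∈ Z, Dv v := by
  haveI := finiteDimensional_t H hA D hz C hCt
  haveI := isSeparable_t H hA D hz C hCt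
  haveI : CharZero L := algebraRat.charZero L
  haveI := Fermat.Agent.Gateway.HK1.hasPrincipalDivisors_FL L (M * q)
  exact X.node_sum hs hinf p Dv Z hZc hZ hf hc hd a a' hI h0

end Fermat.Agent.S40x.Tame.ChartMq
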