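import Fermat.Agent.S40x.Tame.ChartDec
import Fermat.Agent.S40x.Node.NodeInst
import Fermat.Agent.S40x.Node.NodeLocal

/-!
# P-S44/S40, block R1 route beta: the input `DecData` of `Tame/ChartDec` from the node ring
(helper26)

Vocabulary of `Tame/ChartNode` (two `RedSetup`s `R₁ : (A, V, k, κ₁)`, `R₂ : (A, W, k, κ₂)`,
`C : ChartCoord (redSetupTwoVal R₁ R₂ hπ)`, (L2) `hL`, a node `s`) and of `Node/NodeInst`
(`Γ` a set of semilinear automorphisms, `B_0 = B0 C Γ` the `Γ`-fixed part of the chart ring,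
`rho1`, `rho2`, `nodeIdeal hL s`).

* `toChart : B0 C Γ →+* chartRing C`, `rho₁_toChart`, `rho₂_toChart`, `nodeEv_toChart`: the
  dictionary between the two vocabularies;
* `nodeRing Γ hL s : Subring F` : **the node ring `R_s` as a subring of `F`**: the fractions `a / b`
  with `a, b ∈ B_0`, `b(s) ≠ 0`;
* `regAt_of_mem_nodeRing` (field `hR`), `dec` (field `dec`: `h = c + u a + u' b` with `c` a
  `Γ`-fixed constant of `A`; from NODE-GEN `NodeLocal.exists_decomp` + (hnode) + `residue_surj`),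
  `desc` (field `desc`: the chart ring over `A` lies in the `K`-span of `B_0`; from the fixed frames of
  `L(b C∞) ∩ O`);
* `decData` : **the structure `ChartDec.DecData T hL s ht`** for thickness data `T` with `Γ`-fixed
  `u`, `u'`, `Ψ` and `pi0 = p` a uniformiser of `A^Γ`.
-/

set_option autoImplicit false
set_option linter.unusedSectionVars false
set_option linter.style.haveILetI false

noncomputable section

namespace Fermat.Agent.S40x.Tame.DecInst

open AlgebraicCurve IsLocalRing IntermediateField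
open Fermat.Agent.S34x Fermat.Agent.S34x.C0two Fermat.Agent.S34x.Lattice2
open Fermat.Agent.S19x.Geo.LatticeFixed (IsFixed IsFixedK)
open Fermat.Agent.S33x.H1.LatticeFixed2 Fermat.Agent.S33x.H1.FixedDecomp
open Fermat.Agent.S33x.H1.InstC1 Fermat.Agent.S33x.W.InstW
open Fermat.Agent.S40x.Tame.Harmonic Fermat.Agent.S40x.Tame.TameLemma
open Fermat.Agent.S40x.Tame.ChartNode Fermat.Agent.S40x.Tame.ChartThick
open Fermat.Agent.S40x.Tame.ChartDec
open Fermat.Agent.S40x.Node.NodeInst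

variable {K : Type*} [Field K] {A : ValuationSubring K} {F : Type*} [Field F] [Algebra K F]
  {V W : ValuationSubring F} {k κ₁ κ₂ : Type*} [Field k] [Field κ₁] [Field κ₂]
  [Algebra k κ₁] [Algebra k κ₂]
  {R₁ : Gateway.C0.RedSetup A V k κ₁} {R₂ : Gateway.C0.RedSetup A W k κ₂} {hπ : R₁.π = R₂.π}
  {C : ChartCoord (redSetupTwoVal R₁ R₂ hπ)} (Γ : Set (SemilinearAut K F))

/-! ### The dictionary `B_0 → chartRing C` -/

theorem coe_mem_chartRing (x : B0 C Γ) : (x : F) ∈ chartRing C := by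
  obtain ⟨⟨b, hb⟩, -⟩ := mem_B0_iff.mp x.2
  exact (mem_chartRing_iff_exists_lat C).mpr ⟨b, hb⟩

variable {Γ} in
theorem mem_B0_of_mem_chartRing {x : F} (hx : x ∈ chartRing C) (hfix : IsFixed Γ x) :
    x ∈ B0 C Γ := by
  obtain ⟨b, hb⟩ := (mem_chartRing_iff_exists_lat C).mp hx
  exact mem_B0_iff.mpr ⟨⟨b, hb⟩, hfix⟩

/-- the inclusion of `B_0` into the chart ring. -/
def toChart : B0 C Γ →+* chartRing C where
  toFun x := ⟨(x : F), coe_mem_chartRing Γ x⟩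
  map_one' := rfl
  map_mul' _ _ := rfl
  map_zero' := rfl
  map_add' _ _ := rfl

variable {Γ}

@[simp] theorem coe_toChart (x : B0 C Γ) : ((toChart Γ x : chartRing C) : F) = (x : F) := rfl

theorem rho₁_toChart (x : B0 C Γ) : rho₁ C (toChart Γ x) = rho1 C Γ x := rfl

theorem rho₂_toChart (x : B0 C Γ) : rho₂ C (toChart Γ x) = rho2 C Γ x := rfl

variable [IsAlgClosed k] (hL : C.IsL2) (s : Goursat.Nodes C.BbarT hL.h2)

theorem nodeEv_toChart (x : B0 C Γ) :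
    nodeEv C hL s (toChart Γ x) = chi2 hL s (rho2 C Γ x) := rfl

theorem mem_nodeIdeal_iff_nodeEv (x : B0 C Γ) :
    x ∈ nodeIdeal (Γ := Γ) hL s ↔ nodeEv C hL s (toChart Γ x) = 0 := by
  rw [mem_nodeIdeal_iff', nodeEv_toChart]

/-! ### The node ring as a subring of `F` -/

variable (Γ) in
/-- **The node ring `R_s`** as a subring of `F`: the fractions `a / b`, `a, b ∈ B_0`,
`b(s) ≠ 0`. -/
def nodeRing : Subring F where
  carrier := {x | ∃ a b : B0 C Γ, b ∉ nodeIdeal (Γ := Γ) hL s ∧ x * (b : F) = (a : F)}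
  mul_mem' := by
    rintro x y ⟨a, b, hb, hx⟩ ⟨a', b', hb', hy⟩
    refine ⟨a * a', b * b', fun h => ?_, ?_⟩
    · rcases (nodeIdeal_isPrime hL s).mem_or_mem h with h | h
      · exact hb h
      · exact hb' h
    · push_cast
      rw [← hx, ← hy]
      ring
  one_mem' := ⟨1, 1, fun h => (nodeIdeal_isPrime (Γ := Γ) hL s).ne_top
    ((Ideal.eq_top_iff_one _).mpr h), by simp⟩
  add_mem' := by
    rintro x y ⟨a, b, hb, hx⟩ ⟨a', b', hb', hy⟩
    refine ⟨a * b' + a' * b, b * b', fun h => ?_, ?_⟩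
    · rcases (nodeIdeal_isPrime hL s).mem_or_mem h with h | h
      · exact hb h
      · exact hb' h
    · push_cast
      rw [← hx, ← hy]
      ring
  zero_mem' := ⟨0, 1, fun h => (nodeIdeal_isPrime (Γ := Γ) hL s).ne_top
    ((Ideal.eq_top_iff_one _).mpr h), by simp⟩
  neg_mem' := by
    rintro x ⟨a, b, hb, hx⟩
    exact ⟨-a, b, hb, by push_cast; rw [← hx]; ring⟩

theorem mem_nodeRing_iff {x : F} :
    x ∈ nodeRing Γ hL s ↔
      ∃ a b : B0 C Γ, b ∉ nodeIdeal (Γ := Γ) hL s ∧ x * (b : F) = (a : F) := Iff.rfl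

/-- `B_0 ⊆ R_s`. -/
theorem coe_mem_nodeRing (a : B0 C Γ) : (a : F) ∈ nodeRing Γ hL s :=
  ⟨a, 1, fun h => (nodeIdeal_isPrime (Γ := Γ) hL s).ne_top ((Ideal.eq_top_iff_one _).mpr h),
    by simp⟩

theorem coe_ne_zero_of_notMem {b : B0 C Γ} (hb : b ∉ nodeIdeal (Γ := Γ) hL s) : (b : F) ≠ 0 := by
  intro h
  apply hb
  have : b = 0 := Subtype.ext h
  rw [this]
  exact (nodeIdeal (Γ := Γ) hL s).zero_mem

/-- the inverse of an element of `B_0` which does not vanish at the node lies in `R_s`. -/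
theorem inv_mem_nodeRing {b : B0 C Γ} (hb : b ∉ nodeIdeal (Γ := Γ) hL s) :
    ((b : F))⁻¹ ∈ nodeRing Γ hL s :=
  ⟨1, b, hb, by
    rw [inv_mul_cancel₀ (coe_ne_zero_of_notMem hL s hb)]
    rfl⟩

/-- fractions lie in `R_s`. -/
theorem div_mem_nodeRing (a : B0 C Γ) {b : B0 C Γ} (hb : b ∉ nodeIdeal (Γ := Γ) hL s) :
    (a : F) / (b : F) ∈ nodeRing Γ hL s := by
  rw [div_eq_mul_inv]
  exact (nodeRing Γ hL s).mul_mem (coe_mem_nodeRing hL s a) (inv_mem_nodeRing hL s hb)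

section hR

variable (ht : Transcendental K C.t) [FiniteDimensional K⟮C.t⟯ F] [Algebra.IsSeparable K⟮C.t⟯ F]

/-- **field `hR`**: the elements of the node ring are regular at the node. -/
theorem regAt_of_mem_nodeRing {h : F} (hh : h ∈ nodeRing Γ hL s) :
    (nodeCtx C hL s ht).RegAt h := by
  obtain ⟨a, b, hb, hab⟩ := hh
  refine ⟨toChart Γ a, toChart Γ b, ?_, hab⟩
  show nodeEv C hL s (toChart Γ b) ≠ 0
  rwa [Ne, ← mem_nodeIdeal_iff_nodeEv]

end hR

/-! ### (Desc): the chart ring over `A` lies in the `K`-span of `B_0` -/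

/-- **field `desc`** -/
theorem desc (hD : FixData2 (redSetupTwoVal R₁ R₂ hπ) Γ)
    (hF : Submodule.span K {f : F | IsFixed Γ f} = ⊤)
    [∀ b, FiniteDimensional K (C.LN 0 b)]
    (hcart : ∀ b, ((redSetupTwoVal R₁ R₂ hπ).lat (C.LN 0 b)).FG)
    (hstab : ∀ b, ∀ g ∈ Γ, ∀ f ∈ C.LN 0 b, g • f ∈ C.LN 0 b)
    {h : F} (hh : h ∈ chartRing C) :
    h ∈ Submodule.span K (nodeRing Γ hL s : Set F) := by
  obtain ⟨b, hbL, hbO⟩ := (mem_chartRing_iff_exists_lat C).mp hh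
  obtain ⟨e, he⟩ := exists_fixedFrame2_of_stable hD hF (C.LN 0 b) (hcart b) (hstab b)
  obtain ⟨c, hc⟩ := he.exists_coeff hbL hbO
  rw [hc]
  refine Submodule.sum_mem _ fun i _ => Submodule.smul_mem _ _ (Submodule.subset_span ?_)
  have hmem : e i ∈ B0 C Γ := mem_B0_iff.mpr ⟨⟨b, he.mem_V i, he.mem_O i⟩, he.fixed i⟩
  exact coe_mem_nodeRing hL s ⟨e i, hmem⟩

/-! ### (Dec): the local decomposition -/

section Dec

variable
  [Module.Finite k ((C.B₁ × C.B₂) ⧸ Subalgebra.toSubmodule C.BbarT)]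
  [IsReduced (Goursat.R C.BbarT hL.h2)]
  (hlift : ∀ (b : ℕ) (y : κ₁ × κ₂), y ∈ (redSetupTwoVal R₁ R₂ hπ).redLat (C.LN 0 b) →
    ∃ (f : F) (hf : f ∈ (twoVal V W).O), f ∈ C.LN 0 b ∧ IsFixed Γ f ∧
      (redSetupTwoVal R₁ R₂ hπ).res ⟨f, hf⟩ = y)
  (hD : FixData2 (redSetupTwoVal R₁ R₂ hπ) Γ)
  {p u u' Ψ : B0 C Γ} (hp : p ≠ 0)
  (hker : ∀ f : B0 C Γ, rho1 C Γ f = 0 → rho2 C Γ f = 0 → p ∣ f)
  (hrel : u * u' = p * Ψ) (h1 : rho1 C Γ u = 0) (h2 : rho2 C Γ u' = 0)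
  (hΨ : Ψ ∉ nodeIdeal (Γ := Γ) hL s)

include hlift hp hker hrel h1 h2 hΨ in
/-- an element of the node ideal of `B_0` lies in `(u, u') R_s`. -/
theorem exists_eq_of_mem_nodeIdeal {g : B0 C Γ} (hg : g ∈ nodeIdeal (Γ := Γ) hL s) :
    ∃ a b : F, a ∈ nodeRing Γ hL s ∧ b ∈ nodeRing Γ hL s ∧
      (g : F) = (u : F) * a + (u' : F) * b := by
  obtain ⟨c, hc, z, hz2, hz1⟩ := hnode hL hlift s hg
  obtain ⟨d, d', hdd⟩ := Fermat.Agent.S40x.Node.NodeLocal.exists_decomp (rho1 C Γ) (rho2 C Γ) hp hker hrel h1 h2 hz2 hz1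
  have hΨc : Ψ * c ∉ nodeIdeal (Γ := Γ) hL s := fun h => by
    rcases (nodeIdeal_isPrime hL s).mem_or_mem h with h | h
    · exact hΨ h
    · exact hc h
  have hne : ((Ψ * c : B0 C Γ) : F) ≠ 0 := coe_ne_zero_of_notMem hL s hΨc
  refine ⟨(d : F) / ((Ψ * c : B0 C Γ) : F), (d' : F) / ((Ψ * c : B0 C Γ) : F),
    div_mem_nodeRing hL s d hΨc, div_mem_nodeRing hL s d' hΨc, ?_⟩
  have h3 : ((Ψ * c : B0 C Γ) : F) * (g : F) = (u : F) * (d : F) + (u' : F) * (d' : F) := by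
    have := congrArg (fun x : B0 C Γ => (x : F)) hdd
    simp only [MulMemClass.coe_mul, AddMemClass.coe_add] at this ⊢
    rw [← this]
    ring
  field_simp
  rw [← h3]
  ring

include hlift hD hp hker hrel h1 h2 hΨ in
/-- **field `dec`**: every element of the node ring is `c + u a + u' b` with `c` a (`Γ`-fixed)
constant of `A` and `a, b` in the node ring. -/
theorem dec (π₀ : K) {h : F} (hh : h ∈ nodeRing Γ hL s) :
    ∃ (c : K) (a b e : F), algebraMap K F c ∈ nodeRing Γ hL s ∧ a ∈ nodeRing Γ hL s ∧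
      b ∈ nodeRing Γ hL s ∧ e ∈ nodeRing Γ hL s ∧
      h = algebraMap K F c + (u : F) * a + (u' : F) * b + algebraMap K F π₀ * e := by
  obtain ⟨x, y, hy, hxy⟩ := hh
  -- the value of `h` at the node
  have hy0 : chi2 hL s (rho2 C Γ y) ≠ 0 := fun h0 => hy ((mem_nodeIdeal_iff' hL s y).mpr h0)
  obtain ⟨c₀, hc₀fix, hc₀⟩ := hD.exists_fixed_coeff
    (chi2 hL s (rho2 C Γ x) * (chi2 hL s (rho2 C Γ y))⁻¹)
  -- the constant as an element of `B_0`
  set cB : B0 C Γ := algebraMap (fixedSubring (A := A) Γ) (B0 C Γ) ⟨c₀, hc₀fix⟩ with hcB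
  have hcBF : (cB : F) = algebraMap K F (c₀ : K) := rfl
  have hcBev : chi2 hL s (rho2 C Γ cB) = (redSetupTwoVal R₁ R₂ hπ).π c₀ := by
    have e1 : rho2 C Γ cB = algebraMap k C.B₂ ((redSetupTwoVal R₁ R₂ hπ).π c₀) := by
      apply Subtype.ext
      rw [coe_rho2, resB_apply]
      have := (redSetupTwoVal R₁ R₂ hπ).res_algebraMap c₀
      exact congrArg Prod.snd this
    rw [e1, AlgHom.commutes]
    rfl
  -- `g = x - c y` vanishes at the node
  have hg : x - cB * y ∈ nodeIdeal (Γ := Γ) hL s := by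
    rw [mem_nodeIdeal_iff', map_sub, map_mul, map_sub, map_mul, hcBev, hc₀,
      inv_mul_cancel_right₀ hy0, sub_self]
  obtain ⟨a, b, ha, hb, hab⟩ := exists_eq_of_mem_nodeIdeal hL s hlift hp hker hrel h1 h2 hΨ hg
  have hyF : (y : F) ≠ 0 := coe_ne_zero_of_notMem hL s hy
  have hyi : ((y : F))⁻¹ ∈ nodeRing Γ hL s := inv_mem_nodeRing hL s hy
  refine ⟨(c₀ : K), a * ((y : F))⁻¹, b * ((y : F))⁻¹, 0, ?_, (nodeRing Γ hL s).mul_mem ha hyi,
    (nodeRing Γ hL s).mul_mem hb hyi, (nodeRing Γ hL s).zero_mem, ?_⟩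
  · rw [← hcBF]
    exact coe_mem_nodeRing hL s cB
  · have h3 : (x : F) - algebraMap K F (c₀ : K) * (y : F) = (u : F) * a + (u' : F) * b := by
      rw [← hab, ← hcBF]
      rfl
    have h4 : h = (x : F) * ((y : F))⁻¹ := by
      rw [← hxy, mul_assoc, mul_inv_cancel₀ hyF, mul_one]
    rw [h4, mul_zero, add_zero]
    have h5 : (x : F) = algebraMap K F (c₀ : K) * (y : F) + ((u : F) * a + (u' : F) * b) := by
      rw [← h3]; ring
    rw [h5]
    field_simp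
    ring

end Dec

/-! ### The structure `DecData` -/

section Data

variable (ht : Transcendental K C.t) [FiniteDimensional K⟮C.t⟯ F] [Algebra.IsSeparable K⟮C.t⟯ F]
  [Module.Finite k ((C.B₁ × C.B₂) ⧸ Subalgebra.toSubmodule C.BbarT)]
  [IsReduced (Goursat.R C.BbarT hL.h2)]
  {pi0 : K} (T : Thick C pi0)

/-- natural numbers are fixed constants. -/
theorem isFixedK_natCast' (n : ℕ) : IsFixedK Γ (((n : A) : A) : K) := by
  intro g _
  simp

theorem unifB_eq_natCast (n : ℕ) :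
    (unifB (C := C) (isFixedK_natCast' (Γ := Γ) (A := A) n) : B0 C Γ) = ((n : ℕ) : B0 C Γ) := by
  apply Subtype.ext
  rw [coe_unifB]
  simp

/-- **The input `DecData` of route beta** (`Tame/ChartDec`) at a node `s`, for thickness data
`T = (u, u', Ψ)` fixed by `Γ` with `Ψ(s) ≠ 0` and `pi0 = p` a uniformiser of `A^Γ`: the node ring
is `nodeRing Γ hL s`. -/
def decData (hD : FixData2 (redSetupTwoVal R₁ R₂ hπ) Γ)
    (hF : Submodule.span K {f : F | IsFixed Γ f} = ⊤)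
    [∀ b, FiniteDimensional K (C.LN 0 b)]
    (hcart : ∀ b, ((redSetupTwoVal R₁ R₂ hπ).lat (C.LN 0 b)).FG)
    (hstab : ∀ b, ∀ g ∈ Γ, ∀ f ∈ C.LN 0 b, g • f ∈ C.LN 0 b)
    {p : ℕ} (hpi0 : pi0 = (p : K))
    (hp : ∀ c : A, IsFixedK Γ (c : K) → c ∈ maximalIdeal A → ((p : ℕ) : A) ∣ c)
    (hufix : IsFixed Γ T.u) (hu'fix : IsFixed Γ T.u') (hPsifix : IsFixed Γ T.Psi)
    (hs : nodeEv C hL s ⟨T.Psi, T.hPsi⟩ ≠ 0) : DecData T hL s ht where
  p := p
  hpi0 := hpi0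
  R := nodeRing Γ hL s
  hR := fun _ hh => regAt_of_mem_nodeRing hL s ht hh
  huR := coe_mem_nodeRing hL s ⟨T.u, mem_B0_of_mem_chartRing T.hu hufix⟩
  hu'R := coe_mem_nodeRing hL s ⟨T.u', mem_B0_of_mem_chartRing T.hu' hu'fix⟩
  hPsiR := coe_mem_nodeRing hL s ⟨T.Psi, mem_B0_of_mem_chartRing T.hPsi hPsifix⟩
  dec := by
    intro h hh
    have hpK : ((p : ℕ) : K) ≠ 0 := hpi0 ▸ T.pi0_ne
    have hp0 : ((p : ℕ) : A) ≠ 0 := by
      intro h0
      apply hpK
      have := congrArg (fun a : A => (a : K)) h0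
      simpa using this
    have hpB : ((p : ℕ) : B0 C Γ) ≠ 0 := by
      rw [← unifB_eq_natCast]
      exact unifB_ne_zero (isFixedK_natCast' p) hp0
    have hker : ∀ f : B0 C Γ, rho1 C Γ f = 0 → rho2 C Γ f = 0 → ((p : ℕ) : B0 C Γ) ∣ f := by
      intro f hf1 hf2
      rw [← unifB_eq_natCast]
      exact unif_dvd_of_rho_eq_zero hD (isFixedK_natCast' p) hp0 hp hf1 hf2
    have hrel : (⟨T.u, mem_B0_of_mem_chartRing T.hu hufix⟩ : B0 C Γ) *
        ⟨T.u', mem_B0_of_mem_chartRing T.hu' hu'fix⟩ =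
        ((p : ℕ) : B0 C Γ) * ⟨T.Psi, mem_B0_of_mem_chartRing T.hPsi hPsifix⟩ := by
      apply Subtype.ext
      push_cast
      rw [T.mul_eq]
      have e1 : algebraMap K F pi0 = ((p : ℕ) : F) := by rw [hpi0, map_natCast]
      rw [e1]
    have h1 : rho1 C Γ (⟨T.u, mem_B0_of_mem_chartRing T.hu hufix⟩ : B0 C Γ) = 0 :=
      rho₁_eq_zero C (x := toChart Γ ⟨T.u, mem_B0_of_mem_chartRing T.hu hufix⟩) T.u_V
    have h2 : rho2 C Γ (⟨T.u', mem_B0_of_mem_chartRing T.hu' hu'fix⟩ : B0 C Γ) = 0 :=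
      rho₂_eq_zero C (x := toChart Γ ⟨T.u', mem_B0_of_mem_chartRing T.hu' hu'fix⟩) T.u'_W
    have hΨ : (⟨T.Psi, mem_B0_of_mem_chartRing T.hPsi hPsifix⟩ : B0 C Γ) ∉
        nodeIdeal (Γ := Γ) hL s := by
      rw [mem_nodeIdeal_iff_nodeEv]
      exact hs
    exact dec hL s (hlift_of_fixData hD hF hcart hstab) hD hpB hker hrel h1 h2 hΨ pi0 hh
  desc := fun _ hh => desc hL s hD hF hcart hstab hh

end Data

end Fermat.Agent.S40x.Tame.DecInst

end
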