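/-
helper43 (P-S44/S40, block R1 route beta, dir `S40x/Tame`): the hypothesis (Dec) of
`Tame/CoordOfDec.lean` (`NodeDec.dec`: local decomposition `h = c + u a + u' b + p e` in the node
ring) from the literal (N-OUT) `Node/NodeDatum.IsNodeRing` of the N-block plus "the residue field of
the node ring consists of constants".
-/
import Fermat.Agent.S40x.Node.NodeDatum

set_option autoImplicit false
set_option linter.unusedSectionVars false

namespace Fermat.Agent.S40x.Tame.DecOfNodeRing

open IsLocalRing Fermat.Agent.S40x.Node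

variable {K F : Type*} [Field K] [Field F] [Algebra K F]

/-- **(Dec) from the maximal ideal `(u, u')`**: if the maximal ideal of the local subring `R` of `F`
is generated by `u`, `u'` and every element of `R` is congruent to a constant modulo the maximal
ideal, then every `h ∈ R` is `c + u a + u' b + π e` (with `e = 0`). -/
theorem dec_of_maximalIdeal_eq (R : Subring F) [IsLocalRing R] (u u' : R)
    (hmax : maximalIdeal R = Ideal.span {u, u'})
    (hres : ∀ x : R, ∃ (c : K) (hc : algebraMap K F c ∈ R),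
      x - ⟨algebraMap K F c, hc⟩ ∈ maximalIdeal R) (π : K) :
    ∀ h ∈ R, ∃ (c : K) (a b e : F), algebraMap K F c ∈ R ∧ a ∈ R ∧ b ∈ R ∧ e ∈ R ∧
      h = algebraMap K F c + (u : F) * a + (u' : F) * b + algebraMap K F π * e := by
  intro h hh
  obtain ⟨c, hc, hmem⟩ := hres ⟨h, hh⟩
  rw [hmax, Ideal.mem_span_pair] at hmem
  obtain ⟨a, b, hab⟩ := hmem
  refine ⟨c, a, b, 0, hc, a.2, b.2, R.zero_mem, ?_⟩
  have := congrArg (Subtype.val) hab
  have e1 : ((a * u + b * u' : R) : F) = (a : F) * (u : F) + (b : F) * (u' : F) := rfl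
  have e2 : ((⟨h, hh⟩ - ⟨algebraMap K F c, hc⟩ : R) : F) = h - algebraMap K F c := rfl
  rw [e1, e2] at this
  rw [mul_zero, add_zero]
  linear_combination -this

/-- the same from the literal (N-OUT). -/
theorem dec_of_isNodeRing (R : Subring F) [IsNoetherianRing R] [IsLocalRing R] (p : ℕ) (u u' : R)
    (hN : IsNodeRing R p u u')
    (hres : ∀ x : R, ∃ (c : K) (hc : algebraMap K F c ∈ R),
      x - ⟨algebraMap K F c, hc⟩ ∈ maximalIdeal R) (π : K) :
    ∀ h ∈ R, ∃ (c : K) (a b e : F), algebraMap K F c ∈ R ∧ a ∈ R ∧ b ∈ R ∧ e ∈ R ∧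
      h = algebraMap K F c + (u : F) * a + (u' : F) * b + algebraMap K F π * e :=
  dec_of_maximalIdeal_eq R u u' hN.maximalIdeal_eq hres π

end Fermat.Agent.S40x.Tame.DecOfNodeRing
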