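/-
P-S44/S40, block R1 route beta, dir `S40x/Tame`: **(d-lit) of note 2615 for ALL functions over
`Qbar`** (helper47's `Slope/NodeRel` hypothesis), from `ChartDec.DecData.node_sum`.

Setting of `Tame/ChartNode.lean` + thickness data `T` + `X : ChartDec.DecData T hL s ht` (fields
`dec`, `desc` from `Tame/DecInst`).  `P₁` is the place of `κ₁/k` at the node `s` on the `∞`-branch
(`P₁` centred at the character `s ∘ φ` of `C.B₁`: hypothesis `hPs₁`, which is literally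
`Node/NodePlace.IsBranch₁ hL s P₁`), `P₂` the place of `κ₂/k` on the `0`-branch
(character `s ∘ ψ` of `C.B₂`, `= IsBranch₂ hL s P₂`); (T-c): `ord_{P₁} (red_∞ u') = 1`, `ord_{P₂} (red_0 u) = 1`.

* `rho₁_surjective`, `rho₂_surjective`: the reductions of the chart ring onto `C.B₁`, `C.B₂` ((L2));
* `exists_div_of_mem`: the local ring of a place of `κ/k` finite for `x` is the localisation of the
  integral closure of `k[x]`;
* `sunitI_of_ord_eq_zero`, `sunit0_of_ord_eq_zero`: a `v_∞`-unit (`v_0`-unit) whose reduction has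
  order `0` at `P₁` (`P₂`) is an `s`-unit along the `∞`-branch (`0`-branch);
* `dvd_ord_add_ord`: **(d-lit)**: `g` a unit at both valuations with `p ∣ ord_Q g` at every place
  `Q` ⟹ `p ∣ ord_{P₁} (red_∞ g) + ord_{P₂} (red_0 g)`.
-/
import Fermat.Agent.S40x.Tame.ChartDec

set_option autoImplicit false
set_option linter.unusedSectionVars false

noncomputable section

namespace Fermat.Agent.S40x.Tame.NodeSumInst

open AlgebraicCurve IsLocalRing IntermediateField IsDedekindDomain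
open Fermat.Agent.S34x Fermat.Agent.S34x.C0two Fermat.Agent.S34x.Lattice2
open Fermat.Agent.S40x.Tame.Harmonic Fermat.Agent.S40x.Tame.TameLemma
open Fermat.Agent.S40x.Tame.ChartNode Fermat.Agent.S40x.Tame.ChartThick
open Fermat.Agent.S40x.Tame.ChartDec

section Local

variable {k κ : Type*} [Field k] [Field κ] [Algebra k κ] (x : κ) (hx : Transcendental k x)
  [FiniteDimensional k⟮x⟯ κ] [Algebra.IsSeparable k⟮x⟯ κ]

include hx in
/-- the local ring of a place finite for `x` is the localisation of the integral closure of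
`k[x]` -/
theorem exists_div_of_mem (P : Place k κ) (hP : x ∈ P.toValuationSubring) {y : κ}
    (hy : y ∈ P.toValuationSubring) :
    ∃ n d : κ, IsIntegral (Algebra.adjoin k {x}) n ∧ IsIntegral (Algebra.adjoin k {x}) d ∧
      d ∉ P.toValuationSubring.nonunits ∧ y * d = n := by
  have := Fermat.Agent.Gateway.GoodRed.PlacesIntegral.isDedekindDomain_integralClosure_of_separable
    x hx
  have := Fermat.Agent.Gateway.GoodRed.PlacesIntegral.isFractionRing_integralClosure_of_finite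
    (k := k) (E := κ) x
  set 𝔭 := Fermat.Agent.Gateway.Red.chartPrime x P hP with h𝔭
  have hPp : Fermat.Agent.Gateway.Red.chartPlace (K := k) x 𝔭 = P :=
    Fermat.Agent.Gateway.Red.chartPlace_chartPrime x P hP
  have hv : 𝔭.valuation κ y ≤ 1 := by
    rw [← Fermat.Agent.Gateway.Red.mem_chartPlace_iff (K := k) x 𝔭 y, hPp]
    exact hy
  obtain ⟨n, d, hnd⟩ := 𝔭.exists_primeCompl_mul_eq_of_integer y hv
  refine ⟨(n : κ), ((d : integralClosure (Algebra.adjoin k {x}) κ) : κ), n.2, d.1.2, ?_, hnd⟩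
  intro hd
  exact d.2 ((Fermat.Agent.Gateway.Red.mem_chartPrime_iff x P hP d).mpr hd)

end Local

section ResZpow

variable {K : Type*} [Field K] {A : ValuationSubring K} {F : Type*} [Field F] [Algebra K F]
  {O : ValuationSubring F} {k κ : Type*} [Field k] [Field κ] [Algebra k κ]

/-- the reduction of the inverse of a unit -/
theorem res_inv (R : Gateway.C0.RedSetup A O k κ) {u : F} (hu : u ∈ O) (hui : u⁻¹ ∈ O) :
    R.res ⟨u⁻¹, hui⟩ = (R.res ⟨u, hu⟩)⁻¹ := by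
  rcases eq_or_ne u 0 with rfl | hu0
  · have e1 : (⟨(0 : F)⁻¹, hui⟩ : O) = 0 := Subtype.ext inv_zero
    have e2 : (⟨(0 : F), hu⟩ : O) = 0 := rfl
    rw [e1, e2, map_zero, inv_zero]
  · apply eq_inv_of_mul_eq_one_left
    rw [← map_mul]
    have e : (⟨u⁻¹, hui⟩ : O) * ⟨u, hu⟩ = 1 := Subtype.ext (inv_mul_cancel₀ hu0)
    rw [e, map_one]

/-- the reduction of `g u^a` for a unit `u` -/
theorem res_mul_zpow (R : Gateway.C0.RedSetup A O k κ) {g u : F} (hg : g ∈ O) (hu : u ∈ O)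
    (hui : u⁻¹ ∈ O) (a : ℤ) :
    ∃ hmem : g * u ^ a ∈ O, R.res ⟨g * u ^ a, hmem⟩ = R.res ⟨g, hg⟩ * (R.res ⟨u, hu⟩) ^ a := by
  obtain ⟨n, rfl | rfl⟩ := Int.eq_nat_or_neg a
  · have hmem : g * u ^ (n : ℤ) ∈ O := by
      rw [zpow_natCast]
      exact O.mul_mem _ _ hg (O.pow_mem hu n)
    refine ⟨hmem, ?_⟩
    have e : (⟨g * u ^ (n : ℤ), hmem⟩ : O) = ⟨g, hg⟩ * ⟨u, hu⟩ ^ n := by
      apply Subtype.ext
      show g * u ^ (n : ℤ) = g * u ^ n
      rw [zpow_natCast]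
    rw [e, map_mul, map_pow, zpow_natCast]
  · have hmem : g * u ^ (-(n : ℤ)) ∈ O := by
      rw [zpow_neg, zpow_natCast, ← inv_pow]
      exact O.mul_mem _ _ hg (O.pow_mem hui n)
    refine ⟨hmem, ?_⟩
    have e : (⟨g * u ^ (-(n : ℤ)), hmem⟩ : O) = ⟨g, hg⟩ * ⟨u⁻¹, hui⟩ ^ n := by
      apply Subtype.ext
      show g * u ^ (-(n : ℤ)) = g * u⁻¹ ^ n
      rw [zpow_neg, zpow_natCast, ← inv_pow]
    rw [e, map_mul, map_pow, res_inv R hu hui, zpow_neg, zpow_natCast, inv_pow]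

/-- a unit of `O` has nonzero reduction -/
theorem res_ne_zero_of_valuation_eq_one (R : Gateway.C0.RedSetup A O k κ) {g : F} (hg : g ∈ O)
    (h1 : O.valuation g = 1) : R.res ⟨g, hg⟩ ≠ 0 := by
  intro h
  have := (R.res_ker _).mp h
  rw [h1] at this
  exact lt_irrefl _ this

end ResZpow

variable {K : Type*} [Field K] {A : ValuationSubring K} {F : Type*} [Field F] [Algebra K F]
  {V W : ValuationSubring F} {k κ₁ κ₂ : Type*} [Field k] [Field κ₁] [Field κ₂]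
  [Algebra k κ₁] [Algebra k κ₂]
  {R₁ : Gateway.C0.RedSetup A V k κ₁} {R₂ : Gateway.C0.RedSetup A W k κ₂} {hπ : R₁.π = R₂.π}
  (C : ChartCoord (redSetupTwoVal R₁ R₂ hπ))

/-- (L2): the reduction of the chart ring onto `C.B₁` is surjective -/
theorem rho₁_surjective (hL : C.IsL2) : Function.Surjective (rho₁ C) := by
  intro f
  obtain ⟨g, hg⟩ := hL.fst f.1 f.2
  obtain ⟨b, y, hy, hyL, hres⟩ := C.mem_Bbar_iff.mp hg
  have hyi : IsIntegral (Algebra.adjoin K {C.t}) y :=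
    (isIntegral_iff_exists_mem_twoPole C.t_mul_tinv).mpr ⟨b, hyL⟩
  refine ⟨⟨y, hy.1, hy.2, hyi⟩, ?_⟩
  apply Subtype.ext
  rw [coe_rho₁]
  exact congrArg Prod.fst hres

/-- (L2): the reduction of the chart ring onto `C.B₂` is surjective -/
theorem rho₂_surjective (hL : C.IsL2) : Function.Surjective (rho₂ C) := by
  intro f
  obtain ⟨g, hg⟩ := hL.snd f.1 f.2
  obtain ⟨b, y, hy, hyL, hres⟩ := C.mem_Bbar_iff.mp hg
  have hyi : IsIntegral (Algebra.adjoin K {C.t}) y :=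
    (isIntegral_iff_exists_mem_twoPole C.t_mul_tinv).mpr ⟨b, hyL⟩
  refine ⟨⟨y, hy.1, hy.2, hyi⟩, ?_⟩
  apply Subtype.ext
  rw [coe_rho₂]
  exact congrArg Prod.snd hres

variable (hL : C.IsL2) (s : Goursat.Nodes C.BbarT hL.h2)
  (ht : Transcendental K C.t) [FiniteDimensional K⟮C.t⟯ F] [Algebra.IsSeparable K⟮C.t⟯ F]

section Infty

variable (hT₁ : Transcendental k C.T.1) [FiniteDimensional k⟮C.T.1⟯ κ₁]
  [Algebra.IsSeparable k⟮C.T.1⟯ κ₁]

include hT₁ in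
/-- a `v_∞`-unit whose reduction has order `0` at the node place `P₁` is an `s`-unit along the
`∞`-branch -/
theorem sunitI_of_ord_eq_zero (P₁ : Place k κ₁) (hPT : C.T.1 ∈ P₁.toValuationSubring)
    (hPs : ∀ b : C.B₁, s (Goursat.φ C.BbarT hL.h1 hL.h2 b) = 0 ↔
      (b : κ₁) ∈ P₁.toValuationSubring.nonunits)
    {g : F} (hgV : g ∈ V) (hg0 : R₁.res ⟨g, hgV⟩ ≠ 0) (hord : P₁.ord (R₁.res ⟨g, hgV⟩) = 0) :
    (nodeCtx C hL s ht).SUnitI g := by
  set y := R₁.res ⟨g, hgV⟩ with hy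
  have hyP : y ∈ P₁.toValuationSubring :=
    (Fermat.Agent.S24.ZP.ord_nonneg_iff P₁ hg0).mp (le_of_eq hord.symm)
  obtain ⟨n, d, hn, hd, hdP, hyd⟩ := exists_div_of_mem C.T.1 hT₁ P₁ hPT hyP
  -- `n` is a unit at `P₁` as well
  have hd0 : d ≠ 0 := by
    rintro rfl
    exact hdP (NodeCtx.zero_mem_nonunits _)
  have hn0 : n ≠ 0 := by
    rw [← hyd]
    exact mul_ne_zero hg0 hd0
  have hdP' : d ∈ P₁.toValuationSubring :=
    Fermat.Agent.S24.ZP.integralClosure_le_place C.T.1 P₁ hPT ⟨d, hd⟩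
  have hordd : P₁.ord d = 0 := by
    have h1 : 0 ≤ P₁.ord d := (Fermat.Agent.S24.ZP.ord_nonneg_iff P₁ hd0).mpr hdP'
    rcases h1.lt_or_eq with h2 | h2
    · exact absurd ((Fermat.Agent.S24.ZP.ord_pos_iff P₁ hd0).mp h2) hdP
    · exact h2.symm
  have hordn : P₁.ord n = 0 := by
    rw [← hyd, P₁.ord_mul hg0 hd0, hord, hordd, add_zero]
  have hnP : n ∉ P₁.toValuationSubring.nonunits := by
    intro h
    have := (Fermat.Agent.S24.ZP.ord_pos_iff P₁ hn0).mpr h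
    rw [hordn] at this
    exact lt_irrefl _ this
  -- lift `n`, `d` to the chart ring
  obtain ⟨b₁, hb₁⟩ := rho₁_surjective C hL ⟨n, hn⟩
  obtain ⟨b₂, hb₂⟩ := rho₁_surjective C hL ⟨d, hd⟩
  refine ⟨b₁, b₂, ?_, ?_, ?_⟩
  · show nodeEv C hL s b₁ ≠ 0
    rw [nodeEv_apply₁, hb₁]
    exact fun h => hnP ((hPs ⟨n, hn⟩).mp h)
  · show nodeEv C hL s b₂ ≠ 0
    rw [nodeEv_apply₁, hb₂]
    exact fun h => hdP ((hPs ⟨d, hd⟩).mp h)
  · show g * (b₂ : F) - (b₁ : F) ∈ V.nonunits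
    have hmem : g * (b₂ : F) - (b₁ : F) ∈ V :=
      V.sub_mem (V.mul_mem _ _ hgV b₂.2.1) b₁.2.1
    rw [V.mem_nonunits_iff]
    have h1 : R₁.res ⟨g * (b₂ : F) - (b₁ : F), hmem⟩ = 0 := by
      have e : (⟨g * (b₂ : F) - (b₁ : F), hmem⟩ : V) = ⟨g, hgV⟩ * toV C b₂ - toV C b₁ := rfl
      rw [e, map_sub, map_mul, ← coe_rho₁, ← coe_rho₁, hb₁, hb₂]
      show y * d - n = 0
      rw [hyd, sub_self]
    exact (R₁.res_ker _).mp h1

end Infty

section Zero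

variable (hT₂ : Transcendental k C.T.2) [FiniteDimensional k⟮C.T.2⟯ κ₂]
  [Algebra.IsSeparable k⟮C.T.2⟯ κ₂]

include hT₂ in
/-- a `v_0`-unit whose reduction has order `0` at the node place `P₂` is an `s`-unit along the
`0`-branch -/
theorem sunit0_of_ord_eq_zero (P₂ : Place k κ₂) (hPT : C.T.2 ∈ P₂.toValuationSubring)
    (hPs : ∀ b : C.B₂, s (Goursat.ψ C.BbarT hL.h2 b) = 0 ↔
      (b : κ₂) ∈ P₂.toValuationSubring.nonunits)
    {g : F} (hgW : g ∈ W) (hg0 : R₂.res ⟨g, hgW⟩ ≠ 0) (hord : P₂.ord (R₂.res ⟨g, hgW⟩) = 0) :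
    (nodeCtx C hL s ht).SUnit0 g := by
  set y := R₂.res ⟨g, hgW⟩ with hy
  have hyP : y ∈ P₂.toValuationSubring :=
    (Fermat.Agent.S24.ZP.ord_nonneg_iff P₂ hg0).mp (le_of_eq hord.symm)
  obtain ⟨n, d, hn, hd, hdP, hyd⟩ := exists_div_of_mem C.T.2 hT₂ P₂ hPT hyP
  have hd0 : d ≠ 0 := by
    rintro rfl
    exact hdP (NodeCtx.zero_mem_nonunits _)
  have hn0 : n ≠ 0 := by
    rw [← hyd]
    exact mul_ne_zero hg0 hd0
  have hdP' : d ∈ P₂.toValuationSubring :=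
    Fermat.Agent.S24.ZP.integralClosure_le_place C.T.2 P₂ hPT ⟨d, hd⟩
  have hordd : P₂.ord d = 0 := by
    have h1 : 0 ≤ P₂.ord d := (Fermat.Agent.S24.ZP.ord_nonneg_iff P₂ hd0).mpr hdP'
    rcases h1.lt_or_eq with h2 | h2
    · exact absurd ((Fermat.Agent.S24.ZP.ord_pos_iff P₂ hd0).mp h2) hdP
    · exact h2.symm
  have hordn : P₂.ord n = 0 := by
    rw [← hyd, P₂.ord_mul hg0 hd0, hord, hordd, add_zero]
  have hnP : n ∉ P₂.toValuationSubring.nonunits := by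
    intro h
    have := (Fermat.Agent.S24.ZP.ord_pos_iff P₂ hn0).mpr h
    rw [hordn] at this
    exact lt_irrefl _ this
  obtain ⟨b₁, hb₁⟩ := rho₂_surjective C hL ⟨n, hn⟩
  obtain ⟨b₂, hb₂⟩ := rho₂_surjective C hL ⟨d, hd⟩
  refine ⟨b₁, b₂, ?_, ?_, ?_⟩
  · show nodeEv C hL s b₁ ≠ 0
    rw [nodeEv_apply₂, hb₁]
    exact fun h => hnP ((hPs ⟨n, hn⟩).mp h)
  · show nodeEv C hL s b₂ ≠ 0
    rw [nodeEv_apply₂, hb₂]
    exact fun h => hdP ((hPs ⟨d, hd⟩).mp h)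
  · show g * (b₂ : F) - (b₁ : F) ∈ W.nonunits
    have hmem : g * (b₂ : F) - (b₁ : F) ∈ W :=
      W.sub_mem (W.mul_mem _ _ hgW b₂.2.2.1) b₁.2.2.1
    rw [W.mem_nonunits_iff]
    have h1 : R₂.res ⟨g * (b₂ : F) - (b₁ : F), hmem⟩ = 0 := by
      have e : (⟨g * (b₂ : F) - (b₁ : F), hmem⟩ : W) = ⟨g, hgW⟩ * toW C b₂ - toW C b₁ := rfl
      rw [e, map_sub, map_mul, ← coe_rho₂, ← coe_rho₂, hb₁, hb₂]
      show y * d - n = 0
      rw [hyd, sub_self]
    exact (R₂.res_ker _).mp h1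

end Zero

section DLit

variable {C} {hL s ht}
variable {pi0 : K} {T : Thick C pi0} [HasPrincipalDivisors K F] [IsAlgClosed K] [CharZero K]
  (X : DecData T hL s ht) (hs : nodeEv C hL s ⟨T.Psi, T.hPsi⟩ ≠ 0)
  (hT₁ : Transcendental k C.T.1) [FiniteDimensional k⟮C.T.1⟯ κ₁]
  [Algebra.IsSeparable k⟮C.T.1⟯ κ₁]
  (hT₂ : Transcendental k C.T.2) [FiniteDimensional k⟮C.T.2⟯ κ₂]
  [Algebra.IsSeparable k⟮C.T.2⟯ κ₂]

include X hs hT₁ hT₂ in
/-- **(d-lit)** (note 2615), for ALL functions over `K`: if `g` is a unit at both Gauss valuations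
and `p ∣ ord_Q g` at every place `Q` of `F / K`, then at the node `s = (P₁, P₂)` of thickness one
`p ∣ ord_{P₁} (red_∞ g) + ord_{P₂} (red_0 g)`. -/
theorem dvd_ord_add_ord (hinf : ∀ n : ℤ, A.valuation pi0 ^ n = 1 → n = 0)
    (P₁ : Place k κ₁) (hPT₁ : C.T.1 ∈ P₁.toValuationSubring)
    (hPs₁ : ∀ b : C.B₁, s (Goursat.φ C.BbarT hL.h1 hL.h2 b) = 0 ↔
      (b : κ₁) ∈ P₁.toValuationSubring.nonunits)
    (P₂ : Place k κ₂) (hPT₂ : C.T.2 ∈ P₂.toValuationSubring)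
    (hPs₂ : ∀ b : C.B₂, s (Goursat.ψ C.BbarT hL.h2 b) = 0 ↔
      (b : κ₂) ∈ P₂.toValuationSubring.nonunits)
    (hu' : P₁.ord (R₁.res ⟨T.u', T.hu'.1⟩) = 1) (hu : P₂.ord (R₂.res ⟨T.u, T.hu.2.1⟩) = 1)
    {g : F} (hgV : g ∈ V) (hgW : g ∈ W) (hgV1 : V.valuation g = 1) (hgW1 : W.valuation g = 1)
    (p : ℕ) (hg : ∀ Q : Place K F, (p : ℤ) ∣ Q.ord g) :
    (p : ℤ) ∣ P₁.ord (R₁.res ⟨g, hgV⟩) + P₂.ord (R₂.res ⟨g, hgW⟩) := by
  classical
  have hg0 : g ≠ 0 := by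
    rintro rfl
    rw [map_zero] at hgV1
    exact zero_ne_one hgV1
  set a := P₁.ord (R₁.res ⟨g, hgV⟩) with ha
  set a' := P₂.ord (R₂.res ⟨g, hgW⟩) with ha'
  have hy₁ := res_ne_zero_of_valuation_eq_one R₁ hgV hgV1
  have hy₂ := res_ne_zero_of_valuation_eq_one R₂ hgW hgW1
  -- units
  have hu'V : T.u' ∈ V ∧ T.u'⁻¹ ∈ V :=
    ⟨T.hu'.1, inv_mem_of_notMem_nonunits V T.hu'.1 T.u'_V⟩
  have huW : T.u ∈ W ∧ T.u⁻¹ ∈ W :=
    ⟨T.hu.2.1, inv_mem_of_notMem_nonunits W T.hu.2.1 T.u_W⟩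
  have hū' : R₁.res ⟨T.u', hu'V.1⟩ ≠ 0 :=
    res_ne_zero_of_valuation_eq_one R₁ _ (valuation_eq_one_of_notMem_nonunits V T.hu'.1 T.u'_V)
  have hū : R₂.res ⟨T.u, huW.1⟩ ≠ 0 :=
    res_ne_zero_of_valuation_eq_one R₂ _ (valuation_eq_one_of_notMem_nonunits W T.hu.2.1 T.u_W)
  -- the `∞`-branch
  obtain ⟨hm₁, hr₁⟩ := res_mul_zpow R₁ hgV hu'V.1 hu'V.2 (-a)
  have hI : (nodeCtx C hL s ht).SUnitI (g * (algebraMap K F 1)⁻¹ * T.u' ^ (-a)) := by
    rw [map_one, inv_one, mul_one]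
    apply sunitI_of_ord_eq_zero C hL s ht hT₁ P₁ hPT₁ hPs₁ hm₁
    · rw [hr₁]
      exact mul_ne_zero hy₁ (zpow_ne_zero _ hū')
    · rw [hr₁, P₁.ord_mul hy₁ (zpow_ne_zero _ hū'), P₁.ord_zpow, hu', ← ha]
      ring
  -- the `0`-branch
  obtain ⟨hm₂, hr₂⟩ := res_mul_zpow R₂ hgW huW.1 huW.2 (-a')
  have h0 : (nodeCtx C hL s ht).SUnit0 (g * (algebraMap K F 1)⁻¹ * T.u ^ (-a')) := by
    rw [map_one, inv_one, mul_one]
    apply sunit0_of_ord_eq_zero C hL s ht hT₂ P₂ hPT₂ hPs₂ hm₂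
    · rw [hr₂]
      exact mul_ne_zero hy₂ (zpow_ne_zero _ hū)
    · rw [hr₂, P₂.ord_mul hy₂ (zpow_ne_zero _ hū), P₂.ord_zpow, hu, ← ha']
      ring
  -- the divisor of `g` near the node
  obtain ⟨Dg, hDg, -⟩ := HasPrincipalDivisors.exists_divisor (K := K) g hg0
  set Dv : Place K F → ℤ := fun Q => Q.ord g / (p : ℤ) with hDv
  have hf : ∀ v, (nodeCtx C hL s ht).Centered v → v.ord g = (p : ℤ) * Dv v := fun v _ =>
    (Int.mul_ediv_cancel' (hg v)).symm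
  set Z : Finset (Place K F) :=
    Dg.support.filter fun Q => (nodeCtx C hL s ht).Centered Q with hZdef
  have hZc : ∀ v ∈ Z, (nodeCtx C hL s ht).Centered v := fun v hv =>
    (Finset.mem_filter.mp hv).2
  have hZ : ∀ v, (nodeCtx C hL s ht).Centered v → Dv v ≠ 0 → v ∈ Z := by
    intro v hv hD
    rw [hZdef, Finset.mem_filter]
    refine ⟨?_, hv⟩
    rw [Finsupp.mem_support_iff, hDg]
    intro h
    apply hD
    rw [hDv]
    simp only
    rw [h, Int.zero_ediv]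
  have key := X.node_sum hs hinf (p : ℤ) Dv Z hZc hZ hf one_ne_zero one_ne_zero a a' hI h0
  exact ⟨_, key⟩

end DLit

end Fermat.Agent.S40x.Tame.NodeSumInst
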