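/-
P-S44/S40, block R1 route beta, dir `S40x/Tame`: **(d-lit) of note 2615, CORRECTED hypotheses on the
second component** (fix of `Tame/NodeSumInst.lean`, which is frozen).

`Tame/NodeSumInst.sunit0_of_ord_eq_zero` / `dvd_ord_add_ord` ask for `κ₂ / k(C.T.2)` finite SEPARABLE.
At the concrete level `M q` one has `C.T.2 = x̄ ^ q` (Frobenius twist on the `0`-side), so
`κ₂ / k(C.T.2)` is NOT separable and the landed statements cannot be instantiated there (flag of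
helper65, `Node/NodePole.exists_branch₂_of_isHalfChart`).  Here the half-chart ring `C.B₂` is only
required to be the integral closure of `k[T']` for SOME `T'` with `κ₂ / k(T')` finite separable
(`Node/PlaceIdeal.IsHalfChart T' C.B₂`; concrete level: `T' = x̄`,
`PlaceIdealInst.chart_isHalfChart_B₂`).  Same conclusions, same other hypotheses.

* `sunit0_of_ord_eq_zero`: a `v_0`-unit whose reduction has order `0` at `P₂` is an `s`-unit along
  the `0`-branch;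
* `dvd_ord_add_ord`: **(d-lit)**;
* `dvd_ord_add_ord_of_pow`: the same when both residue fields are one field `κ` and
  `C.T.2 = C.T.1 ^ q` (the shape of the concrete chart, `PlaceIdealInst.chart_T_snd`): only
  `κ / k(C.T.1)` finite separable is needed.
-/
import Fermat.Agent.S40x.Tame.NodeSumInst
import Fermat.Agent.S40x.Node.PlaceIdealInst

set_option autoImplicit false
set_option linter.unusedSectionVars false

noncomputable section

namespace Fermat.Agent.S40x.Tame.NodeSumInstB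

open AlgebraicCurve IsLocalRing IntermediateField IsDedekindDomain
open Fermat.Agent.S34x Fermat.Agent.S34x.C0two Fermat.Agent.S34x.Lattice2
open Fermat.Agent.S40x.Tame.Harmonic Fermat.Agent.S40x.Tame.TameLemma
open Fermat.Agent.S40x.Tame.ChartNode Fermat.Agent.S40x.Tame.ChartThick
open Fermat.Agent.S40x.Tame.ChartDec Fermat.Agent.S40x.Tame.NodeSumInst
open Fermat.Agent.S40x.Node.PlaceIdeal

variable {K : Type*} [Field K] {A : ValuationSubring K} {F : Type*} [Field F] [Algebra K F]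
  {V W : ValuationSubring F} {k κ₁ κ₂ : Type*} [Field k] [Field κ₁] [Field κ₂]
  [Algebra k κ₁] [Algebra k κ₂]
  {R₁ : Gateway.C0.RedSetup A V k κ₁} {R₂ : Gateway.C0.RedSetup A W k κ₂} {hπ : R₁.π = R₂.π}
  (C : ChartCoord (redSetupTwoVal R₁ R₂ hπ))

/-- `T'` is finite at every place at which `C.T.2` is -/
theorem mem_place_of_isHalfChart {T' : κ₂} (hB : IsHalfChart T' C.B₂) (P₂ : Place k κ₂)
    (hPT : C.T.2 ∈ P₂.toValuationSubring) : T' ∈ P₂.toValuationSubring :=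
  Fermat.Agent.S24.ZP.integralClosure_le_place C.T.2 P₂ hPT ⟨T', hB.T_mem⟩

variable (hL : C.IsL2) (s : Goursat.Nodes C.BbarT hL.h2)
  (ht : Transcendental K C.t) [FiniteDimensional K⟮C.t⟯ F] [Algebra.IsSeparable K⟮C.t⟯ F]

section Zero

variable {T' : κ₂} (hB : IsHalfChart T' C.B₂) (hT' : Transcendental k T')
  [FiniteDimensional k⟮T'⟯ κ₂] [Algebra.IsSeparable k⟮T'⟯ κ₂]

include hB hT' in
/-- a `v_0`-unit whose reduction has order `0` at the node place `P₂` is an `s`-unit along the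
`0`-branch (no separability of `κ₂ / k(C.T.2)`) -/
theorem sunit0_of_ord_eq_zero (P₂ : Place k κ₂) (hPT : C.T.2 ∈ P₂.toValuationSubring)
    (hPs : ∀ b : C.B₂, s (Goursat.ψ C.BbarT hL.h2 b) = 0 ↔
      (b : κ₂) ∈ P₂.toValuationSubring.nonunits)
    {g : F} (hgW : g ∈ W) (hg0 : R₂.res ⟨g, hgW⟩ ≠ 0) (hord : P₂.ord (R₂.res ⟨g, hgW⟩) = 0) :
    (nodeCtx C hL s ht).SUnit0 g := by
  set y := R₂.res ⟨g, hgW⟩ with hy
  have hPT' : T' ∈ P₂.toValuationSubring := mem_place_of_isHalfChart C hB P₂ hPT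
  have hyP : y ∈ P₂.toValuationSubring :=
    (Fermat.Agent.S24.ZP.ord_nonneg_iff P₂ hg0).mp (le_of_eq hord.symm)
  obtain ⟨n, d, hn, hd, hdP, hyd⟩ := exists_div_of_mem T' hT' P₂ hPT' hyP
  have hnB : n ∈ C.B₂ := (hB n).mpr hn
  have hdB : d ∈ C.B₂ := (hB d).mpr hd
  have hd0 : d ≠ 0 := by
    rintro rfl
    exact hdP (NodeCtx.zero_mem_nonunits _)
  have hn0 : n ≠ 0 := by
    rw [← hyd]
    exact mul_ne_zero hg0 hd0
  have hdP' : d ∈ P₂.toValuationSubring :=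
    Fermat.Agent.S24.ZP.integralClosure_le_place T' P₂ hPT' ⟨d, hd⟩
  have hordd : P₂.ord d = 0 := by
    have h1 : 0 ≤ P₂.ord d := (Fermat.Agent.S24.ZP.ord_nonneg_iff P₂ hd0).mpr hdP'
    rcases h1.lt_or_eq with h2 | h2
    · exact absurd ((Fermat.Agent.S24.ZP.ord_pos_iff P₂ hd0).mp h2) hdP
    · exact h2.symm
  have hordn : P₂.ord n = 0 := by
    rw [← hyd, P₂.ord_mul hg0 hd0, hord, hordd, add_zero]
  have hnP : n ∉ P₂.toValuationSubring.nonunits := by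
    intro h
    have := (Fermat.Agent.S24.ZP.ord_pos_iff P₂ hn0).mpr h
    rw [hordn] at this
    exact lt_irrefl _ this
  obtain ⟨b₁, hb₁⟩ := rho₂_surjective C hL ⟨n, hnB⟩
  obtain ⟨b₂, hb₂⟩ := rho₂_surjective C hL ⟨d, hdB⟩
  refine ⟨b₁, b₂, ?_, ?_, ?_⟩
  · show nodeEv C hL s b₁ ≠ 0
    rw [nodeEv_apply₂, hb₁]
    exact fun h => hnP ((hPs ⟨n, hnB⟩).mp h)
  · show nodeEv C hL s b₂ ≠ 0
    rw [nodeEv_apply₂, hb₂]
    exact fun h => hdP ((hPs ⟨d, hdB⟩).mp h)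
  · show g * (b₂ : F) - (b₁ : F) ∈ W.nonunits
    have hmem : g * (b₂ : F) - (b₁ : F) ∈ W :=
      W.sub_mem (W.mul_mem _ _ hgW b₂.2.2.1) b₁.2.2.1
    rw [W.mem_nonunits_iff]
    have h1 : R₂.res ⟨g * (b₂ : F) - (b₁ : F), hmem⟩ = 0 := by
      have e : (⟨g * (b₂ : F) - (b₁ : F), hmem⟩ : W) = ⟨g, hgW⟩ * toW C b₂ - toW C b₁ := rfl
      rw [e, map_sub, map_mul, ← coe_rho₂, ← coe_rho₂, hb₁, hb₂]
      show y * d - n = 0
      rw [hyd, sub_self]
    exact (R₂.res_ker _).mp h1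

end Zero

section DLit

variable {C} {hL s ht}
variable {pi0 : K} {T : Thick C pi0} [HasPrincipalDivisors K F] [IsAlgClosed K] [CharZero K]
  (X : DecData T hL s ht) (hs : nodeEv C hL s ⟨T.Psi, T.hPsi⟩ ≠ 0)
  (hT₁ : Transcendental k C.T.1) [FiniteDimensional k⟮C.T.1⟯ κ₁]
  [Algebra.IsSeparable k⟮C.T.1⟯ κ₁]
  {T' : κ₂} (hB : IsHalfChart T' C.B₂) (hT' : Transcendental k T')
  [FiniteDimensional k⟮T'⟯ κ₂] [Algebra.IsSeparable k⟮T'⟯ κ₂]

include X hs hT₁ hB hT' in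
/-- **(d-lit)** (note 2615), for ALL functions over `K`, with the hypotheses on the second
component in the half-chart form (instantiable at the concrete level `M q`, where
`C.T.2 = x̄ ^ q`): if `g` is a unit at both Gauss valuations and `p ∣ ord_Q g` at every place `Q`
of `F / K`, then at the node `s = (P₁, P₂)` of thickness one
`p ∣ ord_{P₁} (red_∞ g) + ord_{P₂} (red_0 g)`. -/
theorem dvd_ord_add_ord (hinf : ∀ n : ℤ, A.valuation pi0 ^ n = 1 → n = 0)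
    (P₁ : Place k κ₁) (hPT₁ : C.T.1 ∈ P₁.toValuationSubring)
    (hPs₁ : ∀ b : C.B₁, s (Goursat.φ C.BbarT hL.h1 hL.h2 b) = 0 ↔
      (b : κ₁) ∈ P₁.toValuationSubring.nonunits)
    (P₂ : Place k κ₂) (hPT₂ : C.T.2 ∈ P₂.toValuationSubring)
    (hPs₂ : ∀ b : C.B₂, s (Goursat.ψ C.BbarT hL.h2 b) = 0 ↔
      (b : κ₂) ∈ P₂.toValuationSubring.nonunits)
    (hu' : P₁.ord (R₁.res ⟨T.u', T.hu'.1⟩) = 1) (hu : P₂.ord (R₂.res ⟨T.u, T.hu.2.1⟩) = 1)
    {g : F} (hgV : g ∈ V) (hgW : g ∈ W) (hgV1 : V.valuation g = 1) (hgW1 : W.valuation g = 1)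
    (p : ℕ) (hg : ∀ Q : Place K F, (p : ℤ) ∣ Q.ord g) :
    (p : ℤ) ∣ P₁.ord (R₁.res ⟨g, hgV⟩) + P₂.ord (R₂.res ⟨g, hgW⟩) := by
  classical
  have hg0 : g ≠ 0 := by
    rintro rfl
    rw [map_zero] at hgV1
    exact zero_ne_one hgV1
  set a := P₁.ord (R₁.res ⟨g, hgV⟩) with ha
  set a' := P₂.ord (R₂.res ⟨g, hgW⟩) with ha'
  have hy₁ := res_ne_zero_of_valuation_eq_one R₁ hgV hgV1
  have hy₂ := res_ne_zero_of_valuation_eq_one R₂ hgW hgW1
  -- units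
  have hu'V : T.u' ∈ V ∧ T.u'⁻¹ ∈ V :=
    ⟨T.hu'.1, inv_mem_of_notMem_nonunits V T.hu'.1 T.u'_V⟩
  have huW : T.u ∈ W ∧ T.u⁻¹ ∈ W :=
    ⟨T.hu.2.1, inv_mem_of_notMem_nonunits W T.hu.2.1 T.u_W⟩
  have hū' : R₁.res ⟨T.u', hu'V.1⟩ ≠ 0 :=
    res_ne_zero_of_valuation_eq_one R₁ _ (valuation_eq_one_of_notMem_nonunits V T.hu'.1 T.u'_V)
  have hū : R₂.res ⟨T.u, huW.1⟩ ≠ 0 :=
    res_ne_zero_of_valuation_eq_one R₂ _ (valuation_eq_one_of_notMem_nonunits W T.hu.2.1 T.u_W)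
  -- the `∞`-branch
  obtain ⟨hm₁, hr₁⟩ := res_mul_zpow R₁ hgV hu'V.1 hu'V.2 (-a)
  have hI : (nodeCtx C hL s ht).SUnitI (g * (algebraMap K F 1)⁻¹ * T.u' ^ (-a)) := by
    rw [map_one, inv_one, mul_one]
    apply NodeSumInst.sunitI_of_ord_eq_zero C hL s ht hT₁ P₁ hPT₁ hPs₁ hm₁
    · rw [hr₁]
      exact mul_ne_zero hy₁ (zpow_ne_zero _ hū')
    · rw [hr₁, P₁.ord_mul hy₁ (zpow_ne_zero _ hū'), P₁.ord_zpow, hu', ← ha]
      ring
  -- the `0`-branch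
  obtain ⟨hm₂, hr₂⟩ := res_mul_zpow R₂ hgW huW.1 huW.2 (-a')
  have h0 : (nodeCtx C hL s ht).SUnit0 (g * (algebraMap K F 1)⁻¹ * T.u ^ (-a')) := by
    rw [map_one, inv_one, mul_one]
    apply sunit0_of_ord_eq_zero C hL s ht hB hT' P₂ hPT₂ hPs₂ hm₂
    · rw [hr₂]
      exact mul_ne_zero hy₂ (zpow_ne_zero _ hū)
    · rw [hr₂, P₂.ord_mul hy₂ (zpow_ne_zero _ hū), P₂.ord_zpow, hu, ← ha']
      ring
  -- the divisor of `g` near the node
  obtain ⟨Dg, hDg, -⟩ := HasPrincipalDivisors.exists_divisor (K := K) g hg0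
  set Dv : Place K F → ℤ := fun Q => Q.ord g / (p : ℤ) with hDv
  have hf : ∀ v, (nodeCtx C hL s ht).Centered v → v.ord g = (p : ℤ) * Dv v := fun v _ =>
    (Int.mul_ediv_cancel' (hg v)).symm
  set Z : Finset (Place K F) :=
    Dg.support.filter fun Q => (nodeCtx C hL s ht).Centered Q with hZdef
  have hZc : ∀ v ∈ Z, (nodeCtx C hL s ht).Centered v := fun v hv =>
    (Finset.mem_filter.mp hv).2
  have hZ : ∀ v, (nodeCtx C hL s ht).Centered v → Dv v ≠ 0 → v ∈ Z := by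
    intro v hv hD
    rw [hZdef, Finset.mem_filter]
    refine ⟨?_, hv⟩
    rw [Finsupp.mem_support_iff, hDg]
    intro h
    apply hD
    rw [hDv]
    simp only
    rw [h, Int.zero_ediv]
  have key := X.node_sum hs hinf (p : ℤ) Dv Z hZc hZ hf one_ne_zero one_ne_zero a a' hI h0
  exact ⟨_, key⟩

end DLit

section Pow

variable {K : Type*} [Field K] {A : ValuationSubring K} {F : Type*} [Field F] [Algebra K F]
  {V W : ValuationSubring F} {k κ : Type*} [Field k] [Field κ] [Algebra k κ]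
  {R₁ : Gateway.C0.RedSetup A V k κ} {R₂ : Gateway.C0.RedSetup A W k κ} {hπ : R₁.π = R₂.π}
  {C : ChartCoord (redSetupTwoVal R₁ R₂ hπ)} {hL : C.IsL2} {s : Goursat.Nodes C.BbarT hL.h2}
  {ht : Transcendental K C.t} [FiniteDimensional K⟮C.t⟯ F] [Algebra.IsSeparable K⟮C.t⟯ F]
  {pi0 : K} {T : Thick C pi0} [HasPrincipalDivisors K F] [IsAlgClosed K] [CharZero K]

/-- **(d-lit)** in the shape of the concrete chart: both residue fields are `κ`,
`C.T.2 = C.T.1 ^ q`, and `κ / k(C.T.1)` is finite separable. -/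
theorem dvd_ord_add_ord_of_pow (X : DecData T hL s ht)
    (hs : nodeEv C hL s ⟨T.Psi, T.hPsi⟩ ≠ 0)
    (hT₁ : Transcendental k C.T.1) [FiniteDimensional k⟮C.T.1⟯ κ]
    [Algebra.IsSeparable k⟮C.T.1⟯ κ] {q : ℕ} (hq : 0 < q) (hT2 : C.T.2 = C.T.1 ^ q)
    (hinf : ∀ n : ℤ, A.valuation pi0 ^ n = 1 → n = 0)
    (P₁ : Place k κ) (hPT₁ : C.T.1 ∈ P₁.toValuationSubring)
    (hPs₁ : ∀ b : C.B₁, s (Goursat.φ C.BbarT hL.h1 hL.h2 b) = 0 ↔
      (b : κ) ∈ P₁.toValuationSubring.nonunits)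
    (P₂ : Place k κ) (hPT₂ : C.T.2 ∈ P₂.toValuationSubring)
    (hPs₂ : ∀ b : C.B₂, s (Goursat.ψ C.BbarT hL.h2 b) = 0 ↔
      (b : κ) ∈ P₂.toValuationSubring.nonunits)
    (hu' : P₁.ord (R₁.res ⟨T.u', T.hu'.1⟩) = 1) (hu : P₂.ord (R₂.res ⟨T.u, T.hu.2.1⟩) = 1)
    {g : F} (hgV : g ∈ V) (hgW : g ∈ W) (hgV1 : V.valuation g = 1) (hgW1 : W.valuation g = 1)
    (p : ℕ) (hg : ∀ Q : Place K F, (p : ℤ) ∣ Q.ord g) :
    (p : ℤ) ∣ P₁.ord (R₁.res ⟨g, hgV⟩) + P₂.ord (R₂.res ⟨g, hgW⟩) :=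
  dvd_ord_add_ord X hs hT₁ (Fermat.Agent.S40x.Node.PlaceIdealInst.isHalfChart_B₂ C hq hT2) hT₁
    hinf P₁ hPT₁ hPs₁ P₂ hPT₂ hPs₂ hu' hu hgV hgW hgV1 hgW1 p hg

end Pow

end Fermat.Agent.S40x.Tame.NodeSumInstB
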